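import Fermat.Agent.Ckmrv.Series
import Fermat.Agent.Forms3.ManySquares

/-!
# Cubic approximations on `0 ≤ q ≤ 1/535`

`|f - (c₀ + c₁ q + c₂ q² + c₃ q³)| ≤ R q⁴`, products of such statements, and the Eisenstein series
and theta constants on the imaginary axis, `q = exp (-2 π s)`, `s ≥ 1`.
-/

set_option autoImplicit false

noncomputable section

open Filter FA.Eis FA.Tau FA.Viazovska FA.ThetaAGM
open scoped Real Topology ArithmeticFunction.sigma

namespace FA.Ckmrv

/-- `f` is `c₀ + c₁ q + c₂ q² + c₃ q³` up to `R q⁴`. -/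
def Near (q f c₀ c₁ c₂ c₃ R : ℝ) : Prop :=
  |f - (c₀ + c₁ * q + c₂ * q ^ 2 + c₃ * q ^ 3)| ≤ R * q ^ 4

variable {q f g a b c d a' b' c' d' R S : ℝ}

theorem Near.radius_nonneg (h : Near q f a b c d R) (hq : 0 < q) : 0 ≤ R :=
  nonneg_of_mul_nonneg_left ((abs_nonneg _).trans h) (pow_pos hq 4)

theorem Near.add (h : Near q f a b c d R) (h' : Near q g a' b' c' d' S) :
    Near q (f + g) (a + a') (b + b') (c + c') (d + d') (R + S) := by
  rw [Near] at h h' ⊢
  rw [add_mul R]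
  refine le_trans (le_of_eq ?_) ((abs_add_le _ _).trans (add_le_add h h'))
  congr 1; ring

theorem Near.const_mul (h : Near q f a b c d R) (k : ℝ) :
    Near q (k * f) (k * a) (k * b) (k * c) (k * d) (|k| * R) := by
  rw [Near] at h ⊢
  rw [mul_assoc |k|]
  refine le_trans (le_of_eq ?_) (mul_le_mul_of_nonneg_left h (abs_nonneg k))
  rw [← abs_mul]
  congr 1; ring

theorem abs_four_le (hq : 0 < q) (hq1 : q ≤ 1 / 535) (a b c d : ℝ) :
    |a + b * q + c * q ^ 2 + d * q ^ 3| ≤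
      |a| + |b| / 535 + |c| / 535 ^ 2 + |d| / 535 ^ 3 := by
  have e : ∀ (x : ℝ) (k : ℕ), |x * q ^ k| ≤ |x| / 535 ^ k := fun x k => by
    rw [abs_mul, abs_of_pos (pow_pos hq k), div_eq_mul_inv, ← inv_pow, inv_eq_one_div]
    exact mul_le_mul_of_nonneg_left (pow_le_pow_left₀ hq.le hq1 k) (abs_nonneg x)
  have e1 := e b 1
  rw [pow_one, pow_one] at e1
  linarith [abs_add_le (a + b * q + c * q ^ 2) (d * q ^ 3), abs_add_le (a + b * q) (c * q ^ 2),
    abs_add_le a (b * q), e c 2, e d 3]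

theorem Near.mul (h : Near q f a b c d R) (h' : Near q g a' b' c' d' S) (hq : 0 < q)
    (hq1 : q ≤ 1 / 535) :
    Near q (f * g) (a * a') (a * b' + b * a') (a * c' + b * b' + c * a')
      (a * d' + b * c' + c * b' + d * a')
      (|b * d' + c * c' + d * b'| + |c * d' + d * c'| / 535 + |d * d'| / 535 ^ 2 +
        R * (|a'| + |b'| / 535 + |c'| / 535 ^ 2 + |d'| / 535 ^ 3) +
        S * (|a| + |b| / 535 + |c| / 535 ^ 2 + |d| / 535 ^ 3) + R * S / 535 ^ 4) := by
  have hR := h.radius_nonneg hq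
  have hS := h'.radius_nonneg hq
  rw [Near] at h h' ⊢
  set u := f - (a + b * q + c * q ^ 2 + d * q ^ 3)
  set v := g - (a' + b' * q + c' * q ^ 2 + d' * q ^ 3)
  have q4 : (0 : ℝ) < q ^ 4 := pow_pos hq 4
  have h4 : q ^ 4 ≤ 1 / 535 ^ 4 := by
    rw [← one_div_pow]; exact pow_le_pow_left₀ hq.le hq1 4
  have t0 : |(b * d' + c * c' + d * b' + (c * d' + d * c') * q + d * d' * q ^ 2 + 0 * q ^ 3) *
      q ^ 4| ≤ (|b * d' + c * c' + d * b'| + |c * d' + d * c'| / 535 + |d * d'| / 535 ^ 2) *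
        q ^ 4 := by
    rw [abs_mul, abs_of_pos q4]
    refine mul_le_mul_of_nonneg_right ((abs_four_le hq hq1 _ _ _ _).trans (le_of_eq ?_)) q4.le
    rw [abs_zero]; ring
  have t1 : |u * (a' + b' * q + c' * q ^ 2 + d' * q ^ 3)| ≤
      R * (|a'| + |b'| / 535 + |c'| / 535 ^ 2 + |d'| / 535 ^ 3) * q ^ 4 := by
    rw [abs_mul, mul_right_comm]
    exact mul_le_mul h (abs_four_le hq hq1 _ _ _ _) (abs_nonneg _) (by positivity)
  have t2 : |(a + b * q + c * q ^ 2 + d * q ^ 3) * v| ≤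
      S * (|a| + |b| / 535 + |c| / 535 ^ 2 + |d| / 535 ^ 3) * q ^ 4 := by
    rw [abs_mul, mul_comm, mul_right_comm]
    exact mul_le_mul h' (abs_four_le hq hq1 _ _ _ _) (abs_nonneg _) (by positivity)
  have t3 : |u * v| ≤ R * S / 535 ^ 4 * q ^ 4 := by
    rw [abs_mul]
    refine (mul_le_mul h h' (abs_nonneg _) (by positivity)).trans ?_
    calc R * q ^ 4 * (S * q ^ 4) = R * S * q ^ 4 * q ^ 4 := by ring
      _ ≤ R * S * (1 / 535 ^ 4) * q ^ 4 := by gcongr
      _ = _ := by ring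
  rw [show f * g - (a * a' + (a * b' + b * a') * q + (a * c' + b * b' + c * a') * q ^ 2 +
      (a * d' + b * c' + c * b' + d * a') * q ^ 3) =
      (b * d' + c * c' + d * b' + (c * d' + d * c') * q + d * d' * q ^ 2 + 0 * q ^ 3) * q ^ 4 +
        u * (a' + b' * q + c' * q ^ 2 + d' * q ^ 3) +
        (a + b * q + c * q ^ 2 + d * q ^ 3) * v + u * v by simp only [u, v]; ring]
  refine (abs_add_le _ _).trans ((add_le_add ((abs_add_le _ _).trans (add_le_add
    ((abs_add_le _ _).trans (add_le_add t0 t1)) t2)) t3).trans (le_of_eq ?_))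
  ring

theorem Near.cast (h : Near q f a b c d R) (e₀ : a = a') (e₁ : b = b') (e₂ : c = c')
    (e₃ : d = d') (hR : R ≤ S) : Near q f a' b' c' d' S := by
  subst e₀ e₁ e₂ e₃
  exact le_trans h (mul_le_mul_of_nonneg_right hR (by positivity))

/-! ### On the axis -/

theorem axNome_sq_le {s : ℝ} (hs : 1 ≤ s) : axNome s ^ 2 ≤ 1 / 535 := by
  rw [axNome_sq, Real.exp_neg, one_div]
  refine inv_anti₀ (by norm_num) (le_trans ?_ (Real.exp_le_exp.2
    (show (6.28318 : ℝ) ≤ 2 * π * s by nlinarith [Real.pi_gt_d6])))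
  rw [show (6.28318 : ℝ) = (6 : ℕ) * 1 + 0.28318 by norm_num, Real.exp_add, Real.exp_nat_mul]
  have h1 : (403.4287 : ℝ) ≤ Real.exp 1 ^ 6 :=
    le_trans (by norm_num) (pow_le_pow_left₀ (by norm_num) Real.exp_one_gt_d9.le 6)
  have h2 : (1.3272 : ℝ) ≤ Real.exp 0.28318 := le_trans (by norm_num [Finset.sum_range_succ])
    (Real.sum_le_exp_of_nonneg (by norm_num) 5)
  exact le_trans (by norm_num) (mul_le_mul h1 h2 (by norm_num) (by positivity))

theorem axNome_pos (s : ℝ) : 0 < axNome s := Real.exp_pos _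

/-- The tail of a series with coefficients growing at most geometrically. -/
theorem near_of_hasSum {c : ℕ → ℝ} (h : HasSum (fun n => c n * q ^ n) f) (hq : 0 < q)
    (hq1 : q ≤ 1 / 535) {K ρ : ℝ} (hK : 0 ≤ K) (hρ : 0 ≤ ρ) (hρq : ρ < 535)
    (hc : ∀ n, |c (n + 4)| ≤ K * ρ ^ n) :
    Near q f (c 0) (c 1) (c 2) (c 3) (K / (1 - ρ / 535)) := by
  have hρ1 : ρ * q < 1 := lt_of_le_of_lt (mul_le_mul_of_nonneg_left hq1 hρ) (by linarith)
  have hg := (hasSum_geometric_of_lt_one (by positivity) hρ1).mul_left (K * q ^ 4)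
  have h4 := (hasSum_nat_add_iff' 4).2 h
  have hb : ∀ n, ‖c (n + 4) * q ^ (n + 4)‖ ≤ K * q ^ 4 * (ρ * q) ^ n := fun n => by
    rw [Real.norm_eq_abs, abs_mul, abs_of_pos (pow_pos hq _), pow_add, mul_pow]
    calc |c (n + 4)| * (q ^ n * q ^ 4) ≤ K * ρ ^ n * (q ^ n * q ^ 4) :=
          mul_le_mul_of_nonneg_right (hc n) (by positivity)
      _ = _ := by ring
  have hle := tsum_of_norm_bounded hg hb
  rw [h4.tsum_eq, Real.norm_eq_abs] at hle
  simp only [Finset.sum_range_succ, Finset.sum_range_zero, zero_add, pow_zero, mul_one, pow_one]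
    at hle
  refine hle.trans ?_
  rw [mul_right_comm, div_eq_mul_inv]
  refine mul_le_mul_of_nonneg_right (mul_le_mul_of_nonneg_left (inv_anti₀ (by linarith) ?_) hK)
    (by positivity)
  have := mul_le_mul_of_nonneg_left hq1 hρ
  linarith

theorem add_four_pow_le (n k : ℕ) : ((n : ℝ) + 4) ^ k ≤ 4 ^ k * ((5 / 4 : ℝ) ^ k) ^ n := by
  rw [← pow_mul, mul_comm k n, pow_mul, ← mul_pow]
  refine pow_le_pow_left₀ (by positivity) ?_ k
  have := one_add_mul_le_pow (show (-2 : ℝ) ≤ 1 / 4 by norm_num) n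
  norm_num at this
  linarith

variable {s : ℝ}

theorem near_eis (hs : 1 ≤ s) :
    Near (axNome s ^ 2) (axEis s) 1 (-24) (-72) (-96) 390 ∧
      Near (axNome s ^ 2) (axP s) 1 240 2160 6720 61800 ∧
      Near (axNome s ^ 2) (axQ s) 1 (-504) (-16632) (-122976) 2100000 := by
  have hs0 : 0 < s := by linarith
  have hq : 0 < axNome s ^ 2 := pow_pos (axNome_pos s) 2
  have hq1 := axNome_sq_le hs
  obtain ⟨a, b, c, d, e, g⟩ := sigma_values
  have key : ∀ (k : ℤ) (j : ℕ) (A : PowerSeries ℤ) (v : ℝ),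
      (∀ n, 0 < n → PowerSeries.coeff n A = k * σ j n) →
      HasSum (fun n : ℕ => ((PowerSeries.coeff n A : ℤ) : ℝ) * (axNome s ^ 2) ^ n) v →
      (5 / 4 : ℝ) ^ (j + 1) < 535 →
      Near (axNome s ^ 2) v (PowerSeries.coeff 0 A : ℤ) (PowerSeries.coeff 1 A : ℤ)
        (PowerSeries.coeff 2 A : ℤ) (PowerSeries.coeff 3 A : ℤ)
        (|(k : ℝ)| * 4 ^ (j + 1) / (1 - (5 / 4 : ℝ) ^ (j + 1) / 535)) :=
    fun k j A v hA hv hρ => near_of_hasSum hv hq hq1 (by positivity) (by positivity) hρ fun n => by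
      rw [hA (n + 4) (by omega), Int.cast_mul, Int.cast_natCast, abs_mul, Nat.abs_cast, mul_assoc]
      refine mul_le_mul_of_nonneg_left (le_trans ?_ (add_four_pow_le n (j + 1))) (abs_nonneg _)
      exact_mod_cast ArithmeticFunction.sigma_le_pow_succ j (n + 4)
  obtain ⟨e2, e4, e6⟩ := re_eisTwo_axis hs0
  obtain ⟨h2, -⟩ := hasSum_axis hasQ_eTwo hs0
  obtain ⟨h4, -⟩ := hasSum_axis hasQ_eFour hs0
  obtain ⟨h6, -⟩ := hasSum_axis hasQ_eSix hs0
  rw [e2, Complex.ofReal_re, ← axNome_sq] at h2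
  rw [e4, Complex.ofReal_re, ← axNome_sq] at h4
  rw [e6, Complex.ofReal_re, ← axNome_sq] at h6
  refine ⟨(key (-24) 1 eTwoInt _ (fun n hn => ?_) h2 (by norm_num)).cast ?_ ?_ ?_ ?_ ?_,
    (key 240 3 eFourInt _ (fun n hn => ?_) h4 (by norm_num)).cast ?_ ?_ ?_ ?_ ?_,
    (key (-504) 5 eSixInt _ (fun n hn => ?_) h6 (by norm_num)).cast ?_ ?_ ?_ ?_ ?_⟩
  all_goals first
    | simp [eTwoInt, eFourInt, eSixInt, hn.ne']
    | (simp [eTwoInt, eFourInt, eSixInt, a, b, c, d, e, g]; done)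
    | norm_num
where
  sigma_values : σ 1 2 = 3 ∧ σ 1 3 = 4 ∧ σ 3 2 = 9 ∧ σ 3 3 = 28 ∧ σ 5 2 = 33 ∧ σ 5 3 = 244 := by
    decide

/-- `θ₃(2 i s)` and `θ₂(2 i s) = 2 q^{1/4} η`. -/
theorem near_thetas (hs : 1 ≤ s) :
    ∃ A η : ℝ, axTwo s = 16 * axNome s * (A ^ 2 * η ^ 2) ∧
      axFour s = (A ^ 2 - 4 * axNome s * η ^ 2) ^ 2 ∧ 1 ≤ A ∧ 1 ≤ η ∧
      Near (axNome s ^ 2) A 1 2 0 0 3 ∧ Near (axNome s ^ 2) η 1 0 1 0 2 := by
  have hs0 : 0 < s := by linarith
  have hq : 0 < axNome s ^ 2 := pow_pos (axNome_pos s) 2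
  have hq1 := axNome_sq_le hs
  set q := axNome s ^ 2 with hqdef
  obtain ⟨r1, r2⟩ := FA.Gleason.theta_ray (t := s)
  set B := thetaTwo (2 * s)
  set v := Real.exp (-(π * s / 2)) with hv
  have hv0 : 0 < v := Real.exp_pos _
  have hv2 : v ^ 2 = axNome s := by
    rw [hv, ← Real.exp_nat_mul, axNome]; ring_nf
  have hB : HasSum (fun n : ℕ => 2 * v * q ^ (n * (n + 1))) B := by
    have hsum := (summable_two (show 0 < 2 * s by positivity)).of_norm
    set F : ℤ → ℝ := fun n => Real.exp (-π * (2 * s) * ((n : ℝ) + 1 / 2) ^ 2)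
    have hF : ∀ n : ℕ, F n = v * q ^ (n * (n + 1)) := fun n => by
      simp only [F, hqdef, hv, axNome, ← Real.exp_nat_mul, ← Real.exp_add, Int.cast_natCast]
      push_cast; ring_nf
    have hF' : ∀ n : ℕ, F (-((n : ℤ) + 1)) = F n := fun n => by
      simp only [F]; push_cast; ring_nf
    have h1 : Summable fun n : ℕ => F n := hsum.comp_injective Nat.cast_injective
    have e : B = ∑' n : ℕ, (F n + F n) := by
      have h := tsum_of_nat_of_neg_add_one h1 (by simpa only [hF'] using h1)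
      simp only [hF'] at h
      rw [h1.tsum_add h1]
      exact h
    rw [e]
    refine ((h1.add h1).hasSum).congr_fun fun n => ?_
    rw [hF]; ring
  have hη := hB.div_const (2 * v)
  have hη' : HasSum (fun n : ℕ => q ^ (n * (n + 1))) (B / (2 * v)) :=
    hη.congr_fun fun n => by field_simp
  refine ⟨thetaThree (2 * s), B / (2 * v), ?_, ?_, one_le_thetaThree (by positivity), ?_, ?_, ?_⟩
  · rw [axTwo, thetaFourthTwo, r1, r2]; norm_cast; rw [← hv2]; field_simp; ring
  · rw [axFour, thetaFourthFour, r1, r2]; norm_cast; rw [← hv2]; field_simp; ring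
  · refine le_trans (le_of_eq ?_) (le_hasSum hη' 0 fun n _ => by positivity)
    simp
  · have h := theta_tail (x := 2 * ((s : ℂ) * Complex.I)) (by simp; linarith)
    have e1 : Complex.exp (π * Complex.I * (2 * ((s : ℂ) * Complex.I))) = (q : ℂ) := by
      rw [hqdef, axNome_sq, Complex.ofReal_exp]
      congr 1; push_cast; linear_combination (2 * π * s : ℂ) * Complex.I_mul_I
    have e2 : Complex.exp (4 * π * Complex.I * (2 * ((s : ℂ) * Complex.I))) =
        ((q ^ 4 : ℝ) : ℂ) := by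
      rw [Complex.ofReal_pow, ← e1, ← Complex.exp_nat_mul]; ring_nf
    rw [FA.Gleason.thetaA] at r1
    rw [r1, e1, e2] at h
    norm_cast at h
    rw [Real.norm_eq_abs] at h
    have h9 : Real.exp (-(9 * π * (2 * ((s : ℂ) * Complex.I)).im)) = q ^ 9 := by
      rw [hqdef, axNome_sq, ← Real.exp_nat_mul]; simp; ring_nf
    have hc : 2 / (1 - Real.exp (-π)) ≤ 4 := by
      have : Real.exp (-π) ≤ 1 / 2 := by
        rw [Real.exp_neg, one_div]
        exact inv_anti₀ two_pos (by linarith [Real.add_one_le_exp π, Real.pi_gt_three])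
      rw [div_le_iff₀ (by linarith)]
      linarith
    rw [h9] at h
    have h5 : q ^ 9 ≤ q ^ 4 * (1 / 535) := by
      calc q ^ 9 = q ^ 4 * q ^ 5 := by ring
        _ ≤ q ^ 4 * q := mul_le_mul_of_nonneg_left
            (pow_le_of_le_one hq.le (hq1.trans (by norm_num)) (by norm_num)) (by positivity)
        _ ≤ _ := mul_le_mul_of_nonneg_left hq1 (by positivity)
    obtain ⟨l, u⟩ := abs_le.1 h
    have := mul_le_mul_of_nonneg_right hc (pow_pos hq 9).le
    have hq4 := pow_pos hq 4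
    rw [Near, abs_le]
    constructor <;> linarith
  · set η := B / (2 * v)
    have h2 := (hasSum_nat_add_iff' 2).2 hη'
    have hg := (hasSum_geometric_of_lt_one hq.le (hq1.trans_lt (by norm_num))).mul_left (q ^ 4)
    have hle := hasSum_le (fun n => ?_) h2 hg
    · have hnn : 0 ≤ η - (1 + q ^ 2) := by
        have := h2.nonneg fun n => by positivity
        simpa [Finset.sum_range_succ] using this
      simp only [Finset.sum_range_succ, Finset.sum_range_zero] at hle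
      have hi : (1 - q)⁻¹ ≤ 2 := by
        rw [inv_le_comm₀ (by linarith) two_pos]; linarith
      have := mul_le_mul_of_nonneg_left hi (pow_pos hq 4).le
      norm_num at hle
      rw [Near, abs_le]
      constructor <;> linarith [pow_pos hq 4]
    · rw [← pow_add]
      exact pow_le_pow_of_le_one hq.le (hq1.trans (by norm_num)) (by nlinarith)

end FA.Ckmrv

end
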