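import Fermat.Agent.Ckmrv.Inequality
import Fermat.Agent.Ckmrv.Near

/-!
# The lower bound of the dual kernel on `[i, i ∞)`

For `k = 432 / π²` the dual of `F / Δ² - k G / Δ²` exceeds its growing part minus
`780000000 y² exp (-π y)`, for `y ≥ 1`.
-/

set_option autoImplicit false

noncomputable section

open Filter FA.Viazovska Set
open scoped Real Topology

namespace FA.Ckmrv

/-- `θ₄²⁰ (2 θ₄⁸ + …)` on the axis. -/
def gtR (s : ℝ) : ℝ :=
  axFour s ^ 5 * (2 * axFour s ^ 2 + 7 * (axTwo s * axFour s) + 7 * axTwo s ^ 2)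

/-- `∂F/∂e` on the axis. -/
def fOneR (s : ℝ) : ℝ := 2 * polyA (axP s) (axQ s) * axEis s + polyB (axP s) (axQ s)

variable {q y : ℝ}

theorem near_q (q : ℝ) : Near q q 0 1 0 0 0 := by simp [Near]

/-- The quotient `Δ / q` and the forms, as cubics. -/
theorem near_forms (hs : 1 ≤ y) :
    Near (axNome y ^ 2) (discR y) 0 1 (-24) 252 480400 ∧
      Near (axNome y ^ 2) (polyA (axP y) (axQ y)) 24 60480 3265920 417795840 30700000000 ∧
        Near (axNome y ^ 2) (fOneR y) 0 120960 13063680 2506775040 167000000000 := by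
  obtain ⟨he, hp, hQ⟩ := near_eis hs
  have hq : 0 < axNome y ^ 2 := pow_pos (axNome_pos y) 2
  have hq1 := axNome_sq_le hs
  have p2 : Near (axNome y ^ 2) (axP y * axP y) 1 480 61920 1050240 8200000 :=
    (hp.mul hp hq hq1).cast (by norm_num) (by norm_num) (by norm_num) (by norm_num)
      (by norm_num [abs_of_pos, abs_of_neg])
  have p3 : Near (axNome y ^ 2) (axP y * (axP y * axP y)) 1 720 179280 16954560 410000000 :=
    (hp.mul p2 hq hq1).cast (by norm_num) (by norm_num) (by norm_num) (by norm_num)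
      (by norm_num [abs_of_pos, abs_of_neg])
  have q2 : Near (axNome y ^ 2) (axQ y * axQ y) 1 (-1008) 220752 16519104 420000000 :=
    (hQ.mul hQ hq hq1).cast (by norm_num) (by norm_num) (by norm_num) (by norm_num)
      (by norm_num [abs_of_pos, abs_of_neg])
  have qp : Near (axNome y ^ 2) (axQ y * (axP y * axP y)) 1 (-24) (-196632) (-38263776)
      1700000000 :=
    (hQ.mul p2 hq hq1).cast (by norm_num) (by norm_num) (by norm_num) (by norm_num)
      (by norm_num [abs_of_pos, abs_of_neg])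
  have hA : Near (axNome y ^ 2) (polyA (axP y) (axQ y)) 24 60480 3265920 417795840
      30700000000 := by
    rw [show polyA (axP y) (axQ y) = 49 * (axP y * (axP y * axP y)) + -25 * (axQ y * axQ y) by
      rw [polyA]; ring]
    exact ((p3.const_mul 49).add (q2.const_mul (-25))).cast (by norm_num) (by norm_num)
      (by norm_num) (by norm_num) (by norm_num [abs_of_pos, abs_of_neg])
  refine ⟨?_, hA, ?_⟩
  · rw [show discR y = 1 / 1728 * (axP y * (axP y * axP y)) + -1 / 1728 * (axQ y * axQ y) by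
      rw [discR_eq]; ring]
    exact ((p3.const_mul (1 / 1728)).add (q2.const_mul (-1 / 1728))).cast (by norm_num)
      (by norm_num) (by norm_num) (by norm_num) (by norm_num [abs_of_pos, abs_of_neg])
  · rw [show fOneR y = 2 * (polyA (axP y) (axQ y) * axEis y) + -48 * (axQ y * (axP y * axP y)) by
      rw [fOneR, polyB]; ring]
    exact (((hA.mul he hq hq1).const_mul 2).add (qp.const_mul (-48))).cast (by norm_num)
      (by norm_num) (by norm_num) (by norm_num) (by norm_num [abs_of_pos, abs_of_neg])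

/-- The forms of level two. -/
theorem near_theta_forms (hs : 1 ≤ y) : ∃ r : ℝ,
    axTwo y = 16 * axNome y * r ∧ 1 ≤ r ∧ r ≤ 1 + 41 / 10 * axNome y ^ 2 ∧
      Near (axNome y ^ 2) (gtR y + gFR y / 2) 2 (-560) 196560 38445120 2000000000 := by
  obtain ⟨A, η, ha, hc, hA1, hη1, hA, hη⟩ := near_thetas hs
  have hq : 0 < axNome y ^ 2 := pow_pos (axNome_pos y) 2
  have hq1 := axNome_sq_le hs
  have hA2 := hA.mul hA hq hq1
  have he2 := hη.mul hη hq hq1
  have hat : Near (axNome y ^ 2) (A * A * (η * η)) 1 4 6 8 20 :=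
    (hA2.mul he2 hq hq1).cast (by norm_num) (by norm_num) (by norm_num) (by norm_num)
      (by norm_num [abs_of_pos, abs_of_neg])
  refine ⟨A ^ 2 * η ^ 2, ha, one_le_mul_of_one_le_of_one_le (one_le_pow₀ hA1) (one_le_pow₀ hη1),
    ?_, ?_⟩
  · obtain ⟨-, hu⟩ := abs_le.1 hat
    set q := axNome y ^ 2
    nlinarith [pow_pos hq 2, pow_pos hq 3, mul_le_mul_of_nonneg_left hq1 hq.le,
      mul_le_mul_of_nonneg_left hq1 (pow_pos hq 2).le, mul_le_mul_of_nonneg_left hq1
        (pow_pos hq 3).le]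
  have hx : Near (axNome y ^ 2) (A * A * (A * A)) 1 8 24 32 29 :=
    (hA2.mul hA2 hq hq1).cast (by norm_num) (by norm_num) (by norm_num) (by norm_num)
      (by norm_num [abs_of_pos, abs_of_neg])
  have hy : Near (axNome y ^ 2) (16 * (axNome y ^ 2 * (η * η * (η * η)))) 0 16 0 64 (1 / 2) :=
    (((near_q _).mul (he2.mul he2 hq hq1) hq hq1).const_mul 16).cast (by norm_num) (by norm_num)
      (by norm_num) (by norm_num) (by norm_num [abs_of_pos, abs_of_neg])
  set x := A * A * (A * A)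
  set z := 16 * (axNome y ^ 2 * (η * η * (η * η)))
  have hsub : Near (axNome y ^ 2) (x + -1 * z) 1 (-8) 24 (-32) (59 / 2) :=
    (hx.add (hy.const_mul (-1))).cast (by norm_num) (by norm_num) (by norm_num) (by norm_num)
      (by norm_num)
  have hd : Near (axNome y ^ 2) ((x + -1 * z) * (x + -1 * z)) 1 (-16) 112 (-448) 1200 :=
    (hsub.mul hsub hq hq1).cast (by norm_num) (by norm_num) (by norm_num) (by norm_num)
      (by norm_num [abs_of_pos, abs_of_neg])
  have hm : Near (axNome y ^ 2) (x * z) 0 16 128 448 1100 :=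
    (hx.mul hy hq hq1).cast (by norm_num) (by norm_num) (by norm_num) (by norm_num)
      (by norm_num [abs_of_pos, abs_of_neg])
  have hd2 : Near (axNome y ^ 2) (((x + -1 * z) * (x + -1 * z)) * ((x + -1 * z) * (x + -1 * z)))
      1 (-32) 480 (-4480) 30000 :=
    (hd.mul hd hq hq1).cast (by norm_num) (by norm_num) (by norm_num) (by norm_num)
      (by norm_num [abs_of_pos, abs_of_neg])
  have hm2 := hm.mul hm hq hq1
  have key := (hx.add hy).mul (((((hd.mul hd2 hq hq1).const_mul 2).add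
    ((hm.mul hd2 hq hq1).const_mul (-32)))).add (((hm2.mul hd hq hq1).const_mul 768).add
      ((hm.mul hm2 hq hq1).const_mul 8192))) hq hq1
  refine (?_ : _ = gtR y + gFR y / 2) ▸ key.cast (by norm_num) (by norm_num) (by norm_num)
    (by norm_num) (by norm_num [abs_of_pos, abs_of_neg])
  simp only [x, z, gtR, gFR, ha, hc]
  ring

theorem disc_bounds (hs : 1 ≤ y) :
    0 < 1 - 24 * axNome y ^ 2 - 480400 * (axNome y ^ 2) ^ 3 ∧
      axNome y ^ 2 * (1 - 24 * axNome y ^ 2 + 252 * (axNome y ^ 2) ^ 2 -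
        480400 * (axNome y ^ 2) ^ 3) ≤ discR y ∧
      discR y ≤ axNome y ^ 2 * (1 - 24 * axNome y ^ 2 + 252 * (axNome y ^ 2) ^ 2 +
        480400 * (axNome y ^ 2) ^ 3) := by
  obtain ⟨hl, hu⟩ := abs_le.1 (near_forms hs).1
  have hq : 0 < axNome y ^ 2 := pow_pos (axNome_pos y) 2
  have hq1 := axNome_sq_le hs
  refine ⟨?_, by linarith, by linarith⟩
  have := pow_le_pow_left₀ hq.le hq1 3
  norm_num at this
  linarith

theorem bound_A (hs : 1 ≤ y) :
    polyA (axP y) (axQ y) / discR y ^ 2 ≤ 24 / (axNome y ^ 2) ^ 2 + 61632 / axNome y ^ 2 +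
      6198336 + 930000000 * axNome y ^ 2 := by
  obtain ⟨h0, hl, -⟩ := disc_bounds hs
  obtain ⟨-, hA⟩ := abs_le.1 (near_forms hs).2.1
  have hq : 0 < axNome y ^ 2 := pow_pos (axNome_pos y) 2
  have hq1 := axNome_sq_le hs
  have hd := discR_pos (show 0 < y by linarith)
  set q := axNome y ^ 2
  set l := 1 - 24 * q + 252 * q ^ 2 - 480400 * q ^ 3
  have hl0 : 0 < l := by nlinarith
  rw [div_le_iff₀ (pow_pos hd 2)]
  have h : polyA (axP y) (axQ y) ≤ (24 + 61632 * q + 6198336 * q ^ 2 + 930000000 * q ^ 3) *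
      l ^ 2 := by
    have p : ∀ k : ℕ, q ^ (k + 4) ≤ q ^ 4 * (1 / 535) ^ k := fun k => by
      rw [pow_add, mul_comm]; exact mul_le_mul_of_nonneg_left (pow_le_pow_left₀ hq.le hq1 k)
        (by positivity)
    have := mul_le_mul_of_nonneg_left hq1 (pow_pos hq 3).le
    simp only [l]
    ring_nf
    nlinarith [p 0, p 1, p 2, p 3, p 4, p 5, pow_pos hq 3, pow_pos hq 4, pow_pos hq 5,
      pow_pos hq 6, pow_pos hq 7, pow_pos hq 8, pow_pos hq 9]
  have h2 : (q * l) ^ 2 ≤ discR y ^ 2 := pow_le_pow_left₀ (by positivity) hl 2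
  refine h.trans ((le_of_eq ?_).trans (mul_le_mul_of_nonneg_left h2 (by positivity)))
  field_simp

theorem bound_fOne (hs : 1 ≤ y) :
    120960 / axNome y ^ 2 + 18869760 ≤ fOneR y / discR y ^ 2 := by
  obtain ⟨h0, -, hu⟩ := disc_bounds hs
  obtain ⟨hA, -⟩ := abs_le.1 (near_forms hs).2.2
  have hq : 0 < axNome y ^ 2 := pow_pos (axNome_pos y) 2
  have hq1 := axNome_sq_le hs
  have hd := discR_pos (show 0 < y by linarith)
  set q := axNome y ^ 2
  set l := 1 - 24 * q + 252 * q ^ 2 + 480400 * q ^ 3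
  rw [le_div_iff₀ (pow_pos hd 2)]
  have h : (120960 * q + 18869760 * q ^ 2) * l ^ 2 ≤ fOneR y := by
    have p : ∀ k : ℕ, q ^ (k + 4) ≤ q ^ 4 * (1 / 535) ^ k := fun k => by
      rw [pow_add, mul_comm]; exact mul_le_mul_of_nonneg_left (pow_le_pow_left₀ hq.le hq1 k)
        (by positivity)
    have := mul_le_mul_of_nonneg_left hq1 (pow_pos hq 3).le
    simp only [l]
    ring_nf
    nlinarith [p 0, p 1, p 2, p 3, p 4, p 5, pow_pos hq 3, pow_pos hq 4, pow_pos hq 5,
      pow_pos hq 6, pow_pos hq 7, pow_pos hq 8, pow_pos hq 9]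
  have h2 : discR y ^ 2 ≤ (q * l) ^ 2 := pow_le_pow_left₀ hd.le hu 2
  refine ((mul_le_mul_of_nonneg_left h2 (by positivity)).trans (le_of_eq ?_)).trans h
  field_simp

theorem bound_even (hs : 1 ≤ y) :
    2 / (axNome y ^ 2) ^ 2 - 464 / axNome y ^ 2 + 172128 ≤
      (gtR y + gFR y / 2) / discR y ^ 2 := by
  obtain ⟨h0, -, hu⟩ := disc_bounds hs
  obtain ⟨r, -, -, -, hT⟩ := near_theta_forms hs
  obtain ⟨hA, -⟩ := abs_le.1 hT
  have hq : 0 < axNome y ^ 2 := pow_pos (axNome_pos y) 2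
  have hq1 := axNome_sq_le hs
  have hd := discR_pos (show 0 < y by linarith)
  set q := axNome y ^ 2
  set l := 1 - 24 * q + 252 * q ^ 2 + 480400 * q ^ 3
  rw [le_div_iff₀ (pow_pos hd 2)]
  have hm : 0 ≤ 2 - 464 * q + 172128 * q ^ 2 := by nlinarith
  have h : (2 - 464 * q + 172128 * q ^ 2) * l ^ 2 ≤ gtR y + gFR y / 2 := by
    have p : ∀ k : ℕ, q ^ (k + 4) ≤ q ^ 4 * (1 / 535) ^ k := fun k => by
      rw [pow_add, mul_comm]; exact mul_le_mul_of_nonneg_left (pow_le_pow_left₀ hq.le hq1 k)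
        (by positivity)
    have := mul_le_mul_of_nonneg_left hq1 (pow_pos hq 3).le
    simp only [l]
    ring_nf
    nlinarith [p 0, p 1, p 2, p 3, p 4, p 5, pow_pos hq 3, pow_pos hq 4, pow_pos hq 5,
      pow_pos hq 6, pow_pos hq 7, pow_pos hq 8, pow_pos hq 9]
  have h2 : discR y ^ 2 ≤ (q * l) ^ 2 := pow_le_pow_left₀ hd.le hu 2
  have hm' : 0 ≤ 2 / q ^ 2 - 464 / q + 172128 := by
    rw [show 2 / q ^ 2 - 464 / q + 172128 = (2 - 464 * q + 172128 * q ^ 2) / q ^ 2 by field_simp]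
    positivity
  refine ((mul_le_mul_of_nonneg_left h2 hm').trans (le_of_eq ?_)).trans h
  field_simp

theorem bound_gFR (hs : 1 ≤ y) : gFR y / discR y ^ 2 ≤ 9400000 * axNome y := by
  obtain ⟨r, ha, hr1, hr, -⟩ := near_theta_forms hs
  obtain ⟨h0, hl, -⟩ := disc_bounds hs
  obtain ⟨-, hp⟩ := abs_le.1 (near_eis hs).2.1
  have hw := axNome_pos y
  have hq : 0 < axNome y ^ 2 := pow_pos hw 2
  have hq1 := axNome_sq_le hs
  have hd := discR_pos (show 0 < y by linarith)
  have hg : gFR y = axTwo y ^ 5 * (7 * axP y - 5 * axTwo y ^ 2) := by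
    rw [gFR, axP, quadR]; ring
  set w := axNome y
  set q := w ^ 2 with hqw
  set l := 1 - 24 * q + 252 * q ^ 2 - 480400 * q ^ 3
  have hl0 : (9520 / 10000 : ℝ) ≤ l := by
    have := pow_le_pow_left₀ hq.le hq1 3
    have := sq_nonneg q
    norm_num at *
    simp only [l]; linarith
  have hmid : 7 * axP y - 5 * axTwo y ^ 2 ≤ 7801 / 1000 := by
    have := pow_le_pow_left₀ hq.le hq1 2
    have := pow_le_pow_left₀ hq.le hq1 3
    have := pow_le_pow_left₀ hq.le hq1 4
    have : 256 * q * 1 ≤ 256 * q * r ^ 2 :=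
      mul_le_mul_of_nonneg_left (one_le_pow₀ hr1) (by positivity)
    rw [ha, show (16 * w * r) ^ 2 = 256 * q * r ^ 2 by rw [hqw]; ring]
    norm_num at *
    linarith
  have hr5 : r ^ 5 ≤ 1039 / 1000 :=
    (pow_le_pow_left₀ (zero_le_one.trans hr1) (hr.trans (by linarith : _ ≤ (1007664 / 1000000 : ℝ)))
      5).trans (by norm_num)
  rw [div_le_iff₀ (pow_pos hd 2)]
  calc gFR y = 1048576 * w ^ 5 * r ^ 5 * (7 * axP y - 5 * axTwo y ^ 2) := by rw [hg, ha]; ring
    _ ≤ 1048576 * w ^ 5 * r ^ 5 * (7801 / 1000) :=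
        mul_le_mul_of_nonneg_left hmid (by positivity)
    _ ≤ 1048576 * w ^ 5 * (1039 / 1000) * (7801 / 1000) := by gcongr
    _ ≤ 9400000 * w * (q * (9520 / 10000)) ^ 2 := by
        rw [hqw]; nlinarith [pow_pos hw 5]
    _ ≤ 9400000 * w * discR y ^ 2 := by
        gcongr
        exact (mul_le_mul_of_nonneg_left hl0 hq.le).trans hl

/-- `Ψ₊` on the axis. -/
def kPlus (y : ℝ) : ℝ := fR y / discR y ^ 2

/-- `Ψ₋` on the axis. -/
def kMinus (y : ℝ) : ℝ := -gFR y / discR y ^ 2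

/-- The dual kernel on the axis. -/
def dualAx (ψ : ℝ → ℝ) (y : ℝ) : ℝ := -(y ^ 10 * ψ y⁻¹)

/-- The growing part on the axis. -/
def mainAx (a₂ a₁ g b₁ b₀ y : ℝ) : ℝ :=
  a₂ * Real.exp (4 * π * y) + a₁ * Real.exp (2 * π * y) + g +
    y * (b₁ * Real.exp (2 * π * y) + b₀)

theorem disc_inv (hy : 0 < y) : discR y⁻¹ = y ^ 12 * discR y := by
  obtain ⟨j1, j2, -⟩ := axis_inv hy
  rw [discR, discR, j1, j2]; ring

theorem dual_kPlus (hy : 0 < y) : dualAx kPlus y = -(y ^ 2 * (fR y / discR y ^ 2)) +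
    6 / π * y * (fOneR y / discR y ^ 2) - 36 / π ^ 2 * (polyA (axP y) (axQ y) / discR y ^ 2) := by
  obtain ⟨j1, j2, j3⟩ := axis_inv hy
  have hd := (discR_pos hy).ne'
  have hp : axP y⁻¹ = y ^ 4 * axP y := by simp only [axP, quadR, j1, j2]; ring
  have hq : axQ y⁻¹ = -(y ^ 6 * axQ y) := by simp only [axQ, cubeR, j1, j2]; ring
  rw [dualAx, kPlus, disc_inv hy]
  simp only [fR, fOneR, polyA, polyB, polyC, hp, hq, j3]
  field_simp
  ring

theorem dual_kMinus (hy : 0 < y) : dualAx kMinus y = gtR y / discR y ^ 2 := by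
  obtain ⟨j1, j2, -⟩ := axis_inv hy
  have hd := (discR_pos hy).ne'
  rw [dualAx, kMinus, disc_inv hy, gFR, gtR, j1, j2]
  field_simp

/-- **The lower bound.** -/
theorem rest_lower (hs : 1 ≤ y) :
    -(780000000 * (y ^ 2 * Real.exp (-(π * y)))) ≤
      dualAx (fun t => kPlus t + 432 / π ^ 2 * kMinus t) y -
        mainAx 0 (-(2419200 / π ^ 2)) (-(148780800 / π ^ 2)) (725760 / π) (113218560 / π) y := by
  have hy : 0 < y := by linarith
  have hw := axNome_pos y
  have hlin : dualAx (fun t => kPlus t + 432 / π ^ 2 * kMinus t) y =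
      dualAx kPlus y + 432 / π ^ 2 * dualAx kMinus y := by
    simp only [dualAx]; ring
  have he : Real.exp (2 * π * y) = 1 / axNome y ^ 2 := by
    rw [axNome_sq, Real.exp_neg, one_div, inv_inv]
  have hw' : Real.exp (-(π * y)) = axNome y := rfl
  rw [hlin, dual_kPlus hy, dual_kMinus hy, mainAx, he, hw']
  have hA := bound_A hs
  have hO := bound_fOne hs
  have hT := bound_even hs
  have hG := bound_gFR hs
  have hF : fR y / discR y ^ 2 ≤ 432 / π ^ 2 * (gFR y / discR y ^ 2) := by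
    rw [← mul_div_assoc]
    exact div_le_div_of_nonneg_right (fR_lt hy).le (sq_nonneg _)
  have hk : 432 / π ^ 2 ≤ 4378 / 100 := by
    rw [div_le_iff₀ (by positivity)]; nlinarith [Real.pi_gt_d6]
  have hk36 : 36 / π ^ 2 ≤ 3648 / 1000 := by
    rw [div_le_iff₀ (by positivity)]; nlinarith [Real.pi_gt_d6]
  have hw1 : axNome y ≤ 1 / 23 := by
    have h := axNome_sq_le hs
    nlinarith
  have hy2 : 1 ≤ y ^ 2 := one_le_pow₀ hs
  have t1 := mul_le_mul_of_nonneg_left hO (show 0 ≤ 6 / π * y by positivity)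
  have t2 := mul_le_mul_of_nonneg_left hA (show 0 ≤ 36 / π ^ 2 by positivity)
  have t3 := mul_le_mul_of_nonneg_left hT (show 0 ≤ 432 / π ^ 2 by positivity)
  have t4 : fR y / discR y ^ 2 * y ^ 2 + 432 / π ^ 2 * (gFR y / discR y ^ 2) / 2 ≤
      617400000 * (y ^ 2 * axNome y) := by
    have hk' := mul_le_mul hk hG (div_nonneg (gFR_pos hy).le (sq_nonneg _)) (by norm_num)
    have hp : 0 ≤ y ^ 2 := sq_nonneg y
    have := mul_le_mul_of_nonneg_right (hF.trans hk') hp
    have := mul_le_mul_of_nonneg_right hy2 hw.le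
    linarith
  have t5 : 36 / π ^ 2 * (930000000 * axNome y ^ 2) ≤ 150000000 * (y ^ 2 * axNome y) := by
    have h1 := mul_le_mul hk36 (mul_le_mul_of_nonneg_left hw1 hw.le) (by positivity)
      (by norm_num : (0 : ℝ) ≤ 3648 / 1000)
    have := mul_le_mul_of_nonneg_right hy2 hw.le
    rw [sq (axNome y)]
    linarith
  have h7 : 0 ≤ y ^ 2 * axNome y := by positivity
  rw [show gtR y / discR y ^ 2 =
    (gtR y + gFR y / 2) / discR y ^ 2 - gFR y / discR y ^ 2 / 2 by ring]
  ring_nf at t1 t2 t3 t4 t5 ⊢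
  linarith

end FA.Ckmrv

end
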