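import Fermat.Agent.Ckmrv.Series
import Mathlib.Analysis.SpecialFunctions.Pow.Continuity

/-!
# The forms of weight sixteen and fourteen on the imaginary axis

`F = (49 p³ - 25 q²) e² - 48 q p² e + 49 p q² - 25 p⁴` and `G = a⁵ (2 a² + 7 a c + 7 c²)`, with
their Serre derivatives and the behaviour of `F` at `∞`.
-/

set_option autoImplicit false

noncomputable section

open UpperHalfPlane hiding I
open Complex Filter FA.Eis FA.Tau FA.Viazovska Set
open scoped Real Topology ArithmeticFunction.sigma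

namespace FA.Ckmrv

local notation "aR" => axTwo
local notation "cR" => axFour
local notation "eR" => axEis

/-- The coefficient of `e²`. -/
def polyA (p q : ℝ) : ℝ := 49 * p ^ 3 - 25 * q ^ 2

/-- The coefficient of `e`. -/
def polyB (p q : ℝ) : ℝ := -48 * (q * p ^ 2)

/-- The coefficient of `1`. -/
def polyC (p q : ℝ) : ℝ := -25 * p ^ 4 + 49 * (q ^ 2 * p)

/-- `F (i s)`. -/
def fR (s : ℝ) : ℝ :=
  polyA (axP s) (axQ s) * eR s ^ 2 + polyB (axP s) (axQ s) * eR s + polyC (axP s) (axQ s)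

/-- The Serre derivative of `F`. -/
def mR (s : ℝ) : ℝ :=
  -28 * (axQ s * axP s ^ 2 * eR s ^ 2) +
    (35 / 3 * axP s ^ 4 + 133 / 3 * (axP s * axQ s ^ 2)) * eR s -
      35 / 3 * (axP s ^ 3 * axQ s) - 49 / 3 * axQ s ^ 3

/-- `G (i s)`. -/
def gFR (s : ℝ) : ℝ := aR s ^ 5 * (2 * aR s ^ 2 + 7 * (aR s * cR s) + 7 * cR s ^ 2)

/-- The Serre derivative of `G`. -/
def nR (s : ℝ) : ℝ :=
  aR s ^ 5 / 6 * ((aR s + 2 * cR s) * (14 * aR s ^ 2 + 42 * (aR s * cR s) + 35 * cR s ^ 2) -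
    (2 * aR s + cR s) * (7 * (aR s * cR s) + 14 * cR s ^ 2))

variable {s : ℝ}

theorem gFR_pos (hs : 0 < s) : 0 < gFR s := by
  obtain ⟨-, -, -, ha, hc⟩ := axis_real hs
  unfold gFR; positivity

theorem discR_eq (s : ℝ) : discR s = (axP s ^ 3 - axQ s ^ 2) / 1728 := by
  simp only [discR, axP, axQ, quadR, cubeR]; ring

theorem hasDerivAt_pq (hs : 0 < s) :
    HasDerivAt axP (-(2 * π) * ((eR s * axP s - axQ s) / 3)) s ∧
      HasDerivAt axQ (-(2 * π) * ((eR s * axQ s - axP s ^ 2) / 2)) s ∧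
        HasDerivAt eR (-(2 * π) * ((eR s ^ 2 - axP s) / 12)) s := by
  obtain ⟨da, dc, de⟩ := hasDerivAt_axis hs
  refine ⟨(((da.pow 2).add (da.mul dc)).add (dc.pow 2)).congr_deriv ?_,
    ((((da.add (dc.const_mul 2)).mul ((da.const_mul 2).add dc)).mul (dc.sub da)).div_const
      2).congr_deriv ?_, de⟩
  · simp only [axP, axQ, quadR, cubeR, Nat.cast_ofNat, Nat.add_one_sub_one, pow_one]
    ring
  · simp only [axP, axQ, quadR, cubeR, Pi.add_apply, Pi.mul_apply, Pi.sub_apply]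
    ring

theorem hasDerivAt_fR (hs : 0 < s) :
    HasDerivAt fR (-(2 * π) * (mR s + 7 / 6 * (eR s * fR s))) s := by
  obtain ⟨dp, dq, de⟩ := hasDerivAt_pq hs
  refine ((((((dp.pow 3).const_mul 49).sub ((dq.pow 2).const_mul 25)).mul (de.pow 2)).add
    (((dq.mul (dp.pow 2)).const_mul (-48)).mul de)).add
      (((dp.pow 4).const_mul (-25)).add (((dq.pow 2).mul dp).const_mul 49))).congr_deriv ?_
  simp only [fR, mR, polyA, polyB, polyC, Pi.mul_apply, Pi.sub_apply, Pi.pow_apply,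
    Nat.cast_ofNat, Nat.add_one_sub_one, pow_one]
  ring

theorem hasDerivAt_mR (hs : 0 < s) :
    HasDerivAt mR (-(2 * π) * (4 / 3 * (eR s * mR s) + (14 / 9 * (axP s * fR s) +
      5486745600 * (discR s * xPoly (eR s) (axP s) (axQ s))))) s := by
  obtain ⟨dp, dq, de⟩ := hasDerivAt_pq hs
  refine ((((((dq.mul (dp.pow 2)).mul (de.pow 2)).const_mul (-28)).add
    ((((dp.pow 4).const_mul (35 / 3)).add ((dp.mul (dq.pow 2)).const_mul (133 / 3))).mul de)).sub
      (((dp.pow 3).mul dq).const_mul (35 / 3))).sub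
        ((dq.pow 3).const_mul (49 / 3))).congr_deriv ?_
  simp only [discR_eq, fR, mR, polyA, polyB, polyC, xPoly, Pi.add_apply, Pi.mul_apply,
    Pi.pow_apply, Nat.cast_ofNat, Nat.add_one_sub_one, pow_one]
  ring

theorem hasDerivAt_gFR (hs : 0 < s) :
    HasDerivAt gFR (-(2 * π) * (nR s + 7 / 6 * (eR s * gFR s))) s := by
  obtain ⟨da, dc, -⟩ := hasDerivAt_axis hs
  refine ((da.pow 5).mul ((((da.pow 2).const_mul 2).add ((da.mul dc).const_mul 7)).add
    ((dc.pow 2).const_mul 7))).congr_deriv ?_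
  simp only [gFR, nR, Pi.add_apply, Pi.mul_apply, Pi.pow_apply, Nat.cast_ofNat,
    Nat.add_one_sub_one, pow_one]
  ring

theorem hasDerivAt_nR (hs : 0 < s) :
    HasDerivAt nR (-(2 * π) * (4 / 3 * (eR s * nR s) + 14 / 9 * (axP s * gFR s))) s := by
  obtain ⟨da, dc, -⟩ := hasDerivAt_axis hs
  refine (((da.pow 5).div_const 6).mul (((da.add (dc.const_mul 2)).mul
    ((((da.pow 2).const_mul 14).add ((da.mul dc).const_mul 42)).add
      ((dc.pow 2).const_mul 35))).sub (((da.const_mul 2).add dc).mul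
        (((da.mul dc).const_mul 7).add ((dc.pow 2).const_mul 14))))).congr_deriv ?_
  simp only [gFR, nR, axP, quadR, Pi.add_apply, Pi.mul_apply, Pi.sub_apply, Pi.pow_apply,
    Nat.cast_ofNat, Nat.add_one_sub_one, pow_one]
  ring

/-! ### Heads of series -/

/-- The first four coefficients. -/
def HasHead (A : PowerSeries ℤ) (a b c d : ℤ) : Prop :=
  PowerSeries.coeff 0 A = a ∧ PowerSeries.coeff 1 A = b ∧ PowerSeries.coeff 2 A = c ∧
    PowerSeries.coeff 3 A = d

theorem HasHead.mul {A B : PowerSeries ℤ} {a b c d a' b' c' d' : ℤ} (h : HasHead A a b c d)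
    (h' : HasHead B a' b' c' d') : HasHead (A * B) (a * a') (a * b' + b * a')
      (a * c' + b * b' + c * a') (a * d' + b * c' + c * b' + d * a') := by
  obtain ⟨h0, h1, h2, h3⟩ := h
  obtain ⟨g0, g1, g2, g3⟩ := h'
  refine ⟨?_, ?_, ?_, ?_⟩ <;>
    simp [PowerSeries.coeff_mul, Finset.Nat.antidiagonal_succ, h0, h1, h2, h3, g0, g1, g2, g3] <;>
    ring

theorem HasHead.add {A B : PowerSeries ℤ} {a b c d a' b' c' d' : ℤ} (h : HasHead A a b c d)
    (h' : HasHead B a' b' c' d') : HasHead (A + B) (a + a') (b + b') (c + c') (d + d') := by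
  obtain ⟨h0, h1, h2, h3⟩ := h
  obtain ⟨g0, g1, g2, g3⟩ := h'
  exact ⟨by rw [map_add, h0, g0], by rw [map_add, h1, g1], by rw [map_add, h2, g2],
    by rw [map_add, h3, g3]⟩

theorem HasHead.const_mul {A : PowerSeries ℤ} {a b c d : ℤ} (h : HasHead A a b c d) (k : ℤ) :
    HasHead (PowerSeries.C k * A) (k * a) (k * b) (k * c) (k * d) := by
  obtain ⟨h0, h1, h2, h3⟩ := h
  exact ⟨by rw [PowerSeries.coeff_C_mul, h0], by rw [PowerSeries.coeff_C_mul, h1],
    by rw [PowerSeries.coeff_C_mul, h2], by rw [PowerSeries.coeff_C_mul, h3]⟩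

theorem HasHead.cast {A : PowerSeries ℤ} {a b c d a' b' c' d' : ℤ} (h : HasHead A a b c d)
    (e0 : a = a') (e1 : b = b') (e2 : c = c') (e3 : d = d') : HasHead A a' b' c' d' :=
  e0 ▸ e1 ▸ e2 ▸ e3 ▸ h

/-- The series of `F`. -/
def fSer : PowerSeries ℤ :=
  (PowerSeries.C 49 * (eFourInt * (eFourInt * eFourInt)) +
      PowerSeries.C (-25) * (eSixInt * eSixInt)) * (eTwoInt * eTwoInt) +
    PowerSeries.C (-48) * (eSixInt * (eFourInt * eFourInt)) * eTwoInt +
    (PowerSeries.C (-25) * ((eFourInt * eFourInt) * (eFourInt * eFourInt)) +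
      PowerSeries.C 49 * (eSixInt * eSixInt * eFourInt))

/-- The series of `∂F/∂e`. -/
def fOneSer : PowerSeries ℤ :=
  PowerSeries.C 2 * ((PowerSeries.C 49 * (eFourInt * (eFourInt * eFourInt)) +
      PowerSeries.C (-25) * (eSixInt * eSixInt)) * eTwoInt) +
    PowerSeries.C (-48) * (eSixInt * (eFourInt * eFourInt))

theorem sigma_small : σ 1 2 = 3 ∧ σ 1 3 = 4 ∧ σ 3 2 = 9 ∧ σ 3 3 = 28 ∧ σ 5 2 = 33 ∧
    σ 5 3 = 244 := by decide

theorem head_series : HasHead eTwoInt 1 (-24) (-72) (-96) ∧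
    HasHead eFourInt 1 240 2160 6720 ∧ HasHead eSixInt 1 (-504) (-16632) (-122976) := by
  obtain ⟨a, b, c, d, e, f⟩ := sigma_small
  simp [HasHead, eTwoInt, eFourInt, eSixInt, a, b, c, d, e, f]

theorem head_fSer : HasHead fSer 0 0 0 3657830400 := by
  obtain ⟨he, hp, hq⟩ := head_series
  have hpp := hp.mul hp
  exact ((((((hp.mul hpp).const_mul 49).add ((hq.mul hq).const_mul (-25))).mul (he.mul he)).add
    (((hq.mul hpp).const_mul (-48)).mul he)).add (((hpp.mul hpp).const_mul (-25)).add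
      (((hq.mul hq).mul hp).const_mul 49))).cast (by norm_num) (by norm_num) (by norm_num)
        (by norm_num)

theorem head_fOneSer_zero : PowerSeries.coeff 0 fOneSer = 0 := by
  obtain ⟨he, hp, hq⟩ := head_series
  exact (((((hp.mul (hp.mul hp)).const_mul 49).add ((hq.mul hq).const_mul (-25))).mul he).const_mul
    2 |>.add ((hq.mul (hp.mul hp)).const_mul (-48))).1.trans (by norm_num)

theorem hasQ_C_mul {f : ℍ → ℂ} {A : PowerSeries ℤ} (k : ℤ)
    (h : HasQ 1 f (A.map (Int.castRingHom ℂ))) :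
    HasQ 1 ((k : ℂ) • f) ((PowerSeries.C k * A).map (Int.castRingHom ℂ)) := by
  rw [map_mul, PowerSeries.map_C, ← PowerSeries.smul_eq_C_mul]
  exact h.smul (k : ℂ)

theorem hasQ_add {f g : ℍ → ℂ} {A B : PowerSeries ℤ} (h : HasQ 1 f (A.map (Int.castRingHom ℂ)))
    (h' : HasQ 1 g (B.map (Int.castRingHom ℂ))) :
    HasQ 1 (f + g) ((A + B).map (Int.castRingHom ℂ)) := by
  rw [map_add]; exact h.add h'

theorem hasQ_mul {f g : ℍ → ℂ} {A B : PowerSeries ℤ} (h : HasQ 1 f (A.map (Int.castRingHom ℂ)))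
    (h' : HasQ 1 g (B.map (Int.castRingHom ℂ))) :
    HasQ 1 (f * g) ((A * B).map (Int.castRingHom ℂ)) := by
  rw [map_mul]; exact h.mul one_pos h'

theorem hasSum_fR (hs : 0 < s) :
    HasSum (fun n : ℕ => ((PowerSeries.coeff n fSer : ℤ) : ℝ) * (axNome s ^ 2) ^ n) (fR s) ∧
      HasSum (fun n : ℕ => ((PowerSeries.coeff n fOneSer : ℤ) : ℝ) * (axNome s ^ 2) ^ n)
        (2 * polyA (axP s) (axQ s) * eR s + polyB (axP s) (axQ s)) := by
  obtain ⟨e2, e4, e6⟩ := re_eisTwo_axis hs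
  have hP := hasQ_mul hasQ_eFour hasQ_eFour
  have hA := hasQ_add (hasQ_C_mul 49 (hasQ_mul hasQ_eFour hP))
    (hasQ_C_mul (-25) (hasQ_mul hasQ_eSix hasQ_eSix))
  have hB := hasQ_C_mul (-48) (hasQ_mul hasQ_eSix hP)
  have hC := hasQ_add (hasQ_C_mul (-25) (hasQ_mul hP hP))
    (hasQ_C_mul 49 (hasQ_mul (hasQ_mul hasQ_eSix hasQ_eSix) hasQ_eFour))
  obtain ⟨h, -⟩ := hasSum_axis (A := fSer) (hasQ_add (hasQ_add
    (hasQ_mul hA (hasQ_mul hasQ_eTwo hasQ_eTwo)) (hasQ_mul hB hasQ_eTwo)) hC) hs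
  obtain ⟨h', -⟩ := hasSum_axis (A := fOneSer)
    (hasQ_add (hasQ_C_mul 2 (hasQ_mul hA hasQ_eTwo)) hB) hs
  simp only [Pi.add_apply, Pi.mul_apply, Pi.smul_apply, smul_eq_mul, e2, e4, e6] at h h'
  norm_cast at h h'
  simp only [← axNome_sq] at h h'
  refine ⟨?_, ?_⟩
  · convert h using 1
    simp only [fR, polyA, polyB, polyC, axP, axQ]; push_cast; ring
  · convert h' using 1
    simp only [polyA, polyB, axP, axQ]; push_cast; ring

theorem tendsto_div_pow {c : ℕ → ℤ} {g : ℝ → ℝ} (k : ℕ) (h0 : ∀ n < k, c n = 0)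
    (h : ∀ t, 0 < t → HasSum (fun n : ℕ => (c n : ℝ) * (axNome t ^ 2) ^ n) (g t)) :
    Tendsto (fun t => g t / (axNome t ^ 2) ^ k) atTop (𝓝 (c k : ℝ)) := by
  have hx : ∀ t : ℝ, 0 < axNome t ^ 2 := fun t => pow_pos (Real.exp_pos _) 2
  have hr : Antitone fun t => axNome t ^ 2 := fun t u htu => pow_le_pow_left₀ (Real.exp_pos _).le
    (Real.exp_le_exp.2 (by nlinarith [Real.pi_pos])) 2
  have h' : ∀ t, 0 < t →
      HasSum (fun n : ℕ => (c (n + k) : ℝ) * (axNome t ^ 2) ^ n) (g t / (axNome t ^ 2) ^ k) :=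
    fun t ht => by
    have hz := ((hasSum_nat_add_iff' k).2 (h t ht)).div_const ((axNome t ^ 2) ^ k)
    rw [Finset.sum_eq_zero (fun n hn => by simp [h0 n (Finset.mem_range.1 hn)]), sub_zero] at hz
    refine hz.congr_fun fun n => ?_
    rw [pow_add, ← mul_assoc, mul_div_cancel_right₀ _ (pow_ne_zero _ (hx t).ne')]
  have hnome : Tendsto (fun t => axNome t ^ 2) atTop (𝓝 0) := by
    have : Tendsto axNome atTop (𝓝 0) := Real.tendsto_exp_atBot.comp
      (tendsto_neg_atTop_atBot.comp (tendsto_id.const_mul_atTop Real.pi_pos))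
    simpa using this.pow 2
  have hsum : Summable fun n : ℕ => |(c (n + k) : ℝ)| * (axNome 1 ^ 2) ^ n := by
    refine ((h' 1 one_pos).summable.abs).congr fun n => ?_
    rw [abs_mul, abs_of_pos (pow_pos (hx 1) n)]
  have hl := tendsto_tsum_of_dominated_convergence (𝓕 := atTop) hsum
    (f := fun t n => (c (n + k) : ℝ) * (axNome t ^ 2) ^ n)
    (g := fun n => (c (n + k) : ℝ) * (0 : ℝ) ^ n) (fun n => (hnome.pow n).const_mul _) ?_
  · rw [tsum_eq_single 0 (fun n hn => by simp [hn]), zero_add, pow_zero, mul_one] at hl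
    exact hl.congr' ((eventually_gt_atTop 0).mono fun t ht => (h' t ht).tsum_eq)
  · filter_upwards [eventually_ge_atTop 1] with t ht
    intro n
    rw [Real.norm_eq_abs, abs_mul, abs_of_pos (pow_pos (hx t) n)]
    exact mul_le_mul_of_nonneg_left (pow_le_pow_left₀ (hx t).le (hr ht) n) (abs_nonneg _)

theorem tendsto_fR :
    Tendsto (fun s => fR s / axNome s ^ 6) atTop (𝓝 3657830400) ∧
      Tendsto (fun s => s * (2 * polyA (axP s) (axQ s) * eR s + polyB (axP s) (axQ s)))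
        atTop (𝓝 0) := by
  obtain ⟨k0, k1, k2, k3⟩ := head_fSer
  refine ⟨?_, ?_⟩
  · have h := tendsto_div_pow 3 (fun n hn => by interval_cases n <;> assumption)
      fun t ht => (hasSum_fR ht).1
    rw [k3] at h
    simpa [← pow_mul] using h
  · have h := tendsto_div_pow 1 (fun n hn => by
      obtain rfl : n = 0 := by omega
      exact head_fOneSer_zero) fun t ht => (hasSum_fR ht).2
    have hexp := (Real.tendsto_pow_mul_exp_neg_atTop_nhds_zero 1).comp
      (tendsto_id.const_mul_atTop Real.two_pi_pos)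
    have h2 := (hexp.const_mul (2 * π)⁻¹).mul h
    rw [mul_zero, zero_mul] at h2
    refine h2.congr fun t => ?_
    simp only [Function.comp_apply, id, pow_one, axNome_sq]
    field_simp

end FA.Ckmrv

end
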