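import Fermat.Agent.Ckmrv.Part
import Fermat.Agent.Viazovska.MagicFormula

/-!
# The closed formula for the magic transform in twenty-four variables

With `P(z) = Ψ(-1/z) z¹⁰` and `P = M + R`, `M` having vanishing second difference, a primitive of
`P(z) exp (π i u z)` turns the magic transform into `(2 cos π u - 2)` times integrals along `i ℝ`
plus an elementary term.
-/

set_option autoImplicit false

noncomputable section

open Complex MeasureTheory Set Filter FA.Viazovska
open scoped Real Topology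

namespace FA.Ckmrv

/-- The dual kernel. -/
def dualLeech (Ψ : ℂ → ℂ) (w : ℂ) : ℂ := Ψ (-1 / w) * w ^ 10

/-- The expansion of the dual kernel: it is `M` plus a small remainder. -/
structure HasMain (ε : ℂ) (Ψ M : ℂ → ℂ) : Prop where
  second : ∀ z : ℂ, 0 < z.im →
    dualLeech Ψ (z + 1) + dualLeech Ψ (z - 1) - 2 * dualLeech Ψ z = 2 * ε * Ψ z
  periodic : ∀ z : ℂ, M (z + 1) + M (z - 1) = 2 * M z
  diff : Differentiable ℂ M
  rest : ∃ C, ∀ z : ℂ, 1 ≤ z.im → |z.re| ≤ 1 →
    ‖dualLeech Ψ z - M z‖ ≤ C * Real.exp (-(π / 2) * z.im)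

/-- The remainder integral. -/
def restMain (Ψ M : ℂ → ℂ) (u : ℝ) : ℂ :=
  ∫ y in Ioi (1 : ℝ), (dualLeech Ψ (rayPt 0 y) - M (rayPt 0 y)) * expU u (rayPt 0 y) * I

variable {ε : ℂ} {Ψ M : ℂ → ℂ}

theorem differentiableAt_dualLeech (h : IsMagic ε Ψ) {z : ℂ} (hz : 0 < z.im) :
    DifferentiableAt ℂ (dualLeech Ψ) z :=
  ((h.diff _ (neg_one_div_im hz)).comp z ((differentiableAt_const _).div differentiableAt_id
    (fun e : z = 0 => by simp [e] at hz))).mul (differentiableAt_id.pow 10)

/-- **The closed formula.** -/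
theorem magicPiece_eq (hm : IsMagic ε Ψ) (he : HasMain ε Ψ M) {u : ℝ} (hu : 0 ≤ u)
    {Q : ℂ → ℂ} (hQ : ∀ z, HasDerivAt Q (M z * expU u z) z) :
    magicPiece ε Ψ u = circE u *
      (restMain Ψ M u - raySum 1 (rayWt Ψ 0) (fun y => -1 / rayPt 0 y) u) +
        endTerm Q u := by
  have hexp : Differentiable ℂ (expU u) := by unfold expU; fun_prop
  obtain ⟨G, hG⟩ := exists_primitive (f := fun z => dualLeech Ψ z * expU u z)
    fun z hz => (differentiableAt_dualLeech hm hz).mul (hexp z)
  -- the inverted rays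
  set g₁ : ℂ → ℂ := fun W => Ψ W / W ^ 12 * cexp (π * I * (-1 / W) * u) with hg₁
  have hd₁ : ∀ W : ℂ, 0 < W.im → HasDerivAt (fun W => G (-1 / W)) (g₁ W) W := fun W hW => by
    have h0 : W ≠ 0 := fun e => by simp [e] at hW
    refine ((hG _ (neg_one_div_im hW)).comp W
      ((hasDerivAt_const W (-1 : ℂ)).div (hasDerivAt_id W) h0)).congr_deriv ?_
    simp only [hg₁, dualLeech, expU]
    rw [show -1 / (-1 / W) = W by field_simp]
    field_simp
    ring
  obtain ⟨C, hC⟩ := hm.small
  obtain ⟨L, hL⟩ := exists_ray_value hd₁ (C := |C|) (fun W hW => by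
    have h0 : W ≠ 0 := fun e => by simp [e] at hW
    exact ((hm.diff W hW).div (differentiableAt_id.pow 12) (pow_ne_zero _ h0)).mul
      (Complex.differentiable_exp.differentiableAt.comp W (by fun_prop (disch := exact h0))))
    fun W hW _ => by
      simp only [hg₁, norm_mul, norm_div, norm_pow, norm_gauss_cexp]
      have h1 : 1 ≤ ‖W‖ := hW.trans ((le_abs_self _).trans (abs_im_le_norm W))
      have h2 : Real.exp (-(π * (-1 / W).im * u)) ≤ 1 := Real.exp_le_one_iff.2 (neg_nonpos.2
        (mul_nonneg (mul_nonneg Real.pi_pos.le (neg_one_div_im (by linarith)).le) hu))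
      refine (mul_le_of_le_one_right (by positivity) h2).trans ?_
      refine (div_le_self (norm_nonneg _) (one_le_pow₀ h1)).trans ((hC W (by linarith)).trans ?_)
      exact mul_le_mul (le_abs_self C) (Real.exp_le_exp.2 (by nlinarith [Real.pi_pos]))
        (Real.exp_pos _).le (abs_nonneg C)
  have hV : ∀ x y₀ : ℝ, |x| ≤ 1 → 0 < y₀ →
      raySum y₀ (rayWt Ψ x) (fun y => -1 / rayPt x y) u = L - G (-1 / rayPt x y₀) :=
    fun x y₀ hx hy => by
    rw [← (hL x y₀ hx hy).2, raySum]
    refine setIntegral_congr_fun measurableSet_Ioi fun y _ => ?_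
    simp only [hg₁, rayWt]; ring
  have hshift : ∀ k x : ℝ, raySum (1 / 2) (rayWt Ψ x) (fun y => (k : ℂ) + -1 / rayPt x y) u =
      cexp (π * I * k * u) * raySum (1 / 2) (rayWt Ψ x) (fun y => -1 / rayPt x y) u :=
    fun k x => by
    rw [raySum, raySum, ← integral_const_mul]
    refine setIntegral_congr_fun measurableSet_Ioi fun y _ => ?_
    simp only [mul_add, add_mul, Complex.exp_add]; ring
  have p1 : -1 / rayPt (-1 / 2) (1 / 2) = 1 + I := by
    rw [div_eq_iff (rayPt_ne_zero (by norm_num)), rayPt]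
    push_cast; linear_combination (-1 / 2 : ℂ) * I_sq
  have p2 : -1 / rayPt (1 / 2) (1 / 2) = -1 + I := by
    rw [div_eq_iff (rayPt_ne_zero (by norm_num)), rayPt]
    push_cast; linear_combination (-1 / 2 : ℂ) * I_sq
  have p3 : -1 / rayPt 0 1 = I := by simp [rayPt]
  have v1 : raySum (1 / 2) (rayWt Ψ (-1 / 2)) (fun y => -1 + -1 / rayPt (-1 / 2) y) u =
      cexp (-(π * I * u)) * (L - G (1 + I)) := by
    have h := hshift (-1) (-1 / 2)
    rw [hV _ _ (by norm_num [abs_le]) (by norm_num), p1] at h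
    simpa [neg_mul, mul_neg] using h
  have v2 : raySum (1 / 2) (rayWt Ψ (1 / 2)) (fun y => 1 + -1 / rayPt (1 / 2) y) u =
      cexp (π * I * u) * (L - G (-1 + I)) := by
    have h := hshift 1 (1 / 2)
    rw [hV _ _ (by norm_num [abs_le]) (by norm_num), p2] at h
    simpa using h
  have v3 : raySum 1 (rayWt Ψ 0) (fun y => -1 / rayPt 0 y) u = L - G I := by
    rw [hV _ _ (by norm_num) one_pos, p3]
  -- the remainder
  set g₂ : ℂ → ℂ := fun z => (dualLeech Ψ z - M z) * expU u z with hg₂
  have hd₂ : ∀ z : ℂ, 0 < z.im → HasDerivAt (fun z => G z - Q z) (g₂ z) z := fun z hz =>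
    ((hG z hz).sub (hQ z)).congr_deriv (by simp only [hg₂]; ring)
  obtain ⟨D, hD⟩ := he.rest
  obtain ⟨L₂, hL₂⟩ := exists_ray_value hd₂ (C := |D|) (fun z hz =>
    ((differentiableAt_dualLeech hm hz).sub
      (he.diff z)).mul (hexp z))
    fun z hz hr => by
      simp only [hg₂, norm_mul]
      refine (mul_le_of_le_one_right (norm_nonneg _) (expU_norm_le hu (by linarith))).trans
        ((hD z hz hr).trans ?_)
      exact mul_le_mul_of_nonneg_right (le_abs_self D) (Real.exp_pos _).le
  have hJ := fun x : ℝ => fun hx : |x| ≤ 1 => hL₂ x 1 hx one_pos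
  set J : ℝ → ℂ := fun x => ∫ y in Ioi (1 : ℝ), g₂ (rayPt x y) * I with hJdef
  have r0 : restMain Ψ M u = J 0 := rfl
  have q1 : rayPt 1 1 = 1 + I := by simp [rayPt]
  have q2 : rayPt (-1) 1 = -1 + I := by simp [rayPt]
  have q3 : rayPt 0 1 = I := by simp [rayPt]
  have j0 : J 0 = L₂ - (G I - Q I) := q3 ▸ (hJ 0 (by norm_num)).2
  have j1 : J 1 = L₂ - (G (1 + I) - Q (1 + I)) := q1 ▸ (hJ 1 (by norm_num)).2
  have j2 : J (-1) = L₂ - (G (-1 + I) - Q (-1 + I)) := q2 ▸ (hJ (-1) (by norm_num)).2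
  have hsum : cexp (-(π * I * u)) * J 1 + cexp (π * I * u) * J (-1) = 2 * J 0 +
      2 * ε * raySum 1 (fun y => Ψ (rayPt 0 y) * I) (rayPt 0) u := by
    simp only [hJdef, raySum, ← integral_const_mul]
    rw [← integral_add ((hJ 1 (by norm_num)).1.const_mul _)
        ((hJ (-1) (by norm_num)).1.const_mul _),
      ← integral_add ((hJ 0 (by norm_num)).1.const_mul _)
        ((hm.isRay_line.integrable hu).const_mul _)]
    refine setIntegral_congr_fun measurableSet_Ioi fun y hy => ?_
    have hy0 : 0 < (rayPt 0 y).im := by rw [im_rayPt]; exact lt_trans one_pos hy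
    have s1 : rayPt 1 y = rayPt 0 y + 1 := by simp [rayPt]; ring
    have s2 : rayPt (-1) y = rayPt 0 y - 1 := by simp [rayPt]; ring
    have hp := he.periodic (rayPt 0 y)
    simp only [hg₂, s1, s2, (expU_add u _).1, (expU_add u _).2,
      show cexp (π * I * (rayPt 0 y) * u) = expU u (rayPt 0 y) from rfl]
    have he' : cexp (π * I * u) * cexp (-(π * I * u)) = 1 := by
      rw [← Complex.exp_add, add_neg_cancel, Complex.exp_zero]
    set P := dualLeech Ψ
    set E := expU u (rayPt 0 y)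
    linear_combination (E * I) * (he.second _ hy0) - (E * I) * hp +
      (E * I * (P (rayPt 0 y + 1) - M (rayPt 0 y + 1) + P (rayPt 0 y - 1) -
        M (rayPt 0 y - 1))) * he'
  rw [magicPiece, v1, v2, v3, r0, endTerm, circE]
  linear_combination (-(cexp (π * I * u) + cexp (-(π * I * u)))) * j0 +
    cexp (-(π * I * u)) * j1 + cexp (π * I * u) * j2 - hsum

end FA.Ckmrv

end
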