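import Fermat.Agent.Ckmrv.Kernels
import Fermat.Agent.Ckmrv.Bounds
import Fermat.Agent.Viazovska.MagicFunction

/-!
# The magic function in dimension twenty-four

`g = π i / 113218560 · M₊ - i / (262080 π) · M₋` is real, equals one at `0`, is nonpositive for
`|x|² ≥ 4`, and its Fourier transform `π i / 113218560 · M₊ + i / (262080 π) · M₋` is nonnegative
and one at `0`.
-/

set_option autoImplicit false

noncomputable section

open Complex MeasureTheory Set Filter FA.Viazovska
open scoped Real Topology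

namespace FA.Ckmrv

variable {ε : ℂ} {Ψ M : ℂ → ℂ} {ψ : ℝ → ℝ} {a₂ a₁ g b₁ b₀ u : ℝ}

theorem hasDerivAt_expFour (z : ℂ) :
    HasDerivAt (fun z : ℂ => cexp (-(4 * π * I * z)))
      (-(4 * π * I) * cexp (-(4 * π * I * z))) z := by
  refine (((hasDerivAt_id z).const_mul (4 * π * I : ℂ)).neg.cexp).congr_deriv ?_
  simp; ring

/-- A primitive of the elementary part. -/
def primL (a₂ a₁ g b₁ b₀ : ℂ) (u : ℝ) (z : ℂ) : ℂ :=
  expU u z * (a₂ * cexp (-(4 * π * I * z)) / (π * I * ((u : ℂ) - 4)) +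
    a₁ * cexp (-(2 * π * I * z)) / (π * I * ((u : ℂ) - 2)) +
    b₁ * cexp (-(2 * π * I * z)) *
      (z / (π * I * ((u : ℂ) - 2)) - 1 / (π * I * ((u : ℂ) - 2)) ^ 2) +
    b₀ * (z / (π * I * u) - 1 / (π * I * u) ^ 2) + g / (π * I * u))

theorem piece_zero {a₂ a₁ g b₁ b₀ : ℂ} (hm : IsMagic ε Ψ)
    (he : HasMain ε Ψ (mainL a₂ a₁ g b₁ b₀)) : magicPiece ε Ψ 0 = b₀ := by
  have hπ := pi_I_ne_zero
  have hQ : ∀ z, HasDerivAt (fun z => a₂ * cexp (-(4 * π * I * z)) / (-(4 * π * I)) +
      a₁ * cexp (-(2 * π * I * z)) / (-(2 * π * I)) +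
      b₁ * cexp (-(2 * π * I * z)) * (z / (-(2 * π * I)) - 1 / (-(2 * π * I)) ^ 2) +
      b₀ * z ^ 2 / 2 + g * z)
      (mainL a₂ a₁ g b₁ b₀ z * expU 0 z) z := fun z => by
    refine ((((((hasDerivAt_expFour z).const_mul a₂).div_const _).add
      (((hasDerivAt_expTwo z).const_mul a₁).div_const _)).add
      (((hasDerivAt_expTwo z).const_mul b₁).mul
        (((hasDerivAt_id z).div_const _).sub_const _))).add
      ((((hasDerivAt_id z).pow 2).const_mul b₀).div_const 2)).add
        ((hasDerivAt_id z).const_mul g) |>.congr_deriv ?_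
    simp only [mainL, expU, ofReal_zero, mul_zero, Complex.exp_zero, mul_one, id_eq,
      Nat.cast_ofNat, Nat.add_one_sub_one, pow_one]
    field_simp
    ring
  obtain ⟨h1, h2, h3, h4⟩ := exp_periods I
  rw [magicPiece_eq hm he le_rfl hQ, endTerm, circE]
  simp only [show (1 : ℂ) + I = I + 1 by ring, show (-1 : ℂ) + I = I - 1 by ring, h1, h2, h3, h4,
    ofReal_zero, mul_zero, neg_zero, Complex.exp_zero]
  ring

theorem piece_generic {a₂ a₁ g b₁ b₀ : ℂ} (hm : IsMagic ε Ψ)
    (he : HasMain ε Ψ (mainL a₂ a₁ g b₁ b₀)) {u : ℝ} (hu : 0 < u) (hu2 : u ≠ 2) (hu4 : u ≠ 4) :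
    magicPiece ε Ψ u = circE u * (restMain Ψ (mainL a₂ a₁ g b₁ b₀) u -
      raySum 1 (rayWt Ψ 0) (fun y => -1 / rayPt 0 y) u - primL a₂ a₁ g b₁ b₀ u I) := by
  have hπ := pi_I_ne_zero
  have h0 : (u : ℂ) ≠ 0 := ofReal_ne_zero.2 hu.ne'
  have h2 : (u : ℂ) - 2 ≠ 0 := sub_ne_zero.2 (by exact_mod_cast hu2)
  have h4 : (u : ℂ) - 4 ≠ 0 := sub_ne_zero.2 (by exact_mod_cast hu4)
  have hQ : ∀ z, HasDerivAt (primL a₂ a₁ g b₁ b₀ u) (mainL a₂ a₁ g b₁ b₀ z * expU u z) z :=
    fun z => by
    refine (hasDerivAt_expU u z).mul ((((((hasDerivAt_expFour z).const_mul a₂).div_const _).add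
      (((hasDerivAt_expTwo z).const_mul a₁).div_const _)).add
      (((hasDerivAt_expTwo z).const_mul b₁).mul
        (((hasDerivAt_id z).div_const _).sub_const _))).add
      ((((hasDerivAt_id z).div_const (π * I * u : ℂ)).sub_const _).const_mul b₀) |>.add_const _)
      |>.congr_deriv ?_
    simp only [mainL, id_eq, Pi.add_apply, Pi.mul_apply]
    field_simp
    ring
  have he' : cexp (-(π * I * u)) * cexp (π * I * u) = 1 := by
    rw [← Complex.exp_add, neg_add_cancel, Complex.exp_zero]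
  obtain ⟨e1, e2, e3, e5⟩ := exp_periods I
  rw [magicPiece_eq hm he hu.le hQ, endTerm]
  simp only [primL, show (1 : ℂ) + I = I + 1 by ring, show (-1 : ℂ) + I = I - 1 by ring,
    (expU_add u I).1, (expU_add u I).2, e1, e2, e3, e5]
  linear_combination (expU u I * (2 * (a₂ * cexp (-(4 * π * I * I)) / (π * I * ((u : ℂ) - 4)) +
    a₁ * cexp (-(2 * π * I * I)) / (π * I * ((u : ℂ) - 2)) +
    b₁ * cexp (-(2 * π * I * I)) *
      (I / (π * I * ((u : ℂ) - 2)) - 1 / (π * I * ((u : ℂ) - 2)) ^ 2) +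
    b₀ * (I / (π * I * u) - 1 / (π * I * u) ^ 2) + g / (π * I * u)))) * he'

/-! ### On the axis -/

/-- The integral along `(0, i]`. -/
def innerAx (ψ : ℝ → ℝ) (u : ℝ) : ℝ :=
  ∫ y in Ioi (1 : ℝ), ψ y / y ^ 12 * Real.exp (-(π * u / y))

/-- The integral along `[i, i ∞)` without the growing part. -/
def outerAx (ψ : ℝ → ℝ) (a₂ a₁ g b₁ b₀ u : ℝ) : ℝ :=
  ∫ y in Ioi (1 : ℝ), (dualAx ψ y - mainAx a₂ a₁ g b₁ b₀ y) * Real.exp (-(π * u * y))

/-- The primitive of the growing part. -/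
def primAx (a₂ a₁ g b₁ b₀ u y : ℝ) : ℝ :=
  -(Real.exp (-(π * u * y)) * (a₂ * Real.exp (4 * π * y) / (π * (u - 4)) +
    a₁ * Real.exp (2 * π * y) / (π * (u - 2)) +
    b₁ * Real.exp (2 * π * y) * (y / (π * (u - 2)) + 1 / (π * (u - 2)) ^ 2) +
    b₀ * (y / (π * u) + 1 / (π * u) ^ 2) + g / (π * u)))

/-- The bracket. -/
def bracketAx (ψ : ℝ → ℝ) (a₂ a₁ g b₁ b₀ u : ℝ) : ℝ :=
  outerAx ψ a₂ a₁ g b₁ b₀ u - innerAx ψ u - primAx a₂ a₁ g b₁ b₀ u 1

/-- A kernel with its data on the axis. -/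
structure AxData (Ψ M : ℂ → ℂ) (ψ : ℝ → ℝ) (a₂ a₁ g b₁ b₀ : ℝ) : Prop where
  val : ∀ y : ℝ, 0 < y → Ψ ((y : ℂ) * I) = (ψ y : ℂ)
  main : M = mainL a₂ a₁ g (-((b₁ : ℂ) * I)) (-((b₀ : ℂ) * I))

theorem AxData.dual (h : AxData Ψ M ψ a₂ a₁ g b₁ b₀) {y : ℝ} (hy : 0 < y) :
    dualLeech Ψ (rayPt 0 y) - M (rayPt 0 y) =
      ((dualAx ψ y - mainAx a₂ a₁ g b₁ b₀ y : ℝ) : ℂ) := by
  have hy' : (y : ℂ) ≠ 0 := ofReal_ne_zero.2 hy.ne'
  have hI : I ^ 10 = -1 := by
    rw [show (10 : ℕ) = 2 * 5 by norm_num, pow_mul, I_sq]; norm_num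
  rw [h.main, dualLeech, rayPt, ofReal_zero, zero_add,
    show -1 / ((y : ℂ) * I) = ((y⁻¹ : ℝ) : ℂ) * I by
      push_cast; field_simp; linear_combination -I_mul_I,
    h.val _ (inv_pos.2 hy), mainL, dualAx, mainAx, mul_pow, hI,
    show -(2 * (π : ℂ) * I * ((y : ℂ) * I)) = ((2 * π * y : ℝ) : ℂ) by
      push_cast; linear_combination (-2 * (π : ℂ) * y) * I_mul_I,
    show -(4 * (π : ℂ) * I * ((y : ℂ) * I)) = ((4 * π * y : ℝ) : ℂ) by
      push_cast; linear_combination (-4 * (π : ℂ) * y) * I_mul_I]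
  push_cast
  linear_combination ((y : ℂ) * ((b₁ : ℂ) * cexp (2 * π * y) + b₀)) * I_sq

theorem AxData.inner_eq (h : AxData Ψ M ψ a₂ a₁ g b₁ b₀) (u : ℝ) {y : ℝ} (hy : 0 < y) :
    rayWt Ψ 0 y * cexp (π * I * (-1 / rayPt 0 y) * u) =
      ((ψ y / y ^ 12 * Real.exp (-(π * u / y)) : ℝ) : ℂ) * I := by
  have hy' : (y : ℂ) ≠ 0 := ofReal_ne_zero.2 hy.ne'
  have hI : I ^ 12 = 1 := by rw [show (12 : ℕ) = 4 * 3 by norm_num, pow_mul, I_pow_four, one_pow]
  simp only [rayWt, rayPt, ofReal_zero, zero_add, h.val _ hy, mul_pow, hI, mul_one]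
  rw [show (π : ℂ) * I * (-1 / ((y : ℂ) * I)) * u = ((-(π * u / y) : ℝ) : ℂ) by
    push_cast; field_simp]
  push_cast
  ring

/-- **The magic transform is imaginary.** -/
theorem piece_axis (hm : IsMagic ε Ψ) (he : HasMain ε Ψ M) (h : AxData Ψ M ψ a₂ a₁ g b₁ b₀)
    (hu : 0 < u) (hu2 : u ≠ 2) (hu4 : u ≠ 4) :
    magicPiece ε Ψ u = ((circR u * bracketAx ψ a₂ a₁ g b₁ b₀ u : ℝ) : ℂ) * I := by
  have hc : circE u = (circR u : ℂ) := by
    rw [circE, circR, show (π : ℂ) * I * u = ((π * u : ℝ) : ℂ) * I by push_cast; ring]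
    push_cast
    rw [Complex.two_cos]
    ring_nf
  have h1 : restMain Ψ M u = (outerAx ψ a₂ a₁ g b₁ b₀ u : ℂ) * I := by
    rw [restMain, outerAx, ← integral_complex_ofReal, ← integral_mul_const]
    refine setIntegral_congr_fun measurableSet_Ioi fun y hy => ?_
    simp only [h.dual (lt_trans one_pos hy), expU_axis]
    push_cast
    ring
  have h2 : raySum 1 (rayWt Ψ 0) (fun y => -1 / rayPt 0 y) u = (innerAx ψ u : ℂ) * I := by
    rw [raySum, innerAx, ← integral_complex_ofReal, ← integral_mul_const]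
    exact setIntegral_congr_fun measurableSet_Ioi fun y hy => h.inner_eq u (lt_trans one_pos hy)
  have h3 : primL a₂ a₁ g (-((b₁ : ℂ) * I)) (-((b₀ : ℂ) * I)) u I =
      (primAx a₂ a₁ g b₁ b₀ u 1 : ℂ) * I := by
    rw [primL, primAx, show I = rayPt 0 1 by simp [rayPt], expU_axis,
      show rayPt 0 1 = I by simp [rayPt],
      show -(2 * (π : ℂ) * I * I) = ((2 * π * 1 : ℝ) : ℂ) by
        push_cast; linear_combination (-2 * (π : ℂ)) * I_mul_I,
      show -(4 * (π : ℂ) * I * I) = ((4 * π * 1 : ℝ) : ℂ) by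
        push_cast; linear_combination (-4 * (π : ℂ)) * I_mul_I]
    push_cast
    have hπ : (π : ℂ) ≠ 0 := ofReal_ne_zero.2 Real.pi_ne_zero
    have h0 : (u : ℂ) ≠ 0 := ofReal_ne_zero.2 hu.ne'
    have hd : (u : ℂ) - 2 ≠ 0 := sub_ne_zero.2 (by exact_mod_cast hu2)
    have hd4 : (u : ℂ) - 4 ≠ 0 := sub_ne_zero.2 (by exact_mod_cast hu4)
    field_simp [I_ne_zero]
    ring_nf
    simp only [I_sq]
    ring
  rw [piece_generic hm (h.main ▸ he) hu hu2 hu4, hc, ← h.main, h1, h2, h3, bracketAx]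
  push_cast
  ring

theorem piece_re_zero (hm : IsMagic ε Ψ) (he : HasMain ε Ψ M)
    (h : AxData Ψ M ψ a₂ a₁ g b₁ b₀) (hu : 0 ≤ u) : (magicPiece ε Ψ u).re = 0 := by
  rcases hu.lt_or_eq with hu0 | rfl
  · have hgood : ∀ v, 0 < v → v ≠ 2 → v ≠ 4 → (magicPiece ε Ψ v).re = 0 := fun v h0 h2 h4 => by
      simp [piece_axis hm he h h0 h2 h4]
    have hc : ContinuousAt (fun v => (magicPiece ε Ψ v).re) u :=
      (continuous_re.comp_continuousOn (continuousOn_magicPiece hm)).continuousAt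
        (Ici_mem_nhds hu0)
    refine tendsto_nhds_unique (hc.tendsto.mono_left (nhdsWithin_le_nhds (s := Ioi u)))
      (tendsto_const_nhds.congr' ?_)
    rcases lt_or_ge u 2 with h2 | h2
    · filter_upwards [Ioo_mem_nhdsGT h2] with v hv
      exact (hgood v (hu0.trans hv.1) hv.2.ne (by linarith [hv.2])).symm
    · rcases lt_or_ge u 4 with h4 | h4
      · filter_upwards [Ioo_mem_nhdsGT h4] with v hv
        exact (hgood v (hu0.trans hv.1) (by linarith [hv.1]) hv.2.ne).symm
      · filter_upwards [self_mem_nhdsWithin] with v hv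
        have hv' : u < v := hv
        exact (hgood v (hu0.trans hv') (by linarith) (by linarith)).symm
  · simp [piece_zero hm (h.main ▸ he)]

/-! ### The two kernels on the axis -/

theorem axData_kerP : AxData kerP mainP kPlus (-(864 / π ^ 2)) (-(2218752 / π ^ 2))
    (-(223140096 / π ^ 2)) (725760 / π) (113218560 / π) := by
  refine ⟨fun y hy => ?_, ?_⟩
  · obtain ⟨ea, ec, ee, -, -⟩ := axis_real hy
    simp only [kerP, fForm, fTwoForm, discForm, quadPoly, cubePoly, ea, ec, ee, kPlus, fR, discR,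
      polyA, polyB, polyC, axP, axQ, quadR, cubeR]
    push_cast
    ring
  · have e : kap ^ 2 = -(36 / (π : ℂ) ^ 2) := by
      rw [kap, neg_sq, div_pow, mul_pow, I_sq]; ring
    rw [mainP, e, kap]
    congr 1 <;> push_cast <;> ring

theorem axData_kerM : AxData kerM mainM kMinus 2 (-464) 172128 0 0 := by
  refine ⟨fun y hy => ?_, by simp [mainM]⟩
  obtain ⟨ea, ec, -, -, -⟩ := axis_real hy
  simp only [kerM, gForm, discForm, ea, ec, kMinus, gFR, discR]
  push_cast
  ring

theorem continuousOn_kers : ContinuousOn kPlus (Ioi 0) ∧ ContinuousOn kMinus (Ioi 0) := by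
  constructor <;> intro y hy
  · exact ((hasDerivAt_fR hy).continuousAt.div ((hasDerivAt_discR hy).continuousAt.pow 2)
      (pow_ne_zero _ (discR_pos hy).ne')).continuousWithinAt
  · exact ((hasDerivAt_gFR hy).continuousAt.neg.div ((hasDerivAt_discR hy).continuousAt.pow 2)
      (pow_ne_zero _ (discR_pos hy).ne')).continuousWithinAt

theorem AxData.integrable_outer (h : AxData Ψ M ψ a₂ a₁ g b₁ b₀) (he : HasMain ε Ψ M)
    (hψ : ContinuousOn ψ (Ioi 0)) (hu : 0 ≤ u) :
    IntegrableOn (fun y => (dualAx ψ y - mainAx a₂ a₁ g b₁ b₀ y) * Real.exp (-(π * u * y)))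
      (Ioi 1) := by
  obtain ⟨C, hB⟩ := he.rest
  refine ((exp_neg_integrableOn_Ioi 1 (show 0 < π / 2 by positivity)).const_mul C).mono' ?_ ?_
  · refine ContinuousOn.aestronglyMeasurable (fun y hy => ?_) measurableSet_Ioi
    have hy0 : (0 : ℝ) < y := lt_trans one_pos hy
    refine ContinuousAt.continuousWithinAt (ContinuousAt.mul (ContinuousAt.sub ?_ ?_) (by fun_prop))
    · exact ((continuousAt_id.pow 10).mul ((hψ.continuousAt (Ioi_mem_nhds (inv_pos.2 hy0))).comp
        (continuousAt_inv₀ hy0.ne'))).neg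
    · unfold mainAx; fun_prop
  refine (ae_restrict_iff' measurableSet_Ioi).2 (Eventually.of_forall fun y hy => ?_)
  have h1 := hB (rayPt 0 y) (by rw [im_rayPt]; exact le_of_lt hy) (by simp [re_rayPt])
  rw [h.dual (lt_trans one_pos hy), Complex.norm_real, im_rayPt] at h1
  rw [norm_mul]
  refine (mul_le_of_le_one_right (norm_nonneg _) ?_).trans h1
  rw [Real.norm_of_nonneg (Real.exp_pos _).le, Real.exp_le_one_iff, neg_nonpos]
  exact mul_nonneg (mul_nonneg Real.pi_pos.le hu) (le_of_lt (lt_trans one_pos hy))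

theorem AxData.integrable_inner (hm : IsMagic ε Ψ) (h : AxData Ψ M ψ a₂ a₁ g b₁ b₀)
    (hu : 0 ≤ u) :
    IntegrableOn (fun y => ψ y / y ^ 12 * Real.exp (-(π * u / y))) (Ioi 1) := by
  refine IntegrableOn.congr_fun (((rays_of hm).2.2.1.integrable hu).const_mul (-I)).re
    (fun y hy => ?_) measurableSet_Ioi
  rw [h.inner_eq u (lt_trans one_pos hy), mul_comm _ I, ← mul_assoc, neg_mul, I_mul_I, neg_neg,
    one_mul]
  exact Complex.ofReal_re _

theorem integrable_mul_exp {k : ℝ} (hk : 0 < k) :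
    IntegrableOn (fun y : ℝ => y * Real.exp (-k * y)) (Ioi 1) ∧
      Tendsto (fun y : ℝ => y * Real.exp (-k * y)) atTop (𝓝 0) := by
  refine ⟨?_, ?_⟩
  · refine ((exp_neg_integrableOn_Ioi 1 (show 0 < k / 2 by positivity)).const_mul
      (2 / k)).mono' (by fun_prop) ?_
    refine (ae_restrict_iff' measurableSet_Ioi).2 (Eventually.of_forall fun y hy => ?_)
    have hy0 : 0 < y := lt_trans one_pos hy
    rw [Real.norm_of_nonneg (by positivity),
      show -k * y = -(k / 2) * y + -(k / 2) * y by ring, Real.exp_add, ← mul_assoc]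
    refine mul_le_mul_of_nonneg_right ?_ (Real.exp_pos _).le
    have h := Real.pow_div_factorial_le_exp (k / 2 * y) (by positivity) 1
    simp only [pow_one, Nat.factorial_one, Nat.cast_one, div_one] at h
    rw [neg_mul, Real.exp_neg, mul_inv_le_iff₀ (Real.exp_pos _), div_mul_eq_mul_div,
      le_div_iff₀ hk]
    linarith
  · have := ((Real.tendsto_pow_mul_exp_neg_atTop_nhds_zero 1).comp
      (tendsto_id.const_mul_atTop hk)).const_mul k⁻¹
    rw [mul_zero] at this
    refine this.congr fun y => ?_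
    simp only [Function.comp_apply, id, pow_one, neg_mul]
    field_simp

theorem integral_mainAx (hu : 2 < u) (ha : a₂ = 0 ∨ 4 < u) :
    IntegrableOn (fun y => mainAx a₂ a₁ g b₁ b₀ y * Real.exp (-(π * u * y))) (Ioi 1) ∧
      ∫ y in Ioi (1 : ℝ), mainAx a₂ a₁ g b₁ b₀ y * Real.exp (-(π * u * y)) =
        -primAx a₂ a₁ g b₁ b₀ u 1 := by
  have hπ := Real.pi_pos
  have k2 : 0 < π * (u - 2) := mul_pos hπ (by linarith)
  have k0 : 0 < π * u := mul_pos hπ (by linarith)
  obtain ⟨i2, t2⟩ := integrable_mul_exp k2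
  obtain ⟨i0, t0⟩ := integrable_mul_exp k0
  have x0 : ∀ t : ℝ, 0 < t → Tendsto (fun y => Real.exp (-t * y)) atTop (𝓝 0) := fun t ht =>
    Real.tendsto_exp_atBot.comp (tendsto_id.const_mul_atTop_of_neg (neg_lt_zero.2 ht))
  have e1 : ∀ y, mainAx a₂ a₁ g b₁ b₀ y * Real.exp (-(π * u * y)) =
      a₂ * Real.exp (-(π * (u - 4)) * y) + a₁ * Real.exp (-(π * (u - 2)) * y) +
        g * Real.exp (-(π * u) * y) + b₁ * (y * Real.exp (-(π * (u - 2)) * y)) +
        b₀ * (y * Real.exp (-(π * u) * y)) := fun y => by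
    rw [mainAx, show -(π * (u - 4)) * y = 4 * π * y + -(π * u) * y by ring,
      show -(π * (u - 2)) * y = 2 * π * y + -(π * u) * y by ring, Real.exp_add, Real.exp_add]
    ring_nf
  have i4 : IntegrableOn (fun y => a₂ * Real.exp (-(π * (u - 4)) * y)) (Ioi 1) ∧
      Tendsto (fun y => a₂ * Real.exp (-(π * (u - 4)) * y)) atTop (𝓝 0) := by
    rcases ha with rfl | h4
    · simp
    · exact ⟨(exp_neg_integrableOn_Ioi 1 (mul_pos hπ (by linarith : 0 < u - 4))).const_mul a₂,
        by simpa using (x0 _ (mul_pos hπ (by linarith : 0 < u - 4))).const_mul a₂⟩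
  have hint : IntegrableOn (fun y => mainAx a₂ a₁ g b₁ b₀ y * Real.exp (-(π * u * y))) (Ioi 1) := by
    simp only [e1]
    exact ((((i4.1.add ((exp_neg_integrableOn_Ioi 1 k2).const_mul a₁)).add
      ((exp_neg_integrableOn_Ioi 1 k0).const_mul g))).add (i2.const_mul b₁)).add (i0.const_mul b₀)
  refine ⟨hint, ?_⟩
  rw [show -primAx a₂ a₁ g b₁ b₀ u 1 = 0 - primAx a₂ a₁ g b₁ b₀ u 1 by ring]
  refine integral_Ioi_of_hasDerivAt_of_tendsto' (f := primAx a₂ a₁ g b₁ b₀ u) (fun y _ => ?_)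
    hint ?_
  · refine (((((hasDerivAt_id y).const_mul (π * u)).neg.exp).mul
      ((((((((hasDerivAt_id y).const_mul (4 * π)).exp).const_mul a₂).div_const _).add
        (((((hasDerivAt_id y).const_mul (2 * π)).exp).const_mul a₁).div_const _)).add
        (((((hasDerivAt_id y).const_mul (2 * π)).exp).const_mul b₁).mul
          (((hasDerivAt_id y).div_const (π * (u - 2))).add_const _))).add
        ((((hasDerivAt_id y).div_const (π * u)).add_const _).const_mul b₀) |>.add_const _))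
      ).neg.congr_deriv ?_
    simp only [mainAx, id_eq, Pi.add_apply, Pi.neg_apply, Pi.mul_apply]
    have : u ≠ 0 := by linarith
    have : u - 2 ≠ 0 := by linarith
    rcases ha with rfl | h4
    · field_simp; ring
    · have : u - 4 ≠ 0 := by linarith
      field_simp
      ring
  · have := (((((i4.2.div_const (π * (u - 4))).add
      (((x0 _ k2).const_mul a₁).div_const (π * (u - 2)))).add
      ((((t2.div_const (π * (u - 2))).add
        ((x0 _ k2).div_const ((π * (u - 2)) ^ 2)))).const_mul b₁)).add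
      ((((t0.div_const (π * u)).add ((x0 _ k0).div_const ((π * u) ^ 2)))).const_mul b₀)).add
      (((x0 _ k0).const_mul g).div_const (π * u))).neg
    simp only [mul_zero, add_zero, neg_zero, zero_div] at this
    refine this.congr fun y => ?_
    rw [primAx, show -(π * (u - 4)) * y = 4 * π * y + -(π * u) * y by ring,
      show -(π * (u - 2)) * y = 2 * π * y + -(π * u) * y by ring, Real.exp_add, Real.exp_add]
    ring_nf

/-- The combined bracket. -/
def bracketSum (k u : ℝ) : ℝ :=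
  bracketAx kPlus (-(864 / π ^ 2)) (-(2218752 / π ^ 2)) (-(223140096 / π ^ 2)) (725760 / π)
    (113218560 / π) u + k * bracketAx kMinus 2 (-464) 172128 0 0 u

theorem bracketSum_eq (hu : 0 ≤ u) (k : ℝ) :
    IntegrableOn (fun y => (dualAx (fun t => kPlus t + k * kMinus t) y -
        mainAx (-(864 / π ^ 2) + k * 2) (-(2218752 / π ^ 2) + k * -464)
          (-(223140096 / π ^ 2) + k * 172128) (725760 / π) (113218560 / π) y) *
        Real.exp (-(π * u * y))) (Ioi 1) ∧
    bracketSum k u = (∫ y in Ioi (1 : ℝ), (dualAx (fun t => kPlus t + k * kMinus t) y -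
        mainAx (-(864 / π ^ 2) + k * 2) (-(2218752 / π ^ 2) + k * -464)
          (-(223140096 / π ^ 2) + k * 172128) (725760 / π) (113218560 / π) y) *
        Real.exp (-(π * u * y))) - innerAx (fun t => kPlus t + k * kMinus t) u -
      primAx (-(864 / π ^ 2) + k * 2) (-(2218752 / π ^ 2) + k * -464)
        (-(223140096 / π ^ 2) + k * 172128) (725760 / π) (113218560 / π) u 1 := by
  have a1 := axData_kerP.integrable_outer hasMain_kerP continuousOn_kers.1 hu
  have a2 := axData_kerM.integrable_outer hasMain_kerM continuousOn_kers.2 hu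
  have b1 := axData_kerP.integrable_inner isMagic_kerP hu
  have b2 := axData_kerM.integrable_inner isMagic_kerM hu
  have e : ∀ y, (dualAx (fun t => kPlus t + k * kMinus t) y -
        mainAx (-(864 / π ^ 2) + k * 2) (-(2218752 / π ^ 2) + k * -464)
          (-(223140096 / π ^ 2) + k * 172128) (725760 / π) (113218560 / π) y) *
        Real.exp (-(π * u * y)) =
      (dualAx kPlus y - mainAx (-(864 / π ^ 2)) (-(2218752 / π ^ 2)) (-(223140096 / π ^ 2))
        (725760 / π) (113218560 / π) y) * Real.exp (-(π * u * y)) +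
      k * ((dualAx kMinus y - mainAx 2 (-464) 172128 0 0 y) * Real.exp (-(π * u * y))) :=
    fun y => by simp only [dualAx, mainAx]; ring
  refine ⟨by simp only [e]; exact a1.add (a2.const_mul k), ?_⟩
  have f : innerAx (fun t => kPlus t + k * kMinus t) u =
      innerAx kPlus u + k * innerAx kMinus u := by
    rw [innerAx, innerAx, innerAx, ← integral_const_mul, ← integral_add b1 (b2.const_mul k)]
    refine setIntegral_congr_fun measurableSet_Ioi fun y _ => ?_
    ring
  simp only [e]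
  rw [integral_add a1 (a2.const_mul k), integral_const_mul, f, bracketSum, bracketAx, bracketAx,
    outerAx, outerAx]
  simp only [primAx]
  ring

theorem bracketSum_of_large (hu : 2 < u) (k : ℝ) (hk : -(864 / π ^ 2) + k * 2 = 0 ∨ 4 < u) :
    bracketSum k u = (∫ y in Ioi (1 : ℝ), dualAx (fun t => kPlus t + k * kMinus t) y *
      Real.exp (-(π * u * y))) - innerAx (fun t => kPlus t + k * kMinus t) u := by
  obtain ⟨m0, m1⟩ := integral_mainAx (a₁ := -(2218752 / π ^ 2) + k * -464)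
    (g := -(223140096 / π ^ 2) + k * 172128) (b₁ := 725760 / π) (b₀ := 113218560 / π) hu hk
  obtain ⟨i, e⟩ := bracketSum_eq (u := u) (by linarith) k
  rw [e, sub_right_comm, sub_eq_add_neg _ (primAx _ _ _ _ _ u 1), ← m1, ← integral_add i m0]
  congr 1
  refine setIntegral_congr_fun measurableSet_Ioi fun y _ => ?_
  ring

theorem kSum_sign {y : ℝ} (hy : 0 < y) :
    kPlus y + 432 / π ^ 2 * kMinus y ≤ 0 ∧ 0 ≤ kPlus y + -(432 / π ^ 2) * kMinus y := by
  have h1 := fR_lt hy
  have h2 := fR_pos hy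
  have h3 := gFR_pos hy
  have hd : 0 < discR y ^ 2 := pow_pos (discR_pos hy) 2
  constructor
  · rw [show kPlus y + 432 / π ^ 2 * kMinus y = (fR y - 432 / π ^ 2 * gFR y) / discR y ^ 2 by
      rw [kPlus, kMinus]; ring]
    exact div_nonpos_of_nonpos_of_nonneg (by linarith) hd.le
  · rw [show kPlus y + -(432 / π ^ 2) * kMinus y = (fR y + 432 / π ^ 2 * gFR y) / discR y ^ 2 by
      rw [kPlus, kMinus]; ring]
    positivity

theorem bracketSum_nonpos (hu : 4 < u) : bracketSum (-(432 / π ^ 2)) u ≤ 0 := by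
  rw [bracketSum_of_large (by linarith) _ (Or.inr hu), sub_nonpos, innerAx]
  refine le_trans (setIntegral_nonpos measurableSet_Ioi fun y hy => ?_)
    (setIntegral_nonneg measurableSet_Ioi fun y hy => ?_)
  · exact mul_nonpos_of_nonpos_of_nonneg (neg_nonpos.2 (mul_nonneg
      ((Even.pow_nonneg ⟨5, rfl⟩ y))
      (kSum_sign (inv_pos.2 (lt_trans one_pos hy))).2)) (Real.exp_pos _).le
  · exact mul_nonneg (div_nonneg (kSum_sign (lt_trans one_pos hy)).2
      (Even.pow_nonneg ⟨6, rfl⟩ y)) (Real.exp_pos _).le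

theorem inner_sign : innerAx (fun t => kPlus t + 432 / π ^ 2 * kMinus t) u ≤ 0 :=
  setIntegral_nonpos measurableSet_Ioi fun y hy => mul_nonpos_of_nonpos_of_nonneg
    (div_nonpos_of_nonpos_of_nonneg (kSum_sign (lt_trans one_pos hy)).1
      (Even.pow_nonneg ⟨6, rfl⟩ y)) (Real.exp_pos _).le

/-- The elementary inequality behind the sign for `0 < u < 2`. -/
theorem main_dominates (h0 : 0 < u) (h2 : u < 2) :
    780000000 * (Real.exp (-(π * (1 + u))) *
        (1 / (π * (1 + u)) + 2 / (π * (1 + u)) ^ 2 + 2 / (π * (1 + u)) ^ 3)) ≤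
      -primAx 0 (-(2419200 / π ^ 2)) (-(148780800 / π ^ 2)) (725760 / π) (113218560 / π) u 1 := by
  have hπ := Real.pi_pos
  have hlo := Real.pi_gt_d6
  have hhi := Real.pi_lt_d6
  set E := Real.exp (-(π * u)) with hE
  have hE0 : 0 < E := Real.exp_pos _
  set x := π * (1 + u)
  set t := 2 - u with htdef
  have ht : 0 < t := by linarith
  have eL : Real.exp (-x) = Real.exp (-π) * E := by
    rw [hE, ← Real.exp_add]; simp only [x]; ring_nf
  have eR : -primAx 0 (-(2419200 / π ^ 2)) (-(148780800 / π ^ 2)) (725760 / π)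
      (113218560 / π) u 1 = E * (Real.exp (2 * π) * (725760 / π / (π * t) ^ 2 +
        (2419200 / π ^ 2 - 725760 / π) / (π * t)) +
        ((113218560 / π - 148780800 / π ^ 2) / (π * u) + 113218560 / π / (π * u) ^ 2)) := by
    have : u ≠ 0 := h0.ne'
    have : u - 2 ≠ 0 := by linarith
    simp only [primAx, htdef, hE, mul_one]
    rw [show (2 : ℝ) - u = -(u - 2) by ring]
    field_simp
    ring
  rw [eR, eL]
  have hw : Real.exp (-π) ≤ 4324 / 100000 := by
    have h := axNome_sq_le le_rfl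
    rw [axNome, mul_one] at h
    exact (pow_le_pow_iff_left₀ (Real.exp_pos _).le (by norm_num) two_ne_zero).1
      (h.trans (by norm_num))
  have he2 : (535 : ℝ) ≤ Real.exp (2 * π) := by
    have h := axNome_sq_le le_rfl
    rw [axNome_sq, mul_one, Real.exp_neg, one_div] at h
    exact (inv_le_inv₀ (Real.exp_pos _) (by norm_num)).1 h
  have hb : (36037000 : ℝ) ≤ 113218560 / π := by
    rw [le_div_iff₀ hπ]; linarith
  have hbC : (20960000 : ℝ) ≤ 113218560 / π - 148780800 / π ^ 2 := by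
    rw [div_sub_div _ _ hπ.ne' (by positivity), le_div_iff₀ (by positivity)]
    nlinarith
  have hgb : 0 ≤ 2419200 / π ^ 2 - 725760 / π := by
    rw [div_sub_div _ _ (by positivity) hπ.ne']
    exact div_nonneg (by nlinarith) (by positivity)
  have hx : π ≤ x := le_mul_of_one_le_right hπ.le (by linarith)
  have hh : ∀ m : ℝ, 0 < m → m ≤ x → 1 / x + 2 / x ^ 2 + 2 / x ^ 3 ≤
      1 / m + 2 / m ^ 2 + 2 / m ^ 3 := fun m hm hmx => by gcongr
  have q1 : 0 ≤ Real.exp (2 * π) * (725760 / π / (π * t) ^ 2 +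
      (2419200 / π ^ 2 - 725760 / π) / (π * t)) := by positivity
  have q2 : 20960000 / (31416 / 10000 * u) + 36037000 / (31416 / 10000 * u) ^ 2 ≤
      (113218560 / π - 148780800 / π ^ 2) / (π * u) + 113218560 / π / (π * u) ^ 2 := by
    have hpu : π * u ≤ 31416 / 10000 * u := mul_le_mul_of_nonneg_right (by linarith) h0.le
    gcongr
  have hL : 780000000 * (Real.exp (-π) * E * (1 / x + 2 / x ^ 2 + 2 / x ^ 3)) ≤
      E * (33727200 * (1 / x + 2 / x ^ 2 + 2 / x ^ 3)) := by
    calc 780000000 * (Real.exp (-π) * E * (1 / x + 2 / x ^ 2 + 2 / x ^ 3))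
        ≤ 780000000 * (4324 / 100000 * E * (1 / x + 2 / x ^ 2 + 2 / x ^ 3)) := by gcongr
      _ = _ := by ring
  refine hL.trans (mul_le_mul_of_nonneg_left ?_ hE0.le)
  rcases le_or_gt u (6 / 10) with ha | ha
  · have hm := hh (314159 / 100000) (by norm_num) (by linarith)
    have hq : (20960000 : ℝ) / (31416 / 10000 * (6 / 10)) +
        36037000 / (31416 / 10000 * (6 / 10)) ^ 2 ≤
        20960000 / (31416 / 10000 * u) + 36037000 / (31416 / 10000 * u) ^ 2 := by gcongr
    linarith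
  rcases le_or_gt u 1 with hb1 | hb1
  · have hm := hh (502654 / 100000) (by norm_num)
      (le_trans (by linarith : _ ≤ π * (16 / 10)) (mul_le_mul_of_nonneg_left (by linarith) hπ.le))
    have hq : (20960000 : ℝ) / (31416 / 10000) + 36037000 / (31416 / 10000) ^ 2 ≤
        20960000 / (31416 / 10000 * u) + 36037000 / (31416 / 10000 * u) ^ 2 := by
      gcongr <;> exact mul_le_of_le_one_right (by norm_num) hb1
    linarith
  · have hm := hh (628318 / 100000) (by norm_num)
      (le_trans (by linarith : _ ≤ π * 2) (mul_le_mul_of_nonneg_left (by linarith) hπ.le))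
    have hq : 535 * (231014 / (31416 / 10000) ^ 2) ≤ Real.exp (2 * π) *
        (725760 / π / (π * t) ^ 2 + (2419200 / π ^ 2 - 725760 / π) / (π * t)) := by
      refine mul_le_mul he2 (le_add_of_le_of_nonneg ?_ (by positivity)) (by positivity)
        (Real.exp_pos _).le
      have hpt : π * t ≤ 31416 / 10000 :=
        (mul_le_of_le_one_right hπ.le (by linarith)).trans (by linarith)
      gcongr
      rw [le_div_iff₀ hπ]
      linarith
    have : 0 ≤ (113218560 / π - 148780800 / π ^ 2) / (π * u) + 113218560 / π / (π * u) ^ 2 :=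
      add_nonneg (div_nonneg (le_trans (by norm_num) hbC) (by positivity)) (by positivity)
    linarith

theorem integral_sq_exp {k : ℝ} (hk : 0 < k) :
    IntegrableOn (fun y : ℝ => y ^ 2 * Real.exp (-(k * y))) (Ioi 1) ∧
      ∫ y in Ioi (1 : ℝ), y ^ 2 * Real.exp (-(k * y)) =
        Real.exp (-k) * (1 / k + 2 / k ^ 2 + 2 / k ^ 3) := by
  set P : ℝ → ℝ := fun y => -(Real.exp (-(k * y)) * (y ^ 2 / k + 2 * y / k ^ 2 + 2 / k ^ 3))
  have hd : ∀ y ∈ Ici (1 : ℝ), HasDerivAt P (y ^ 2 * Real.exp (-(k * y))) y := fun y _ => by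
    refine ((((hasDerivAt_id y).const_mul k).neg.exp).mul
      (((((hasDerivAt_id y).pow 2).div_const k).add
        (((hasDerivAt_id y).const_mul 2).div_const (k ^ 2))).add_const _)).neg.congr_deriv ?_
    simp only [id_eq, Pi.add_apply, Pi.neg_apply, Pi.pow_apply, Nat.cast_ofNat,
      Nat.add_one_sub_one, pow_one]
    field_simp
    ring
  have ht : Tendsto P atTop (𝓝 0) := by
    have s : ∀ n : ℕ, Tendsto (fun y : ℝ => (k * y) ^ n * Real.exp (-(k * y))) atTop (𝓝 0) :=
      fun n => (Real.tendsto_pow_mul_exp_neg_atTop_nhds_zero n).comp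
        (tendsto_id.const_mul_atTop hk)
    have := ((((s 2).div_const (k ^ 3)).add (((s 1).const_mul 2).div_const (k ^ 3))).add
      (((s 0).const_mul 2).div_const (k ^ 3))).neg
    simp only [mul_zero, add_zero, neg_zero, zero_div] at this
    refine this.congr fun y => ?_
    simp only [P]
    field_simp
  have hn : ∀ y ∈ Ioi (1 : ℝ), 0 ≤ y ^ 2 * Real.exp (-(k * y)) := fun y _ =>
    mul_nonneg (sq_nonneg y) (Real.exp_pos _).le
  refine ⟨integrableOn_Ioi_deriv_of_nonneg' hd hn ht, ?_⟩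
  rw [integral_Ioi_of_hasDerivAt_of_nonneg' hd hn ht]
  simp only [P, mul_one, one_pow]
  ring

theorem bracketSum_nonneg (hu : 0 < u) (hu2 : u ≠ 2) : 0 ≤ bracketSum (432 / π ^ 2) u := by
  have ha : -(864 / π ^ 2) + 432 / π ^ 2 * 2 = 0 := by ring
  rcases lt_or_gt_of_ne hu2 with h | h
  · obtain ⟨i, e⟩ := bracketSum_eq hu.le (432 / π ^ 2)
    rw [e]
    rw [ha, show -(2218752 / π ^ 2) + 432 / π ^ 2 * -464 = -(2419200 / π ^ 2) by ring,
      show -(223140096 / π ^ 2) + 432 / π ^ 2 * 172128 = -(148780800 / π ^ 2) by ring] at i ⊢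
    obtain ⟨j, ej⟩ := integral_sq_exp (k := π * (1 + u)) (by positivity)
    have hle := setIntegral_mono_on (j.const_mul (-780000000)) i measurableSet_Ioi fun y hy => ?_
    · rw [integral_const_mul, ej] at hle
      have := main_dominates hu h
      have := inner_sign (u := u)
      linarith
    · have hr := mul_le_mul_of_nonneg_right (rest_lower (le_of_lt hy))
        (Real.exp_pos (-(π * u * y))).le
      refine le_trans (le_of_eq ?_) hr
      rw [show -(π * (1 + u) * y) = -(π * y) + -(π * u * y) by ring, Real.exp_add]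
      ring
  · rw [bracketSum_of_large h _ (Or.inl ha), sub_nonneg]
    refine inner_sign.trans (setIntegral_nonneg measurableSet_Ioi fun y hy => ?_)
    exact mul_nonneg (neg_nonneg.2 (mul_nonpos_of_nonneg_of_nonpos (Even.pow_nonneg ⟨5, rfl⟩ y)
      (kSum_sign (inv_pos.2 (lt_trans one_pos hy))).1)) (Real.exp_pos _).le

/-! ### The function -/

/-- The magic function of `u = |x|²` and, for `σ = 1`, its Fourier transform. -/
def leechSum (σ : ℝ) (u : ℝ) : ℂ :=
  π * I / 113218560 * magicPiece 1 kerP u + σ * (I / (262080 * π)) * magicPiece (-1) kerM u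

/-- The real values. -/
def leechVal (σ : ℝ) (u : ℝ) : ℝ := (leechSum σ u).re

theorem leechSum_eq (σ : ℝ) (hu : 0 ≤ u) : leechSum σ u = (leechVal σ u : ℂ) := by
  refine Complex.ext (by rw [ofReal_re, leechVal]) ?_
  have h1 := piece_re_zero isMagic_kerP hasMain_kerP axData_kerP hu
  have h2 := piece_re_zero isMagic_kerM hasMain_kerM axData_kerM hu
  rw [ofReal_im, leechSum]
  simp [Complex.mul_re, h1, h2, Complex.div_im, Complex.div_re]

theorem leechVal_zero (σ : ℝ) : leechVal σ 0 = 1 := by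
  have hP : magicPiece 1 kerP 0 = kap * 18869760 := piece_zero isMagic_kerP hasMain_kerP
  have hM : magicPiece (-1) kerM 0 = 0 := piece_zero isMagic_kerM hasMain_kerM
  rw [leechVal, leechSum, hP, hM, mul_zero, add_zero, kap]
  have hπ : (π : ℂ) ≠ 0 := ofReal_ne_zero.2 Real.pi_ne_zero
  rw [show (π : ℂ) * I / 113218560 * (-(6 * I / π) * 18869760) = 1 by
    field_simp; linear_combination (-113218560 : ℂ) * I_sq]
  exact Complex.one_re

theorem leechVal_axis (σ : ℝ) (hu : 0 < u) (hu2 : u ≠ 2) (hu4 : u ≠ 4) :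
    leechVal σ u = π / 113218560 * (-circR u) * bracketSum (σ * (432 / π ^ 2)) u := by
  rw [leechVal, leechSum, piece_axis isMagic_kerP hasMain_kerP axData_kerP hu hu2 hu4,
    piece_axis isMagic_kerM hasMain_kerM axData_kerM hu hu2 hu4, bracketSum]
  simp [Complex.div_re, Complex.div_im, Complex.normSq_apply]
  field_simp
  ring

theorem continuousOn_leechSum (σ : ℝ) : ContinuousOn (leechSum σ) (Ici 0) :=
  (continuousOn_const.mul (continuousOn_magicPiece isMagic_kerP)).add
    (continuousOn_const.mul (continuousOn_magicPiece isMagic_kerM))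

theorem leechVal_nonpos (hu : 4 ≤ u) : leechVal (-1) u ≤ 0 := by
  have hc : ContinuousWithinAt (leechVal (-1)) (Ioi u) u :=
    ((continuous_re.comp_continuousOn (continuousOn_leechSum (-1))) u
      (mem_Ici.2 (by linarith))).mono fun v hv => mem_Ici.2 (by linarith [mem_Ioi.1 hv])
  refine le_of_tendsto hc.tendsto ?_
  filter_upwards [self_mem_nhdsWithin] with v hv
  have hv' : u < v := hv
  rw [leechVal_axis _ (by linarith) (by linarith) (by linarith), neg_one_mul]
  exact mul_nonpos_of_nonneg_of_nonpos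
    (mul_nonneg (by positivity) (neg_nonneg.2 (circR_nonpos v))) (bracketSum_nonpos (by linarith))

theorem leechVal_nonneg (hu : 0 ≤ u) : 0 ≤ leechVal 1 u := by
  have good : ∀ v, 0 < v → v ≠ 2 → v ≠ 4 → 0 ≤ leechVal 1 v := fun v h0 h2 h4 => by
    rw [leechVal_axis _ h0 h2 h4, one_mul]
    exact mul_nonneg (mul_nonneg (by positivity) (neg_nonneg.2 (circR_nonpos v)))
      (bracketSum_nonneg h0 h2)
  have hc : ContinuousWithinAt (leechVal 1) (Ioi u) u :=
    ((continuous_re.comp_continuousOn (continuousOn_leechSum 1)) u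
      (mem_Ici.2 hu)).mono fun v hv => mem_Ici.2 (hu.trans (le_of_lt hv))
  refine ge_of_tendsto hc.tendsto ?_
  rcases lt_or_ge u 2 with h2 | h2
  · filter_upwards [Ioo_mem_nhdsGT h2] with v hv
    exact good v (hu.trans_lt hv.1) hv.2.ne (by linarith [hv.2])
  · rcases lt_or_ge u 4 with h4 | h4
    · filter_upwards [Ioo_mem_nhdsGT h4] with v hv
      exact good v (hu.trans_lt hv.1) (by linarith [hv.1]) hv.2.ne
    · filter_upwards [self_mem_nhdsWithin] with v hv
      have hv' : u < v := hv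
      exact good v (hu.trans_lt hv') (by linarith) (by linarith)

theorem decay_leechVal (σ : ℝ) :
    ∃ C, ∀ u : ℝ, 0 ≤ u → |leechVal σ u| * (1 + u) ^ 24 ≤ C := by
  obtain ⟨C1, h1⟩ := decay_magicPiece isMagic_kerP
  obtain ⟨C2, h2⟩ := decay_magicPiece isMagic_kerM
  refine ⟨‖(π : ℂ) * I / 113218560‖ * C1 + ‖(σ : ℂ) * (I / (262080 * π))‖ * C2, fun u hu => ?_⟩
  refine (mul_le_mul_of_nonneg_right ((Complex.abs_re_le_norm _).trans (norm_add_le _ _))
    (by positivity)).trans ?_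
  rw [add_mul, norm_mul (_ / _ : ℂ), norm_mul (_ * (_ / _) : ℂ), mul_assoc, mul_assoc]
  exact add_le_add (mul_le_mul_of_nonneg_left (h1 u hu) (norm_nonneg _))
    (mul_le_mul_of_nonneg_left (h2 u hu) (norm_nonneg _))

theorem integrable_magicPiece (h : IsMagic ε Ψ) (ξ : Fin 24 → ℝ) :
    Integrable fun x : Fin 24 → ℝ => cexp (-(2 * π * I * ∑ i, (ξ i : ℂ) * (x i : ℂ))) *
      magicPiece ε Ψ (∑ i, x i ^ 2) := by
  obtain ⟨C, hB⟩ := decay_magicPiece h
  have hd : FA.PackingLP.HasDecay (fun x : Fin 24 → ℝ => magicPiece ε Ψ (∑ i, x i ^ 2)) :=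
    ⟨C, fun x => by
      have hs : 0 ≤ ∑ i, x i ^ 2 := Finset.sum_nonneg fun i _ => sq_nonneg _
      rw [FA.PackingLP.radialWeight, ← div_eq_mul_inv, le_div_iff₀ (by positivity)]
      exact hB _ hs⟩
  obtain ⟨D, -, hD⟩ := hd.bound
  have hc : Continuous fun x : Fin 24 → ℝ => magicPiece ε Ψ (∑ i, x i ^ 2) :=
    (continuousOn_magicPiece h).comp_continuous (by fun_prop) fun x =>
      mem_Ici.2 (Finset.sum_nonneg fun i _ => sq_nonneg (x i))
  refine (FA.PackingLP.integrable_prodWeight.const_mul D).mono'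
    ((Continuous.mul (by fun_prop) hc).aestronglyMeasurable) (Eventually.of_forall fun x => ?_)
  refine le_of_eq_of_le ?_ (hD x)
  simp [Complex.norm_exp]

theorem fourier_leechSum (σ : ℝ) (ξ : Fin 24 → ℝ) :
    ∫ x : Fin 24 → ℝ, cexp (-(2 * π * I * ∑ i, (ξ i : ℂ) * (x i : ℂ))) *
      leechSum σ (∑ i, x i ^ 2) = leechSum (-σ) (∑ i, ξ i ^ 2) := by
  simp only [leechSum, mul_add, mul_left_comm _ (π * I / 113218560 : ℂ),
    mul_left_comm _ ((σ : ℂ) * (I / (262080 * π)))]
  rw [integral_add ((integrable_magicPiece isMagic_kerP ξ).const_mul _)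
      ((integrable_magicPiece isMagic_kerM ξ).const_mul _), integral_const_mul, integral_const_mul,
    fourier_magicPiece isMagic_kerP, fourier_magicPiece isMagic_kerM]
  push_cast
  ring

/-- The test function for radius one. -/
def leechTest (x : Fin 24 → ℝ) : ℝ := leechVal (-1) (4 * ∑ i, x i ^ 2)

/-- Its Fourier transform. -/
def leechTestFourier (ξ : Fin 24 → ℝ) : ℝ := leechVal 1 ((∑ i, ξ i ^ 2) / 4) / 2 ^ 24

theorem isTestFunction_leechTest : FA.PackingLP.IsTestFunction leechTest leechTestFourier := by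
  have hs : ∀ x : Fin 24 → ℝ, 0 ≤ ∑ i, x i ^ 2 := fun x => Finset.sum_nonneg fun i _ => sq_nonneg _
  refine ⟨?_, ?_, fun ξ => ?_, ?_, fun ξ => ?_, fun x hx => leechVal_nonpos (by linarith)⟩
  · exact Complex.continuous_re.comp ((continuousOn_leechSum (-1)).comp_continuous (by fun_prop)
      fun x => mem_Ici.2 (mul_nonneg (by norm_num) (hs x)))
  · obtain ⟨C, hB⟩ := decay_leechVal (-1)
    refine ⟨C, fun x => ?_⟩
    rw [FA.PackingLP.radialWeight, ← div_eq_mul_inv, le_div_iff₀ (by have := hs x; positivity)]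
    refine le_trans (mul_le_mul_of_nonneg_left (pow_le_pow_left₀ (by linarith [hs x]) (?_ :
      1 + ∑ i, x i ^ 2 ≤ 1 + 4 * ∑ i, x i ^ 2) 24) (norm_nonneg _)) (hB _ (by linarith [hs x]))
    linarith [hs x]
  · set h : (Fin 24 → ℝ) → ℂ := fun y =>
      cexp (-(2 * π * I * ∑ i, ((ξ i / 2 : ℝ) : ℂ) * (y i : ℂ))) *
        leechSum (-1) (∑ i, y i ^ 2)
    have he : ∀ x : Fin 24 → ℝ, cexp (-(2 * π * I * ∑ i, (ξ i : ℂ) * (x i : ℂ))) *
        (leechTest x : ℂ) = h ((2 : ℝ) • x) := fun x => by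
      have e1 : ∑ i, ((2 : ℝ) • x) i ^ 2 = 4 * ∑ i, x i ^ 2 := by
        rw [Finset.mul_sum]
        refine Finset.sum_congr rfl fun i _ => ?_
        rw [Pi.smul_apply, smul_eq_mul, mul_pow]
        norm_num
      have e2 : ∀ i, ((ξ i / 2 : ℝ) : ℂ) * ((((2 : ℝ) • x) i : ℝ) : ℂ) = (ξ i : ℂ) * (x i : ℂ) :=
        fun i => by
        rw [← ofReal_mul, ← ofReal_mul, Pi.smul_apply, smul_eq_mul]
        congr 1
        ring
      simp only [h, e1, e2, leechTest]
      rw [leechSum_eq _ (mul_nonneg (by norm_num) (hs x))]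
    rw [FA.PackingLP.fourierT, integral_congr_ae (Eventually.of_forall he),
      Measure.integral_comp_smul, Module.finrank_fin_fun, fourier_leechSum, neg_neg,
      show ∑ i, (ξ i / 2) ^ 2 = (∑ i, ξ i ^ 2) / 4 by
        rw [Finset.sum_div]; exact Finset.sum_congr rfl fun i _ => by ring,
      leechSum_eq _ (div_nonneg (hs ξ) (by norm_num)), leechTestFourier, Complex.real_smul]
    norm_num
    ring
  · obtain ⟨C, hB⟩ := decay_leechVal 1
    refine ⟨C * 4 ^ 24, fun x => ?_⟩
    rw [FA.PackingLP.radialWeight, ← div_eq_mul_inv, le_div_iff₀ (by have := hs x; positivity),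
      leechTestFourier, norm_div, Real.norm_eq_abs]
    have h1 := hB _ (div_nonneg (hs x) (by norm_num : (0 : ℝ) ≤ 4))
    have h2 : (1 + ∑ i, x i ^ 2) ^ 24 ≤ 4 ^ 24 * (1 + (∑ i, x i ^ 2) / 4) ^ 24 := by
      rw [← mul_pow]; exact pow_le_pow_left₀ (by linarith [hs x]) (by linarith [hs x]) 24
    calc |leechVal 1 ((∑ i, x i ^ 2) / 4)| / ‖(2 : ℝ) ^ 24‖ * (1 + ∑ i, x i ^ 2) ^ 24
        ≤ |leechVal 1 ((∑ i, x i ^ 2) / 4)| * (4 ^ 24 * (1 + (∑ i, x i ^ 2) / 4) ^ 24) := by
          refine mul_le_mul ?_ h2 (pow_nonneg (by linarith [hs x]) _) (abs_nonneg _)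
          exact div_le_self (abs_nonneg _) (by norm_num)
      _ = 4 ^ 24 * (|leechVal 1 ((∑ i, x i ^ 2) / 4)| * (1 + (∑ i, x i ^ 2) / 4) ^ 24) := by ring
      _ ≤ 4 ^ 24 * C := mul_le_mul_of_nonneg_left h1 (by norm_num)
      _ = _ := mul_comm _ _
  · exact div_nonneg (leechVal_nonneg (div_nonneg (hs ξ) (by norm_num))) (by positivity)

theorem leechTest_zero : leechTest 0 = 1 ∧ leechTestFourier 0 = 1 / 2 ^ 24 := by
  simp [leechTest, leechTestFourier, leechVal_zero]

end FA.Ckmrv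

end
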