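import Fermat.Agent.Ckmrv.Forms

/-!
# The inequality of Cohn, Kumar, Miller, Radchenko and Viazovska

With `M = ∂₁₄ F`, `N = ∂₁₄ G` one has `∂₁₆ N = 14/9 E₄ G` and `∂₁₆ M = 14/9 E₄ F + c Δ X` with
`X ≥ 0`. So `F > 0` on the axis, `L = M G - F N` has `L / Δ^(5/2)` decreasing, hence `L > 0`, and
`F / G` decreases from its limit `432 / π²` at `0`.
-/

set_option autoImplicit false

noncomputable section

open Filter FA.Viazovska Set
open scoped Real Topology

namespace FA.Ckmrv

local notation "aR" => axTwo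
local notation "cR" => axFour
local notation "eR" => axEis

/-- The Wronskian of `F` and `G`. -/
def wR (s : ℝ) : ℝ := mR s * gFR s - fR s * nR s

variable {s : ℝ}

theorem hasDerivAt_mul_rpow {f : ℝ → ℝ} {v k : ℝ} (hs : 0 < s)
    (h : HasDerivAt f (-(2 * π) * (v + k * (eR s * f s))) s) :
    HasDerivAt (fun t => f t * discR t ^ (-k)) (-(2 * π) * v * discR s ^ (-k)) s := by
  refine (h.mul ((hasDerivAt_discR hs).rpow_const (p := -k)
    (Or.inl (discR_pos hs).ne'))).congr_deriv ?_
  rw [Real.rpow_sub_one (discR_pos hs).ne']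
  field_simp [(discR_pos hs).ne']
  ring

/-- A positive function tending to `0` increases nowhere on a whole half line. -/
theorem exists_deriv_pos {φ ψ : ℝ → ℝ} (hd : ∀ t, 0 < t → HasDerivAt φ (-(2 * π) * ψ t) t)
    (hpos : ∀ᶠ t in atTop, 0 < φ t) (hlim : Tendsto φ atTop (𝓝 0)) {t₀ : ℝ} (ht₀ : 0 < t₀) :
    ∃ t, t₀ < t ∧ 0 < ψ t := by
  by_contra hcon
  push Not at hcon
  have hmono : MonotoneOn φ (Ici t₀) := by
    refine monotoneOn_of_deriv_nonneg (convex_Ici t₀)
      (fun t ht => (hd t (ht₀.trans_le ht)).continuousAt.continuousWithinAt)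
      (fun t ht => (hd t (ht₀.trans_le
        (interior_subset ht))).differentiableAt.differentiableWithinAt)
      fun t ht => ?_
    rw [interior_Ici] at ht
    rw [(hd t (ht₀.trans ht)).deriv]
    exact mul_nonneg_of_nonpos_of_nonpos (by linarith [Real.pi_pos]) (hcon t ht)
  obtain ⟨u, hu, hut⟩ := (hpos.and (eventually_ge_atTop t₀)).exists
  exact absurd (ge_of_tendsto hlim ((eventually_ge_atTop u).mono fun t ht =>
    hmono hut (hut.trans ht) ht)) (not_le.2 hu)

theorem eventually_fR_pos : ∀ᶠ t in atTop, 0 < fR t := by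
  filter_upwards [tendsto_fR.1.eventually (lt_mem_nhds (show (0 : ℝ) < 3657830400 by norm_num))]
    with t ht
  exact (div_pos_iff_of_pos_right (pow_pos (Real.exp_pos _) 6)).1 ht

theorem tendsto_axNome : Tendsto axNome atTop (𝓝 0) :=
  Real.tendsto_exp_atBot.comp
    (tendsto_neg_atTop_atBot.comp (tendsto_id.const_mul_atTop Real.pi_pos))

theorem tendsto_discR : Tendsto (fun t => discR t / axNome t ^ 2) atTop (𝓝 1) := by
  obtain ⟨-, ha, hc, hq⟩ := tendsto_forms
  have h := (((hq.mul hc).mul (ha.add hc)).pow 2).div_const 256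
  norm_num at h
  refine h.congr fun t => ?_
  rw [discR]; ring

theorem tendsto_fR_disc :
    Tendsto (fun t => fR t * discR t ^ (-(7 / 6 : ℝ))) atTop (𝓝 0) := by
  have h1 := (tendsto_fR.1.mul (tendsto_axNome.pow 2)).div (tendsto_discR.pow 2) (by norm_num)
  have hd : Tendsto discR atTop (𝓝 0) := by
    have h := tendsto_discR.mul (tendsto_axNome.pow 2)
    norm_num at h
    refine h.congr fun t => ?_
    have : axNome t ≠ 0 := (Real.exp_pos _).ne'
    field_simp
  have h2 := h1.mul (hd.rpow_const (p := (5 / 6 : ℝ)) (Or.inr (by norm_num)))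
  norm_num at h2
  refine h2.congr' ((eventually_gt_atTop 0).mono fun t ht => ?_)
  have hn : axNome t ≠ 0 := (Real.exp_pos _).ne'
  rw [show (5 / 6 : ℝ) = -(7 / 6) + 2 by norm_num, Real.rpow_add (discR_pos ht), Real.rpow_two]
  field_simp [(discR_pos ht).ne']

theorem mR_pos_of {t : ℝ} (ht : 0 < t) (h : ∀ u, t < u → 0 < fR u) :
    ∀ u, t < u → 0 < mR u := fun u hu => by
  obtain ⟨v, hv, hv'⟩ := exists_deriv_pos (φ := fun t => fR t * discR t ^ (-(7 / 6 : ℝ)))
    (ψ := fun t => mR t * discR t ^ (-(7 / 6 : ℝ)))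
    (fun t ht => (hasDerivAt_mul_rpow ht (hasDerivAt_fR ht)).congr_deriv (by ring))
    ((eventually_fR_pos.and (eventually_gt_atTop 0)).mono fun t h =>
      mul_pos h.1 (Real.rpow_pos_of_pos (discR_pos h.2) _))
    tendsto_fR_disc (ht.trans hu)
  have hd : ∀ w, t < w → HasDerivAt (fun x => mR x * discR x ^ (-(4 / 3 : ℝ)))
      (-(2 * π) * (14 / 9 * (axP w * fR w) + 5486745600 * (discR w * xPoly (eR w) (axP w) (axQ w)))
        * discR w ^ (-(4 / 3 : ℝ))) w := fun w hw =>
    hasDerivAt_mul_rpow (ht.trans hw) ((hasDerivAt_mR (ht.trans hw)).congr_deriv (by ring))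
  have hanti : AntitoneOn (fun x => mR x * discR x ^ (-(4 / 3 : ℝ))) (Ioi t) := by
    refine antitoneOn_of_deriv_nonpos (convex_Ioi t)
      (fun w hw => (hd w hw).continuousAt.continuousWithinAt)
      (fun w hw => (hd w (interior_subset hw)).differentiableAt.differentiableWithinAt)
      fun w hw => ?_
    rw [interior_Ioi] at hw
    have hw0 : 0 < w := ht.trans hw
    rw [(hd w hw).deriv]
    obtain ⟨-, -, -, ha, hc⟩ := axis_real hw0
    have := discR_pos hw0
    have := xPoly_nonneg hw0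
    have := h w hw
    have hp : 0 < axP w := by unfold axP quadR; positivity
    exact mul_nonpos_of_nonpos_of_nonneg (mul_nonpos_of_nonpos_of_nonneg (by
      linarith [Real.pi_pos]) (by positivity)) (Real.rpow_nonneg (discR_pos hw0).le _)
  have hv0 : 0 < v := (ht.trans hu).trans hv
  have hmv : 0 < mR v := pos_of_mul_pos_left hv' (Real.rpow_pos_of_pos (discR_pos hv0) _).le
  exact pos_of_mul_pos_left ((mul_pos hmv (Real.rpow_pos_of_pos (discR_pos hv0) _)).trans_le
    (hanti hu (hu.trans hv) hv.le)) (Real.rpow_pos_of_pos (discR_pos (ht.trans hu)) _).le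

/-- **`F` is positive on the axis.** -/
theorem fR_pos (hs : 0 < s) : 0 < fR s := by
  by_contra hcon
  obtain ⟨T, hT⟩ := eventually_atTop.1 eventually_fR_pos
  have hcont : ContinuousOn fR (Icc s T) := fun t ht =>
    (hasDerivAt_fR (hs.trans_le ht.1)).continuousAt.continuousWithinAt
  set K := Icc s T ∩ fR ⁻¹' Iic 0
  have hK : IsCompact K := isCompact_Icc.of_isClosed_subset
    (hcont.preimage_isClosed_of_isClosed isClosed_Icc isClosed_Iic) inter_subset_left
  have hsT : s ≤ T := by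
    by_contra hlt
    exact hcon (hT s (not_le.1 hlt).le)
  have hne : K.Nonempty := ⟨s, ⟨le_refl s, hsT⟩, not_lt.1 hcon⟩
  obtain ⟨⟨hst, htT⟩, hft⟩ := hK.sSup_mem hne
  set t := sSup K
  have ht : 0 < t := hs.trans_le hst
  have hgt : ∀ u, t < u → 0 < fR u := fun u hu => by
    by_contra hu'
    have huT : u ≤ T := by
      by_contra hlt
      exact hu' (hT u (not_le.1 hlt).le)
    exact absurd (le_csSup hK.bddAbove ⟨⟨hst.trans hu.le, huT⟩, not_lt.1 hu'⟩) (not_le.2 hu)
  have hanti : StrictAntiOn (fun x => fR x * discR x ^ (-(7 / 6 : ℝ))) (Ici t) := by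
    have hd : ∀ w, t ≤ w → HasDerivAt (fun x => fR x * discR x ^ (-(7 / 6 : ℝ)))
        (-(2 * π) * mR w * discR w ^ (-(7 / 6 : ℝ))) w := fun w hw =>
      hasDerivAt_mul_rpow (ht.trans_le hw) (hasDerivAt_fR (ht.trans_le hw))
    refine strictAntiOn_of_deriv_neg (convex_Ici t)
      (fun w hw => (hd w hw).continuousAt.continuousWithinAt) fun w hw => ?_
    rw [interior_Ici] at hw
    rw [(hd w (le_of_lt hw)).deriv]
    exact mul_neg_of_neg_of_pos (mul_neg_of_neg_of_pos (by linarith [Real.pi_pos])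
      (mR_pos_of ht hgt w hw)) (Real.rpow_pos_of_pos (discR_pos (ht.trans hw)) _)
  have h1 := hanti self_mem_Ici (show t ≤ t + 1 by linarith) (lt_add_one t)
  have h2 : 0 < fR (t + 1) := hgt _ (lt_add_one t)
  exact absurd (pos_of_mul_pos_left
    ((mul_pos h2 (Real.rpow_pos_of_pos (discR_pos (by linarith)) _)).trans h1)
    (Real.rpow_pos_of_pos (discR_pos ht) _).le) (not_lt.2 hft)

theorem hasDerivAt_quot (hs : 0 < s) :
    HasDerivAt (fun t => fR t / gFR t) (-(2 * π) * (wR s / gFR s ^ 2)) s := by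
  refine ((hasDerivAt_fR hs).div (hasDerivAt_gFR hs) (gFR_pos hs).ne').congr_deriv ?_
  rw [wR]; ring

theorem hasDerivAt_wR (hs : 0 < s) : HasDerivAt wR (-(2 * π) *
    (5486745600 * (discR s * xPoly (eR s) (axP s) (axQ s)) * gFR s +
      5 / 2 * (eR s * wR s))) s := by
  refine (((hasDerivAt_mR hs).mul (hasDerivAt_gFR hs)).sub
    ((hasDerivAt_fR hs).mul (hasDerivAt_nR hs))).congr_deriv ?_
  rw [wR]; ring

theorem wR_pos (hs : 0 < s) : 0 < wR s := by
  have hlim : Tendsto (fun t => fR t / gFR t) atTop (𝓝 0) := by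
    obtain ⟨-, ha, hc, hq⟩ := tendsto_forms
    have hg := (hq.pow 5).mul ((((ha.pow 2).const_mul 2).add ((ha.mul hc).const_mul 7)).add
      ((hc.pow 2).const_mul 7))
    have h := (tendsto_fR.1.mul tendsto_axNome).div hg (by norm_num)
    rw [mul_zero, zero_div] at h
    refine h.congr fun t => ?_
    have : axNome t ≠ 0 := (Real.exp_pos _).ne'
    simp only [Pi.div_apply, gFR]
    field_simp
  obtain ⟨v, hv, hv'⟩ := exists_deriv_pos (fun t ht => hasDerivAt_quot ht)
    ((eventually_gt_atTop 0).mono fun t ht => div_pos (fR_pos ht) (gFR_pos ht)) hlim hs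
  have hd : ∀ w, 0 < w → HasDerivAt (fun x => wR x * discR x ^ (-(5 / 2 : ℝ)))
      (-(2 * π) * (5486745600 * (discR w * xPoly (eR w) (axP w) (axQ w)) * gFR w) *
        discR w ^ (-(5 / 2 : ℝ))) w := fun w hw =>
    hasDerivAt_mul_rpow hw (hasDerivAt_wR hw)
  have hanti : AntitoneOn (fun x => wR x * discR x ^ (-(5 / 2 : ℝ))) (Ioi 0) := by
    refine antitoneOn_of_deriv_nonpos (convex_Ioi 0)
      (fun w hw => (hd w hw).continuousAt.continuousWithinAt)
      (fun w hw => (hd w (interior_subset hw)).differentiableAt.differentiableWithinAt)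
      fun w hw => ?_
    rw [interior_Ioi] at hw
    rw [(hd w hw).deriv]
    have := discR_pos (show 0 < w from hw)
    have := xPoly_nonneg (show 0 < w from hw)
    have := gFR_pos (show 0 < w from hw)
    exact mul_nonpos_of_nonpos_of_nonneg (mul_nonpos_of_nonpos_of_nonneg (by
      linarith [Real.pi_pos]) (by positivity)) (Real.rpow_nonneg (discR_pos hw).le _)
  have hv0 : 0 < v := hs.trans hv
  have hwv : 0 < wR v := pos_of_mul_pos_left (by rwa [div_eq_mul_inv] at hv')
    (inv_nonneg.2 (sq_nonneg _))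
  exact pos_of_mul_pos_left ((mul_pos hwv (Real.rpow_pos_of_pos (discR_pos hv0) _)).trans_le
    (hanti hs hv0 hv.le)) (Real.rpow_pos_of_pos (discR_pos hs) _).le

theorem tendsto_quot_zero :
    Tendsto (fun t => fR t / gFR t) (𝓝[>] 0) (𝓝 (432 / π ^ 2)) := by
  obtain ⟨-, ha, hc, -⟩ := tendsto_forms
  have hP : Tendsto axP atTop (𝓝 1) := by
    show Tendsto (fun t => quadR (aR t) (cR t)) atTop (𝓝 1)
    simpa [quadR] using ((ha.pow 2).add (ha.mul hc)).add (hc.pow 2)
  have hQ : Tendsto axQ atTop (𝓝 1) := by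
    show Tendsto (fun t => cubeR (aR t) (cR t)) atTop (𝓝 1)
    simpa [cubeR] using (((ha.add (hc.const_mul 2)).mul
      ((ha.const_mul 2).add hc)).mul (hc.sub ha)).div_const 2
  have hA : Tendsto (fun t => polyA (axP t) (axQ t)) atTop (𝓝 24) := by
    have h := ((hP.pow 3).const_mul 49).sub ((hQ.pow 2).const_mul 25)
    norm_num at h
    exact h
  have hxF : Tendsto (fun t => t ^ 2 * fR t) atTop (𝓝 0) := by
    have hexp := (Real.tendsto_pow_mul_exp_neg_atTop_nhds_zero 2).comp
      (tendsto_id.const_mul_atTop (show 0 < 6 * π by positivity))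
    have h := (hexp.const_mul ((6 * π) ^ 2)⁻¹).mul tendsto_fR.1
    rw [mul_zero, zero_mul] at h
    refine h.congr fun t => ?_
    simp only [Function.comp_apply, id, axNome, ← Real.exp_nat_mul]
    field_simp
    push_cast
    ring_nf
  have hden : Tendsto (fun t => cR t ^ 5 * (2 * cR t ^ 2 + 7 * (cR t * aR t) + 7 * aR t ^ 2))
      atTop (𝓝 2) := by
    simpa using (hc.pow 5).mul ((((hc.pow 2).const_mul 2).add ((hc.mul ha).const_mul 7)).add
      ((ha.pow 2).const_mul 7))
  have h := ((hxF.sub (tendsto_fR.2.const_mul (6 / π))).add (hA.const_mul (36 / π ^ 2))).div hden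
    two_ne_zero
  rw [show ((0 - 6 / π * 0 + 36 / π ^ 2 * 24) / 2 : ℝ) = 432 / π ^ 2 by ring] at h
  refine (h.comp tendsto_inv_nhdsGT_zero).congr' ?_
  filter_upwards [self_mem_nhdsWithin] with t ht
  obtain ⟨j1, j2, j3⟩ := axis_inv (inv_pos.2 (show (0 : ℝ) < t from ht))
  rw [inv_inv] at j1 j2 j3
  simp only [Function.comp_apply, Pi.div_apply, fR, polyA, polyB, polyC, gFR, axP, axQ, quadR,
    cubeR, j1, j2, j3]
  have : t ≠ 0 := (show (0 : ℝ) < t from ht).ne'
  field_simp
  ring

/-- **The inequality of Cohn, Kumar, Miller, Radchenko and Viazovska.** -/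
theorem fR_lt (hs : 0 < s) : fR s < 432 / π ^ 2 * gFR s := by
  have hanti : StrictAntiOn (fun t => fR t / gFR t) (Ioi 0) := by
    refine strictAntiOn_of_deriv_neg (convex_Ioi 0)
      (fun t ht => (hasDerivAt_quot ht).continuousAt.continuousWithinAt) fun t ht => ?_
    rw [interior_Ioi] at ht
    rw [(hasDerivAt_quot ht).deriv]
    exact mul_neg_of_neg_of_pos (by linarith [Real.pi_pos])
      (div_pos (wR_pos ht) (pow_pos (gFR_pos ht) 2))
  have h2 : fR (s / 2) / gFR (s / 2) ≤ 432 / π ^ 2 := by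
    refine ge_of_tendsto tendsto_quot_zero ?_
    filter_upwards [Ioo_mem_nhdsGT (half_pos hs)] with t ht
    exact (hanti (mem_Ioi.2 ht.1) (mem_Ioi.2 (half_pos hs)) ht.2).le
  have h3 := hanti (mem_Ioi.2 (half_pos hs)) (mem_Ioi.2 hs) (half_lt_self hs)
  exact (div_lt_iff₀ (gFR_pos hs)).1 (h3.trans_le h2)

end FA.Ckmrv

end
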