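import Fermat.Agent.Viazovska.Kernels
import Fermat.Agent.Forms3.ManySquares

/-!
# Expansions at `∞` modulo `w⁵`

Congruences `f ≡ c₀ + c₁ w² + c₂ w⁴` modulo `w⁵`, `w = exp (π i z)`, and their products.
-/

set_option autoImplicit false

noncomputable section

open UpperHalfPlane hiding I
open Complex Filter Asymptotics FA.Gleason FA.Eis FA.Tau FA.Viazovska
open scoped Real Topology ArithmeticFunction.sigma

namespace FA.Ckmrv

/-- `f ≡ c₀ + c₁ w² + c₂ w⁴` modulo `w⁵`. -/
def JetQ (f : ℂ → ℂ) (c₀ c₁ c₂ : ℂ) : Prop :=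
  Cong 5 f fun z => c₀ + c₁ * nome z ^ 2 + c₂ * nome z ^ 4

theorem bd_jet (c₀ c₁ c₂ : ℂ) : Bd fun z => c₀ + c₁ * nome z ^ 2 + c₂ * nome z ^ 4 :=
  ((bd_const c₀).add ((bd_const c₁).mul (bd_nome.pow 2))).add ((bd_const c₂).mul (bd_nome.pow 4))

variable {f g : ℂ → ℂ} {a b c a' b' c' : ℂ}

theorem JetQ.mul (h : JetQ f a b c) (h' : JetQ g a' b' c') :
    JetQ (fun z => f z * g z) (a * a') (a * b' + b * a') (a * c' + b * b' + c * a') :=
  (Cong.mul h h' (bd_jet a b c) (Cong.bd h' (bd_jet a' b' c'))).trans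
    (cong_of_eq (fun z => (b * c' + c * b') * nome z + c * c' * nome z ^ 3)
      (((bd_const _).mul bd_nome).add ((bd_const _).mul (bd_nome.pow 3))) fun z => by ring)

theorem JetQ.add (h : JetQ f a b c) (h' : JetQ g a' b' c') :
    JetQ (fun z => f z + g z) (a + a') (b + b') (c + c') :=
  (Cong.add h h').trans (cong_of_eq (fun _ => 0) (bd_const 0) fun z => by ring)

theorem JetQ.sub (h : JetQ f a b c) (h' : JetQ g a' b' c') :
    JetQ (fun z => f z - g z) (a - a') (b - b') (c - c') :=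
  (Cong.sub h h').trans (cong_of_eq (fun _ => 0) (bd_const 0) fun z => by ring)

theorem JetQ.const_mul (h : JetQ f a b c) (k : ℂ) :
    JetQ (fun z => k * f z) (k * a) (k * b) (k * c) :=
  (Cong.const_mul h k).trans (cong_of_eq (fun _ => 0) (bd_const 0) fun z => by ring)

theorem JetQ.congr (h : JetQ f a b c) (he : ∀ z, f z = g z) : JetQ g a b c :=
  (funext he : f = g) ▸ h

theorem JetQ.cast (h : JetQ f a b c) (e₀ : a = a') (e₁ : b = b') (e₂ : c = c') :
    JetQ f a' b' c' :=
  e₀ ▸ e₁ ▸ e₂ ▸ h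

theorem jet_monomial (a b c : ℂ) :
    JetQ (fun z => a + b * nome z ^ 2 + c * nome z ^ 4) a b c :=
  cong_refl 5 _

theorem jet_of_hasQ {F : ℍ → ℂ} {A : PowerSeries ℂ} (h : HasQ 1 F A) :
    JetQ (fun z => F (ofComplex z)) (PowerSeries.coeff 0 A) (PowerSeries.coeff 1 A)
      (PowerSeries.coeff 2 A) := by
  refine Cong.mono (N := 6) ?_ (by norm_num)
  have h1 := ((h.hasFPowerSeriesOnBall one_pos).hasFPowerSeriesAt.isBigO_sub_partialSum_pow
    3).comp_tendsto ((qParam_tendsto_atImInfty one_pos).comp tendsto_ofComplex_imTop)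
  refine (h1.trans ?_).congr' ?_ EventuallyEq.rfl
  · refine IsBigO.of_bound 1 ((eventually_imTop 1).mono fun z hz => ?_)
    simp only [Function.comp_apply, ofComplex_apply_of_im_pos (show 0 < z.im by linarith),
      Function.Periodic.qParam, Complex.ofReal_one, div_one, ← nome_sq, norm_pow, Real.norm_eq_abs,
      abs_norm, one_mul]
    rw [← pow_mul]
  · filter_upwards [eventually_imTop 1] with z hz
    simp only [Function.comp_apply, zero_add]
    rw [← h.eq_seriesFun]
    simp only [ofComplex_apply_of_im_pos (show 0 < z.im by linarith),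
      FormalMultilinearSeries.partialSum, Finset.sum_range_succ, Finset.sum_range_zero,
      FormalMultilinearSeries.ofScalars_apply_eq, Function.Periodic.qParam, Complex.ofReal_one,
      div_one, ← nome_sq, smul_eq_mul]
    ring

theorem eval_forms {z : ℂ} (hz : 0 < z.im) :
    eisTwo z = EisensteinSeries.E2 (ofComplex z) ∧
      quadPoly (thetaFourthTwo z) (thetaFourthFour z) = ModularForm.E₄ (ofComplex z) ∧
      cubePoly (thetaFourthTwo z) (thetaFourthFour z) = ModularForm.E₆ (ofComplex z) ∧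
      discForm z = ModularForm.discriminant (ofComplex z) := by
  rw [eFour_eq, eSix_eq, discriminant_eq, ofComplex_apply_of_im_pos hz]
  simp only [eisTwo, ofComplex_apply_of_im_pos hz, discForm, and_self]

theorem jet_eis : JetQ eisTwo 1 (-24) (-72) ∧
    JetQ (fun z => quadPoly (thetaFourthTwo z) (thetaFourthFour z)) 1 240 2160 ∧
    JetQ (fun z => cubePoly (thetaFourthTwo z) (thetaFourthFour z)) 1 (-504) (-16632) := by
  have hs : σ 1 2 = 3 ∧ σ 3 2 = 9 ∧ σ 5 2 = 33 := by decide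
  obtain ⟨s1, s3, s5⟩ := hs
  have key : ∀ {u : ℂ → ℂ} {F : ℍ → ℂ} {A : PowerSeries ℤ},
      HasQ 1 F (A.map (Int.castRingHom ℂ)) → (∀ z : ℂ, 0 < z.im → u z = F (ofComplex z)) →
      JetQ u (PowerSeries.coeff 0 A : ℤ) (PowerSeries.coeff 1 A : ℤ)
        (PowerSeries.coeff 2 A : ℤ) := fun {u F A} h he => by
    refine IsBigO.congr' ((jet_of_hasQ h).cast (PowerSeries.coeff_map ..) (PowerSeries.coeff_map ..)
      (PowerSeries.coeff_map ..)) ?_ EventuallyEq.rfl
    filter_upwards [eventually_imTop 1] with z hz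
    simp only [he z (show 0 < z.im by linarith), eq_intCast]
  refine ⟨?_, ?_, ?_⟩
  · exact (key hasQ_eTwo fun z hz => (eval_forms hz).1).cast (by simp [eTwoInt])
      (by simp [eTwoInt]) (by simp [eTwoInt, s1])
  · exact (key hasQ_eFour fun z hz => (eval_forms hz).2.1).cast (by simp [eFourInt])
      (by simp [eFourInt]) (by simp [eFourInt, s3])
  · exact (key hasQ_eSix fun z hz => (eval_forms hz).2.2.1).cast (by simp [eSixInt])
      (by simp [eSixInt]) (by simp [eSixInt, s5])

theorem hasQ_disc_div :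
    HasQ 1 (fun τ : ℍ => ModularForm.discriminant τ / Function.Periodic.qParam (1 : ℝ) (τ : ℂ))
      (PowerSeries.mk fun n => ((PowerSeries.coeff (n + 1) deltaInt : ℤ) : ℂ)) := fun τ => by
  have h0 : PowerSeries.coeff 0 deltaInt = 0 := FA.ManySquares.nine_deltaInt 0 (by norm_num)
  have hz := ((hasSum_nat_add_iff' 1).2 (FA.Tau.hasQ_discriminant τ)).div_const
    (Function.Periodic.qParam (1 : ℝ) (τ : ℂ))
  rw [Finset.sum_range_one, PowerSeries.coeff_map, h0, map_zero, zero_mul, sub_zero] at hz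
  refine hz.congr_fun fun n => ?_
  rw [PowerSeries.coeff_mk, PowerSeries.coeff_map, eq_intCast, pow_succ, ← mul_assoc,
    mul_div_cancel_right₀ _ (Function.Periodic.qParam_ne_zero _)]

theorem jet_disc : JetQ (fun z => discForm z / nome z ^ 2) 1 (-24) 252 := by
  have h := (jet_of_hasQ hasQ_disc_div).cast (a' := 1) (b' := -24) (c' := 252)
    (by rw [PowerSeries.coeff_mk, FA.ManySquares.nine_deltaInt 1 (by norm_num)]; norm_num)
    (by rw [PowerSeries.coeff_mk, FA.ManySquares.nine_deltaInt 2 (by norm_num)]; norm_num)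
    (by rw [PowerSeries.coeff_mk, FA.ManySquares.nine_deltaInt 3 (by norm_num)]; norm_num)
  refine IsBigO.congr' h ?_ EventuallyEq.rfl
  filter_upwards [eventually_imTop 1] with z hz
  have hz0 : 0 < z.im := by linarith
  rw [(eval_forms hz0).2.2.2, nome_sq, ofComplex_apply_of_im_pos hz0]
  simp [Function.Periodic.qParam]

theorem jet_thetaA : JetQ thetaA 1 2 0 := by
  refine IsBigO.of_bound (2 / (1 - Real.exp (-π)) + 2) ?_
  filter_upwards [eventually_imTop 1] with z hz
  have h := theta_tail (x := 2 * z) (by simp; linarith)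
  have e1 : cexp (π * I * (2 * z)) = nome z ^ 2 := by rw [nome, ← Complex.exp_nat_mul]; ring_nf
  have e2 : cexp (4 * π * I * (2 * z)) = nome z ^ 8 := by rw [nome, ← Complex.exp_nat_mul]; ring_nf
  rw [e1, e2, show (2 * z).im = 2 * z.im by simp] at h
  have h2 : Real.exp (-(9 * π * (2 * z.im))) ≤ ‖nome z‖ ^ 5 := by
    rw [norm_nome, ← Real.exp_nat_mul]
    exact Real.exp_le_exp.2 (by push_cast; nlinarith [Real.pi_pos])
  have h3 : ‖nome z‖ ^ 8 ≤ ‖nome z‖ ^ 5 :=
    pow_le_pow_of_le_one (norm_nonneg _) (norm_nome z ▸ Real.exp_le_one_iff.2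
      (by nlinarith [Real.pi_pos])) (by norm_num)
  have hc : 0 ≤ 2 / (1 - Real.exp (-π)) := div_nonneg zero_le_two
    (sub_nonneg.2 (Real.exp_le_one_iff.2 (neg_nonpos.2 Real.pi_pos.le)))
  calc ‖thetaA z - (1 + 2 * nome z ^ 2 + 0 * nome z ^ 4)‖
      = ‖(jacobiTheta (2 * z) - 1 - 2 * nome z ^ 2 - 2 * nome z ^ 8) + 2 * nome z ^ 8‖ := by
        rw [thetaA]; ring_nf
    _ ≤ 2 / (1 - Real.exp (-π)) * ‖nome z‖ ^ 5 + 2 * ‖nome z‖ ^ 5 := by
        refine (norm_add_le _ _).trans (add_le_add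
          (h.trans (mul_le_mul_of_nonneg_left h2 hc)) ?_)
        rw [norm_mul, Complex.norm_two, norm_pow]; linarith
    _ = _ := by rw [norm_pow]; ring

theorem jet_thetaB_four : JetQ (fun z => thetaB z ^ 4) 0 16 0 := by
  refine (IsBigO.mul cong_thetaB_sq ((cong_thetaB_sq.bd ((bd_const 4).mul bd_nome)).add
    ((bd_const 4).mul bd_nome))).congr (fun z => ?_) fun z => mul_one _
  ring

end FA.Ckmrv

end
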