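import Fermat.Agent.Ckmrv.Jet
import Fermat.Agent.Ckmrv.Formula

/-!
# The two kernels in dimension twenty-four

`Ψ₊ = F / Δ²` and `Ψ₋ = -G / Δ²` are kernels for `ε = ± 1`; their duals are
`z² F / Δ² + κ z F₁ / Δ² + κ² F₂ / Δ²` with `κ = -6 i / π`, and `θ₄²⁰ (…) / Δ²`.
-/

set_option autoImplicit false

noncomputable section

open UpperHalfPlane hiding I
open Complex Filter Asymptotics FA.Gleason FA.Eis FA.Viazovska
open scoped Real Topology

namespace FA.Ckmrv

local notation "hA" => thetaFourthTwo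
local notation "hC" => thetaFourthFour
local notation "eP" => fun z => quadPoly (thetaFourthTwo z) (thetaFourthFour z)
local notation "eQ" => fun z => cubePoly (thetaFourthTwo z) (thetaFourthFour z)

/-- The coefficient of `E₂²` in `F`. -/
def fTwoForm (z : ℂ) : ℂ :=
  49 * quadPoly (hA z) (hC z) ^ 3 - 25 * cubePoly (hA z) (hC z) ^ 2

/-- The derivative of `F` in `E₂`. -/
def fOneForm (z : ℂ) : ℂ :=
  2 * fTwoForm z * eisTwo z - 48 * cubePoly (hA z) (hC z) * quadPoly (hA z) (hC z) ^ 2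

/-- The form of weight sixteen. -/
def fForm (z : ℂ) : ℂ :=
  fTwoForm z * eisTwo z ^ 2 -
    48 * cubePoly (hA z) (hC z) * quadPoly (hA z) (hC z) ^ 2 * eisTwo z +
    (49 * cubePoly (hA z) (hC z) ^ 2 * quadPoly (hA z) (hC z) -
      25 * quadPoly (hA z) (hC z) ^ 4)

/-- The form of weight fourteen. -/
def gForm (z : ℂ) : ℂ := hA z ^ 5 * (2 * hA z ^ 2 + 7 * hA z * hC z + 7 * hC z ^ 2)

/-- Its transform under the inversion. -/
def gtForm (z : ℂ) : ℂ := hC z ^ 5 * (2 * hC z ^ 2 + 7 * hA z * hC z + 7 * hA z ^ 2)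

/-- The kernel for `ε = 1`. -/
def kerP (z : ℂ) : ℂ := fForm z / discForm z ^ 2

/-- The kernel for `ε = -1`. -/
def kerM (z : ℂ) : ℂ := -gForm z / discForm z ^ 2

/-- The linear term of the dual kernel. -/
def phiOne (z : ℂ) : ℂ := fOneForm z / discForm z ^ 2

/-- The constant term of the dual kernel. -/
def phiZero (z : ℂ) : ℂ := fTwoForm z / discForm z ^ 2

/-- The dual of the second kernel. -/
def psiDual (z : ℂ) : ℂ := gtForm z / discForm z ^ 2

/-- `-6 i / π`. -/
def kap : ℂ := -(6 * I / π)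

/-- The growing part. -/
def mainL (a₂ a₁ g b₁ b₀ : ℂ) (z : ℂ) : ℂ :=
  a₂ * cexp (-(4 * π * I * z)) + a₁ * cexp (-(2 * π * I * z)) + g +
    z * (b₁ * cexp (-(2 * π * I * z)) + b₀)

/-- The growing part for `ε = 1`. -/
def mainP : ℂ → ℂ :=
  mainL (kap ^ 2 * 24) (kap ^ 2 * 61632) (kap ^ 2 * 6198336) (kap * 120960) (kap * 18869760)

/-- The growing part for `ε = -1`. -/
def mainM : ℂ → ℂ := mainL 2 (-464) 172128 0 0

theorem exp_periods (z : ℂ) :
    cexp (-(4 * π * I * (z + 1))) = cexp (-(4 * π * I * z)) ∧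
      cexp (-(4 * π * I * (z - 1))) = cexp (-(4 * π * I * z)) ∧
      cexp (-(2 * π * I * (z + 1))) = cexp (-(2 * π * I * z)) ∧
      cexp (-(2 * π * I * (z - 1))) = cexp (-(2 * π * I * z)) := by
  have h4 : cexp (4 * π * I) = 1 := by
    rw [show (4 : ℂ) * π * I = 2 * π * I + 2 * π * I by ring, Complex.exp_add,
      Complex.exp_two_pi_mul_I, mul_one]
  refine ⟨?_, ?_, ?_, ?_⟩ <;>
    simp only [mul_add, mul_sub, mul_one, neg_add, neg_sub, Complex.exp_add, Complex.exp_sub,
      Complex.exp_neg, Complex.exp_two_pi_mul_I, h4] <;> ring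

theorem mainL_periodic (a₂ a₁ g b₁ b₀ z : ℂ) :
    mainL a₂ a₁ g b₁ b₀ (z + 1) + mainL a₂ a₁ g b₁ b₀ (z - 1) =
      2 * mainL a₂ a₁ g b₁ b₀ z := by
  obtain ⟨h1, h2, h3, h4⟩ := exp_periods z
  simp only [mainL, h1, h2, h3, h4]
  ring

theorem differentiable_mainL (a₂ a₁ g b₁ b₀ : ℂ) : Differentiable ℂ (mainL a₂ a₁ g b₁ b₀) := by
  unfold mainL; fun_prop

theorem forms_shift (z : ℂ) :
    fForm (z + 1) = fForm z ∧ fOneForm (z + 1) = fOneForm z ∧ fTwoForm (z + 1) = fTwoForm z ∧
      gForm (z + 1) = -gForm z ∧ discForm (z + 1) = discForm z ∧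
      gtForm (z + 1) = gtForm z + gForm z := by
  obtain ⟨h1, h2⟩ := thetaFourth_add_one z
  refine ⟨?_, ?_, ?_, ?_, (forms_add_one z).2.1, ?_⟩ <;>
    simp only [fForm, fOneForm, fTwoForm, gForm, gtForm, eisTwo_add_one, h1, h2,
      isSym_quadPoly.turn, isSym_cubePoly.turn] <;> ring

theorem forms_back (z : ℂ) :
    fForm (z - 1) = fForm z ∧ fOneForm (z - 1) = fOneForm z ∧ fTwoForm (z - 1) = fTwoForm z ∧
      discForm (z - 1) = discForm z ∧ gtForm (z - 1) = gtForm z + gForm z := by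
  obtain ⟨h1, h2, h3, h4, h5, h6⟩ := forms_shift (z - 1)
  rw [sub_add_cancel] at h1 h2 h3 h4 h5 h6
  exact ⟨h1.symm, h2.symm, h3.symm, h5.symm, by linear_combination -h6 - h4⟩

theorem dual_kerP {z : ℂ} (hz : 0 < z.im) :
    dualLeech kerP z = z ^ 2 * kerP z + kap * z * phiOne z + kap ^ 2 * phiZero z := by
  obtain ⟨i1, i2⟩ := thetaFourth_inversion hz
  have h0 : z ≠ 0 := fun e => by simp [e] at hz
  have hd := discForm_ne_zero hz
  have he : eisTwo (-1 / z) = z ^ 2 * eisTwo z + kap * z := by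
    rw [eisTwo_inversion hz, kap]; ring
  have hT : fTwoForm (-1 / z) = z ^ 12 * fTwoForm z := by
    rw [fTwoForm, i1, i2, isSym_quadPoly.swap, isSym_cubePoly.swap, fTwoForm]; ring
  have hF : fForm (-1 / z) =
      z ^ 16 * fForm z + kap * z ^ 15 * fOneForm z + kap ^ 2 * z ^ 14 * fTwoForm z := by
    rw [fForm, hT, he, i1, i2, isSym_quadPoly.swap, isSym_cubePoly.swap]
    simp only [fForm, fOneForm]
    ring
  have ed : discForm (-1 / z) = z ^ 12 * discForm z := by
    rw [discForm, discForm, i1, i2]; ring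
  rw [dualLeech, kerP, kerP, phiOne, phiZero, hF, ed]
  field_simp

theorem dual_kerM {z : ℂ} (hz : 0 < z.im) : dualLeech kerM z = psiDual z := by
  obtain ⟨i1, i2⟩ := thetaFourth_inversion hz
  have h0 : z ≠ 0 := fun e => by simp [e] at hz
  have hd := discForm_ne_zero hz
  have ed : discForm (-1 / z) = z ^ 12 * discForm z := by
    rw [discForm, discForm, i1, i2]; ring
  rw [dualLeech, kerM, psiDual, ed, gForm, gtForm, i1, i2]
  field_simp

/-! ### Expansions -/

/-- The even part of `θ₄²⁰ (…)`. -/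
def gEven (x y : ℂ) : ℂ :=
  (x + y) * (2 * ((x - y) ^ 2) ^ 3 - 32 * (x * y) * ((x - y) ^ 2) ^ 2 +
    768 * (x * y) ^ 2 * (x - y) ^ 2 + 8192 * (x * y) ^ 3)

theorem gtForm_eq (z : ℂ) :
    gtForm z = gEven (thetaA z ^ 4) (thetaB z ^ 4) - gForm z / 2 := by
  simp only [gtForm, gForm, gEven, thetaFourthTwo, thetaFourthFour]
  ring

theorem jet_gForm : JetQ gForm 0 0 0 := by
  have ha : hA =O[imTop] nome := by
    have h : (fun z => thetaB z ^ 2) =O[imTop] nome := by
      refine ((cong_thetaB_sq.mono (show 1 ≤ 5 by norm_num)).congr_right fun z => pow_one _).add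
        ((isBigO_refl nome imTop).const_mul_left 4) |>.congr_left fun z => ?_
      ring
    refine (((jet_thetaA.bd (bd_jet _ _ _)).pow 2 |>.const_mul_left 4).mul h).congr
      (fun z => rfl) fun z => one_mul _
  have hc : Bd hC := cong_four.bd (((bd_const 1).sub ((bd_const 8).mul bd_nome)).add
    ((bd_const 24).mul (bd_nome.pow 2)))
  have hb : Bd hA := ha.trans bd_nome
  refine ((ha.pow 5).mul ((((bd_const 2).mul (hb.pow 2)).add (((bd_const 7).mul hb).mul hc)).add
    ((bd_const 7).mul (hc.pow 2)))).congr (fun z => ?_) fun z => mul_one _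
  simp only [gForm]; ring

theorem jet_forms :
    JetQ fForm 0 0 0 ∧ JetQ fOneForm 0 120960 13063680 ∧ JetQ fTwoForm 24 60480 3265920 ∧
      JetQ gtForm 2 (-560) 196560 := by
  obtain ⟨he, hp, hq⟩ := jet_eis
  have hT : JetQ fTwoForm 24 60480 3265920 :=
    ((((hp.mul (hp.mul hp)).const_mul 49).sub ((hq.mul hq).const_mul 25)).congr fun z => by
      simp only [fTwoForm]; ring).cast (by norm_num) (by norm_num) (by norm_num)
  have hQP : JetQ (fun z => -48 * (eQ z * (eP z * eP z))) (-48) _ _ :=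
    ((hq.mul (hp.mul hp)).const_mul (-48)).cast (by norm_num) rfl rfl
  refine ⟨?_, ?_, hT, ?_⟩
  · exact ((((hT.mul (he.mul he)).add (hQP.mul he)).add (((hq.mul hq).mul hp |>.const_mul 49).sub
      (((hp.mul hp).mul (hp.mul hp)).const_mul 25))).congr fun z => by
        simp only [fForm]; ring).cast (by norm_num) (by norm_num) (by norm_num)
  · exact ((((hT.mul he).const_mul 2).add hQP).congr fun z => by
      simp only [fOneForm]; ring).cast (by norm_num) (by norm_num) (by norm_num)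
  · have hx : JetQ (fun z => thetaA z ^ 4) 1 8 24 :=
      (((jet_thetaA.mul jet_thetaA).mul (jet_thetaA.mul jet_thetaA)).congr fun z => by ring).cast
        (by norm_num) (by norm_num) (by norm_num)
    have hy := jet_thetaB_four
    have hd := (hx.sub hy).mul (hx.sub hy)
    have hm := hx.mul hy
    have hg := jet_gForm.const_mul (1 / 2)
    exact ((((hx.add hy).mul (((((hd.mul (hd.mul hd)).const_mul 2).sub
      ((hm.mul (hd.mul hd)).const_mul 32)).add (((hm.mul hm).mul hd).const_mul 768)).add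
        ((hm.mul (hm.mul hm)).const_mul 8192))).sub hg).congr fun z => by
          rw [gtForm_eq, gEven]; ring).cast (by norm_num) (by norm_num) (by norm_num)

theorem isBigO_div_sq {f : ℂ → ℂ} (h : f =O[imTop] fun z => nome z ^ 5) :
    (fun z => f z / discForm z ^ 2) =O[imTop] nome := by
  have h1 : Tendsto (fun z => ((discForm z / nome z ^ 2) ^ 2)⁻¹) imTop (𝓝 (1 ^ 2)⁻¹) := by
    refine ((jet_disc.tendsto (by norm_num) ?_).pow 2).inv₀ (by norm_num)
    simpa using (((tendsto_nome.pow 2).const_mul (-24 : ℂ)).const_add 1).add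
      ((tendsto_nome.pow 4).const_mul (252 : ℂ))
  have h2 : (fun z => f z / nome z ^ 4) =O[imTop] nome := by
    refine (h.mul (isBigO_refl (fun z => (nome z ^ 4)⁻¹) imTop)).congr (fun z => rfl) fun z => ?_
    field_simp [nome_ne_zero z]
  refine (h2.mul (h1.isBigO_one ℂ)).congr (fun z => ?_) fun z => mul_one _
  field_simp [nome_ne_zero z]

theorem isBigO_kers :
    kerP =O[imTop] nome ∧ kerM =O[imTop] nome ∧
      (fun z => phiOne z - (120960 * (nome z ^ 2)⁻¹ + 18869760)) =O[imTop] nome ∧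
      (fun z => phiZero z - (24 * (nome z ^ 4)⁻¹ + 61632 * (nome z ^ 2)⁻¹ + 6198336)) =O[imTop]
        nome ∧
      (fun z => psiDual z - (2 * (nome z ^ 4)⁻¹ - 464 * (nome z ^ 2)⁻¹ + 172128)) =O[imTop]
        nome := by
  obtain ⟨hF, hO, hT, hG⟩ := jet_forms
  have zero : ∀ {f : ℂ → ℂ}, JetQ f 0 0 0 → f =O[imTop] fun z => nome z ^ 5 := fun {f} h =>
    IsBigO.congr_left h fun z => by ring
  have key : ∀ {f : ℂ → ℂ} {a b c a' b' c' : ℂ}, JetQ f a b c → a = a' → b = b' - 48 * a' →
      c = c' - 48 * b' + 1080 * a' →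
      (fun z => f z / discForm z ^ 2 - (a' * (nome z ^ 4)⁻¹ + b' * (nome z ^ 2)⁻¹ + c'))
        =O[imTop] nome := fun {f a b c a' b' c'} h ea eb ec => by
    have hm := (jet_monomial a' b' c').mul (jet_disc.mul jet_disc)
    refine (isBigO_div_sq (zero ((h.sub hm).cast (by rw [ea]; ring) (by rw [eb]; ring)
      (by rw [ec]; ring)))).congr' ?_ EventuallyEq.rfl
    filter_upwards [eventually_imTop 1] with z hz
    have := discForm_ne_zero (show 0 < z.im by linarith)
    have := nome_ne_zero z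
    field_simp
  refine ⟨isBigO_div_sq (zero hF), (isBigO_div_sq (zero jet_gForm)).neg_left.congr_left fun z => ?_,
    ?_, (key hT rfl (by norm_num) (by norm_num)).congr_left fun z => rfl,
    (key hG rfl (b' := -464) (by norm_num) (c' := 172128) (by norm_num)).congr_left fun z => ?_⟩
  · rw [kerM]; ring
  · refine (key hO rfl (b' := 120960) (by norm_num) (c' := 18869760) (by norm_num)).congr_left
      fun z => ?_
    rw [phiOne]; ring
  · rw [psiDual]; ring

/-! ### The expansions of the dual kernels -/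

theorem differentiableAt_kers {z : ℂ} (hz : 0 < z.im) :
    DifferentiableAt ℂ kerP z ∧ DifferentiableAt ℂ kerM z ∧ DifferentiableAt ℂ phiOne z ∧
      DifferentiableAt ℂ phiZero z ∧ DifferentiableAt ℂ psiDual z := by
  obtain ⟨ha, hc⟩ := differentiableAt_thetaFourth hz
  have hd := ((differentiableAt_forms hz).2).pow 2
  have hd0 : discForm z ^ 2 ≠ 0 := pow_ne_zero _ (discForm_ne_zero hz)
  have he := (hasDerivAt_eisTwo hz).differentiableAt
  have hp : DifferentiableAt ℂ eP z := by unfold quadPoly; fun_prop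
  have hq : DifferentiableAt ℂ eQ z := by unfold cubePoly; fun_prop
  have hT : DifferentiableAt ℂ fTwoForm z :=
    ((hp.pow 3).const_mul 49).sub ((hq.pow 2).const_mul 25)
  refine ⟨DifferentiableAt.div ?_ hd hd0, DifferentiableAt.div ?_ hd hd0,
    DifferentiableAt.div ?_ hd hd0, hT.div hd hd0, DifferentiableAt.div ?_ hd hd0⟩
  · exact ((hT.mul (he.pow 2)).sub (((hq.const_mul 48).mul (hp.pow 2)).mul he)).add
      ((((hq.pow 2).const_mul 49).mul hp).sub ((hp.pow 4).const_mul 25))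
  · unfold gForm; fun_prop
  · exact ((hT.const_mul 2).mul he).sub ((hq.const_mul 48).mul (hp.pow 2))
  · unfold gtForm; fun_prop

theorem kers_shift (z : ℂ) :
    kerP (z + 1) = 1 * kerP z ∧ kerM (z + 1) = -1 * kerM z := by
  obtain ⟨h1, -, -, h4, h5, -⟩ := forms_shift z
  constructor <;> simp only [kerP, kerM, h1, h4, h5] <;> ring

theorem isMagic_kerP : IsMagic 1 kerP :=
  ⟨one_pow 2, fun _ hz => (differentiableAt_kers hz).1, fun z _ => (kers_shift z).1,
    small_of_shift (ε := 1) norm_one (fun _ hz => (differentiableAt_kers hz).1.continuousAt)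
      (fun z _ => (kers_shift z).1) isBigO_kers.1⟩

theorem isMagic_kerM : IsMagic (-1) kerM :=
  ⟨by norm_num, fun z hz => (differentiableAt_kers hz).2.1, fun z _ => (kers_shift z).2,
    small_of_shift (by simp) (fun z hz => (differentiableAt_kers hz).2.1.continuousAt)
      (fun z _ => (kers_shift z).2) isBigO_kers.2.1⟩

theorem exp_inv (z : ℂ) : cexp (-(2 * π * I * z)) = (nome z ^ 2)⁻¹ ∧
    cexp (-(4 * π * I * z)) = (nome z ^ 4)⁻¹ := by
  constructor
  · rw [nome_sq, ← Complex.exp_neg]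
  · rw [show nome z ^ 4 = (nome z ^ 2) ^ 2 by ring, nome_sq, ← Complex.exp_nat_mul,
      ← Complex.exp_neg]
    ring_nf

theorem continuousAt_inv_nome (k : ℕ) (z : ℂ) : ContinuousAt (fun z => (nome z ^ k)⁻¹) z :=
  (((by unfold nome; fun_prop : ContinuousAt nome z)).pow k).inv₀
    (pow_ne_zero _ (nome_ne_zero z))

theorem hasMain_kerP : HasMain 1 kerP mainP := by
  refine ⟨fun z hz => ?_, fun z => mainL_periodic .., differentiable_mainL _ _ _ _ _, ?_⟩
  · have hz1 : 0 < (z + 1).im := by simpa using hz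
    have hz2 : 0 < (z - 1).im := by simpa using hz
    obtain ⟨a1, a2, a3, -, a5, -⟩ := forms_shift z
    obtain ⟨b1, b2, b3, b5, -⟩ := forms_back z
    rw [dual_kerP hz, dual_kerP hz1, dual_kerP hz2]
    simp only [kerP, phiOne, phiZero, a1, a2, a3, a5, b1, b2, b3, b5]
    ring
  · obtain ⟨hP, -, h1, h0, -⟩ := isBigO_kers
    have hd := fun z hz => differentiableAt_kers (z := z) hz
    obtain ⟨C2, k2⟩ := exists_strip_bound one_pos (fun z hz => (hd z hz).1.continuousAt) hP
    obtain ⟨C1, k1⟩ := exists_strip_bound one_pos (fun z hz =>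
      (hd z hz).2.2.1.continuousAt.sub (((continuousAt_inv_nome 2 z).const_mul _).add
        continuousAt_const)) h1
    obtain ⟨C0, k0⟩ := exists_strip_bound one_pos (fun z hz => (hd z hz).2.2.2.1.continuousAt.sub
      ((((continuousAt_inv_nome 4 z).const_mul _).add ((continuousAt_inv_nome 2 z).const_mul _)).add
        continuousAt_const)) h0
    refine ⟨4 * |C2| * (Nat.factorial 2 / (π / 2) ^ 2) +
      ‖kap‖ * (2 * |C1|) * (Nat.factorial 1 / (π / 2) ^ 1) +
      ‖kap ^ 2‖ * |C0| * (Nat.factorial 0 / (π / 2) ^ 0), fun z hz hr => ?_⟩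
    have hz0 : 0 < z.im := by linarith
    have hn : ‖z‖ ≤ 2 * z.im := (norm_le_abs_re_add_abs_im z).trans (by
      rw [abs_of_pos hz0]; linarith)
    have e : dualLeech kerP z - mainP z = z ^ 2 * kerP z +
        kap * z * (phiOne z - (120960 * (nome z ^ 2)⁻¹ + 18869760)) +
        kap ^ 2 * (phiZero z - (24 * (nome z ^ 4)⁻¹ + 61632 * (nome z ^ 2)⁻¹ + 6198336)) := by
      rw [dual_kerP hz0, mainP, mainL, (exp_inv z).1, (exp_inv z).2]; ring
    have k : ∀ j : ℕ, ∀ C : ℝ, |C| * (z.im ^ j * Real.exp (-π * z.im)) ≤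
        |C| * (j.factorial / (π / 2) ^ j) * Real.exp (-(π / 2) * z.im) := fun j C => by
      rw [mul_assoc]
      exact mul_le_mul_of_nonneg_left (pow_mul_exp_le j _ hz0.le) (abs_nonneg C)
    have l : ∀ {C : ℝ} {w : ℂ}, ‖w‖ ≤ C * Real.exp (-π * z.im) →
        ‖w‖ ≤ |C| * Real.exp (-π * z.im) := fun {C w} h =>
      h.trans (mul_le_mul_of_nonneg_right (le_abs_self C) (Real.exp_pos _).le)
    rw [e]
    refine (norm_add_le _ _).trans ((add_le_add (norm_add_le _ _) le_rfl).trans ?_)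
    rw [add_mul, add_mul, norm_mul, norm_mul, norm_mul, norm_mul, norm_pow]
    refine add_le_add (add_le_add ?_ ?_) ?_
    · calc ‖z‖ ^ 2 * ‖kerP z‖ ≤ (2 * z.im) ^ 2 * (|C2| * Real.exp (-π * z.im)) := by
            gcongr; exact l (k2 z hz hr)
        _ = 4 * (|C2| * (z.im ^ 2 * Real.exp (-π * z.im))) := by ring
        _ ≤ 4 * (|C2| * (Nat.factorial 2 / (π / 2) ^ 2) * Real.exp (-(π / 2) * z.im)) :=
            mul_le_mul_of_nonneg_left (k 2 C2) (by norm_num)
        _ = _ := by ring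
    · calc ‖kap‖ * ‖z‖ * ‖phiOne z - (120960 * (nome z ^ 2)⁻¹ + 18869760)‖
          ≤ ‖kap‖ * (2 * z.im) * (|C1| * Real.exp (-π * z.im)) := by
            gcongr; exact l (k1 z hz hr)
        _ = ‖kap‖ * 2 * (|C1| * (z.im ^ 1 * Real.exp (-π * z.im))) := by ring
        _ ≤ ‖kap‖ * 2 * (|C1| * (Nat.factorial 1 / (π / 2) ^ 1) *
            Real.exp (-(π / 2) * z.im)) := mul_le_mul_of_nonneg_left (k 1 C1) (by positivity)
        _ = _ := by ring
    · rw [norm_pow]
      calc ‖kap‖ ^ 2 * ‖phiZero z - (24 * (nome z ^ 4)⁻¹ + 61632 * (nome z ^ 2)⁻¹ + 6198336)‖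
          ≤ ‖kap‖ ^ 2 * (|C0| * (z.im ^ 0 * Real.exp (-π * z.im))) := by
            gcongr; simpa using l (k0 z hz hr)
        _ ≤ ‖kap‖ ^ 2 * (|C0| * (Nat.factorial 0 / (π / 2) ^ 0) *
            Real.exp (-(π / 2) * z.im)) := mul_le_mul_of_nonneg_left (k 0 C0) (by positivity)
        _ = _ := by ring

theorem hasMain_kerM : HasMain (-1) kerM mainM := by
  refine ⟨fun z hz => ?_, fun z => mainL_periodic .., differentiable_mainL _ _ _ _ _, ?_⟩
  · have hz1 : 0 < (z + 1).im := by simpa using hz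
    have hz2 : 0 < (z - 1).im := by simpa using hz
    obtain ⟨-, -, -, -, a5, a6⟩ := forms_shift z
    obtain ⟨-, -, -, b5, b6⟩ := forms_back z
    rw [dual_kerM hz, dual_kerM hz1, dual_kerM hz2]
    simp only [psiDual, kerM, a5, a6, b5, b6]
    ring
  · obtain ⟨-, -, -, -, hS⟩ := isBigO_kers
    obtain ⟨C, hB⟩ := exists_strip_bound one_pos (fun z hz =>
      (differentiableAt_kers hz).2.2.2.2.continuousAt.sub
        ((((continuousAt_inv_nome 4 z).const_mul _).sub
          ((continuousAt_inv_nome 2 z).const_mul _)).add continuousAt_const)) hS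
    refine ⟨|C|, fun z hz hr => ?_⟩
    have e : dualLeech kerM z - mainM z =
        psiDual z - (2 * (nome z ^ 4)⁻¹ - 464 * (nome z ^ 2)⁻¹ + 172128) := by
      rw [dual_kerM (by linarith), mainM, mainL, (exp_inv z).1, (exp_inv z).2]; ring
    rw [e]
    exact (hB z hz hr).trans (mul_le_mul (le_abs_self C) (Real.exp_le_exp.2
      (by nlinarith [Real.pi_pos])) (Real.exp_pos _).le (abs_nonneg C))

end FA.Ckmrv

end
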