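import Fermat.Agent.Root.SummaryLeechLattice
import Mathlib.LinearAlgebra.Matrix.Block

/-!
# A triangular basis inside the Leech lattice

Twenty-four vectors of Conway's lattice forming a lower triangular matrix of determinant `8 ^ 12`.
-/

set_option autoImplicit false

noncomputable section

open Matrix

namespace FA.Ckmrv

/-- The vectors. -/
def leechCols : List (List ℤ) :=
  [
    [1, 1, 1, 1, 1, 1, 1, 1, 1, 1, 1, 1, 1, 1, 1, 1, 1, 1, 1, 1, 1, 1, 1, 5],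
    [0, 2, 0, 0, 0, 0, 0, 0, 0, 0, 0, 0, 0, 2, 0, 2, 2, 0, 0, 0, 2, 2, 2, 2],
    [0, 0, 2, 0, 0, 0, 0, 0, 0, 0, 0, 0, 0, 0, 2, 0, 2, 2, 2, 0, 0, 2, 2, 2],
    [0, 0, 0, 2, 0, 0, 0, 0, 0, 0, 0, 0, 0, 2, 0, 2, 0, 2, 2, 2, 0, 0, 2, 2],
    [0, 0, 0, 0, 2, 0, 0, 0, 0, 0, 0, 0, 0, 2, 2, 0, 2, 0, 2, 2, 2, 0, 0, 2],
    [0, 0, 0, 0, 0, 2, 0, 0, 0, 0, 0, 0, 0, 0, 2, 2, 0, 2, 0, 2, 2, 2, 0, 2],
    [0, 0, 0, 0, 0, 0, 2, 0, 0, 0, 0, 0, 2, 0, 2, 2, 2, 0, 2, 0, 2, 2, 0, 0],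
    [0, 0, 0, 0, 0, 0, 0, 2, 0, 0, 0, 0, 2, 0, 0, 2, 2, 2, 0, 2, 0, 2, 2, 0],
    [0, 0, 0, 0, 0, 0, 0, 0, 2, 0, 0, 0, 2, 2, 0, 0, 2, 2, 2, 0, 2, 0, 2, 0],
    [0, 0, 0, 0, 0, 0, 0, 0, 0, 2, 0, 0, 2, 2, 2, 0, 0, 2, 2, 2, 0, 2, 0, 0],
    [0, 0, 0, 0, 0, 0, 0, 0, 0, 0, 2, 0, 2, 2, 2, 2, 0, 0, 0, 2, 2, 0, 2, 0],
    [0, 0, 0, 0, 0, 0, 0, 0, 0, 0, 0, 2, 2, 2, 2, 2, 2, 2, 0, 0, 0, 0, 0, 2],
    [0, 0, 0, 0, 0, 0, 0, 0, 0, 0, 0, 0, 4, 0, 0, 0, 0, 0, 0, 0, 0, 0, 0, 4],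
    [0, 0, 0, 0, 0, 0, 0, 0, 0, 0, 0, 0, 0, 4, 0, 0, 0, 0, 0, 0, 0, 0, 0, 4],
    [0, 0, 0, 0, 0, 0, 0, 0, 0, 0, 0, 0, 0, 0, 4, 0, 0, 0, 0, 0, 0, 0, 0, 4],
    [0, 0, 0, 0, 0, 0, 0, 0, 0, 0, 0, 0, 0, 0, 0, 4, 0, 0, 0, 0, 0, 0, 0, 4],
    [0, 0, 0, 0, 0, 0, 0, 0, 0, 0, 0, 0, 0, 0, 0, 0, 4, 0, 0, 0, 0, 0, 0, 4],
    [0, 0, 0, 0, 0, 0, 0, 0, 0, 0, 0, 0, 0, 0, 0, 0, 0, 4, 0, 0, 0, 0, 0, 4],
    [0, 0, 0, 0, 0, 0, 0, 0, 0, 0, 0, 0, 0, 0, 0, 0, 0, 0, 4, 0, 0, 0, 0, 4],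
    [0, 0, 0, 0, 0, 0, 0, 0, 0, 0, 0, 0, 0, 0, 0, 0, 0, 0, 0, 4, 0, 0, 0, 4],
    [0, 0, 0, 0, 0, 0, 0, 0, 0, 0, 0, 0, 0, 0, 0, 0, 0, 0, 0, 0, 4, 0, 0, 4],
    [0, 0, 0, 0, 0, 0, 0, 0, 0, 0, 0, 0, 0, 0, 0, 0, 0, 0, 0, 0, 0, 4, 0, 4],
    [0, 0, 0, 0, 0, 0, 0, 0, 0, 0, 0, 0, 0, 0, 0, 0, 0, 0, 0, 0, 0, 0, 4, 4],
    [0, 0, 0, 0, 0, 0, 0, 0, 0, 0, 0, 0, 0, 0, 0, 0, 0, 0, 0, 0, 0, 0, 0, 8]]

/-- The words of their second binary digits. -/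
def leechWords : List ℕ :=
  [0, 15835138, 15155204, 13541384, 10313744, 12238880, 3526720, 7049344,
    5714176, 3043840, 5829632, 8648704, 0, 0, 0, 0,
    0, 0, 0, 0, 0, 0, 0, 0]

/-- The basis matrix, the vectors as columns. -/
def leechBasis : Matrix (Fin 24) (Fin 24) ℤ := fun i j =>
  (leechCols.getD j.val []).getD i.val 0

theorem leechBasis_col (j : Fin 24) : (fun i => leechBasis i j) ∈ FA.Summary.leechLattice := by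
  rw [FA.Summary.mem_leechLattice]
  refine ⟨?_, ?_, ?_⟩
  · revert j; decide +kernel
  · refine Finset.mem_image.2 ⟨leechWords.getD j.val 0, List.mem_toFinset.2 ?_, funext fun i => ?_⟩
    · revert j; decide +kernel
    · revert i j; decide +kernel
  · revert j; decide +kernel

theorem leechBasis_mulVec (z : Fin 24 → ℤ) : leechBasis *ᵥ z ∈ FA.Summary.leechLattice := by
  have h : leechBasis *ᵥ z = ∑ j, z j • fun i => leechBasis i j := by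
    funext i
    simp [Matrix.mulVec, dotProduct, Finset.sum_apply, mul_comm]
  rw [h]
  exact sum_mem fun j _ => zsmul_mem (leechBasis_col j) _

theorem leechBasis_det : leechBasis.det = 8 ^ 12 := by
  have h : leechBasis.BlockTriangular OrderDual.toDual := by
    have : ∀ i j : Fin 24, i < j → leechBasis i j = 0 := by decide +kernel
    exact fun i j hij => this i j hij
  rw [Matrix.det_of_isLowerTriangular leechBasis h]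
  decide +kernel

end FA.Ckmrv

end
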