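import Fermat.Agent.Ckmrv.Rays
import Fermat.Agent.Viazovska.MagicPart

/-!
# The eigenfunctions of the Fourier transform in twenty-four variables

For `Ψ (z + 1) = ε Ψ z`, exponentially small at `∞`, four rays in the variable `W = -1 / (z ∓ 1)`,
`-1 / z`, `z` give a function which the Fourier transform in twenty-four variables multiplies
by `ε`.
-/

set_option autoImplicit false

noncomputable section

open Complex MeasureTheory Set Filter FA.Viazovska
open scoped Real Topology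

namespace FA.Ckmrv

/-- The weight on a ray. -/
def rayWt (Ψ : ℂ → ℂ) (x y : ℝ) : ℂ := Ψ (rayPt x y) / rayPt x y ^ 12 * I

/-- The magic transform. -/
def magicPiece (ε : ℂ) (Ψ : ℂ → ℂ) (u : ℝ) : ℂ :=
  -raySum (1 / 2) (rayWt Ψ (-1 / 2)) (fun y => -1 + -1 / rayPt (-1 / 2) y) u -
    raySum (1 / 2) (rayWt Ψ (1 / 2)) (fun y => 1 + -1 / rayPt (1 / 2) y) u +
    2 * raySum 1 (rayWt Ψ 0) (fun y => -1 / rayPt 0 y) u +
    2 * ε * raySum 1 (fun y => Ψ (rayPt 0 y) * I) (rayPt 0) u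

variable {ε : ℂ} {Ψ : ℂ → ℂ}

/-- The shifted inverse rays. -/
theorem isRay_inv (h : IsMagic ε Ψ) {x k y₀ : ℝ} (hy₀ : 1 / 2 ≤ y₀) (hx : |x| ≤ 1 / 2) :
    IsRay y₀ (rayWt Ψ x) (fun y => (k : ℂ) + -1 / rayPt x y) := by
  have hpos : ∀ y ∈ Ici y₀, 0 < y := fun y hy => lt_of_lt_of_le (by norm_num) (hy₀.trans hy)
  refine ⟨hy₀, ?_, ?_, ?_, fun y hy => ?_⟩
  · exact ((h.continuousOn_ray x (hpos _ Set.self_mem_Ici)).div
      ((continuous_rayPt x).pow 12).continuousOn
      fun y hy => pow_ne_zero _ (rayPt_ne_zero (hpos y hy))).mul continuousOn_const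
  · exact continuousOn_const.add (continuousOn_const.div (continuous_rayPt x).continuousOn
      fun y hy => rayPt_ne_zero (hpos y hy))
  · obtain ⟨C, hC⟩ := h.small
    refine ⟨|C| * 4096, fun y hy => ?_⟩
    have hy1 : 1 / 2 ≤ y := hy₀.trans hy
    have hle : (1 / 2 : ℝ) ≤ ‖rayPt x y‖ := hy1.trans <| by
      have := abs_im_le_norm (rayPt x y)
      rw [im_rayPt] at this
      exact (le_abs_self y).trans this
    have h4096 : (‖rayPt x y‖ ^ 12)⁻¹ ≤ 4096 := by
      rw [inv_le_comm₀ (by positivity) (by norm_num)]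
      exact le_trans (by norm_num) (pow_le_pow_left₀ (by norm_num) hle 12)
    rw [rayWt, norm_mul, norm_div, norm_pow, Complex.norm_I, mul_one, div_eq_mul_inv]
    calc ‖Ψ (rayPt x y)‖ * (‖rayPt x y‖ ^ 12)⁻¹ ≤ |C| * Real.exp (-(π / 2) * y) * 4096 := by
          refine mul_le_mul ?_ h4096 (by positivity) (by positivity)
          refine (hC _ (by rw [im_rayPt]; exact hy1)).trans
            (mul_le_mul (le_abs_self C) (Real.exp_le_exp.2 ?_) (Real.exp_pos _).le (abs_nonneg C))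
          rw [im_rayPt]
          nlinarith [Real.pi_pos]
      _ = _ := by ring
  · have hy0 := hpos y hy
    have hns : Complex.normSq (rayPt x y) = x ^ 2 + y ^ 2 := by
      simp [Complex.normSq_apply, re_rayPt, im_rayPt]; ring
    rw [Complex.add_im, Complex.ofReal_im, zero_add, Complex.div_im, hns, im_rayPt]
    simp only [Complex.neg_im, Complex.one_im, neg_zero, zero_mul, zero_div, Complex.neg_re,
      Complex.one_re, neg_mul, one_mul, neg_div, zero_sub, neg_neg]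
    rw [div_le_div_iff₀ (by positivity) (by positivity)]
    nlinarith [sq_abs x, abs_nonneg x, hy₀.trans hy]

theorem rays_of (h : IsMagic ε Ψ) :
    IsRay (1 / 2) (rayWt Ψ (-1 / 2)) (fun y => -1 + -1 / rayPt (-1 / 2) y) ∧
      IsRay (1 / 2) (rayWt Ψ (1 / 2)) (fun y => 1 + -1 / rayPt (1 / 2) y) ∧
      IsRay 1 (rayWt Ψ 0) (fun y => -1 / rayPt 0 y) ∧
      IsRay 1 (fun y => Ψ (rayPt 0 y) * I) (rayPt 0) := by
  refine ⟨?_, ?_, ?_, h.isRay_line⟩
  · simpa using isRay_inv h (x := -1 / 2) (k := -1) le_rfl (by norm_num [abs_of_neg])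
  · simpa using isRay_inv h (x := 1 / 2) (k := 1) le_rfl (by norm_num [abs_of_pos])
  · simpa using isRay_inv h (x := 0) (k := 0) (show (1 / 2 : ℝ) ≤ 1 by norm_num) (by norm_num)

theorem continuousOn_magicPiece (h : IsMagic ε Ψ) :
    ContinuousOn (magicPiece ε Ψ) (Ici 0) := by
  obtain ⟨r1, r2, r3, r4⟩ := rays_of h
  exact ((r1.continuousOn.neg.sub r2.continuousOn).add (continuousOn_const.mul r3.continuousOn)).add
    (continuousOn_const.mul r4.continuousOn)

theorem decay_magicPiece (h : IsMagic ε Ψ) :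
    ∃ C, ∀ u : ℝ, 0 ≤ u → ‖magicPiece ε Ψ u‖ * (1 + u) ^ 24 ≤ C := by
  obtain ⟨r1, r2, r3, r4⟩ := rays_of h
  obtain ⟨C1, h1⟩ := decay_raySum r1
  obtain ⟨C2, h2⟩ := decay_raySum r2
  obtain ⟨C3, h3⟩ := decay_raySum r3
  obtain ⟨C4, h4⟩ := decay_raySum r4
  refine ⟨C1 + C2 + 2 * C3 + ‖2 * ε‖ * C4, fun u hu => ?_⟩
  set p := (1 + u) ^ 24
  have hp : 0 ≤ p := by positivity
  refine (mul_le_mul_of_nonneg_right ((norm_add_le _ _).trans (add_le_add
    ((norm_add_le _ _).trans (add_le_add (norm_sub_le _ _) le_rfl)) le_rfl)) hp).trans ?_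
  rw [norm_neg, norm_mul 2, norm_mul (2 * ε), Complex.norm_two, add_mul, add_mul, add_mul,
    mul_assoc, mul_assoc ‖2 * ε‖]
  exact add_le_add (add_le_add (add_le_add (h1 u hu) (h2 u hu))
    (mul_le_mul_of_nonneg_left (h3 u hu) zero_le_two))
    (mul_le_mul_of_nonneg_left (h4 u hu) (norm_nonneg _))

theorem raySum_congr {y₀ : ℝ} {K K' τ τ' : ℝ → ℂ} (c : ℂ) (hK : ∀ y, y₀ < y → K y = c * K' y)
    (hτ : ∀ y, y₀ < y → τ y = τ' y) (u : ℝ) : raySum y₀ K τ u = c * raySum y₀ K' τ' u := by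
  rw [raySum, raySum, ← integral_const_mul]
  refine setIntegral_congr_fun measurableSet_Ioi fun y hy => ?_
  simp only [hK y hy, hτ y hy, mul_assoc]

/-- **An eigenfunction**: the Fourier transform multiplies it by `ε`. -/
theorem fourier_magicPiece (h : IsMagic ε Ψ) (ξ : Fin 24 → ℝ) :
    ∫ x : Fin 24 → ℝ, cexp (-(2 * π * I * ∑ i, (ξ i : ℂ) * (x i : ℂ))) *
        magicPiece ε Ψ (∑ i, x i ^ 2) = ε * magicPiece ε Ψ (∑ i, ξ i ^ 2) := by
  obtain ⟨r1, r2, r3, r4⟩ := rays_of h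
  have hint : ∀ {y₀ : ℝ} {K τ : ℝ → ℂ}, IsRay y₀ K τ → Integrable fun x : Fin 24 → ℝ =>
      cexp (-(2 * π * I * ∑ i, (ξ i : ℂ) * (x i : ℂ))) * raySum y₀ K τ (∑ i, x i ^ 2) :=
    fun {y₀ K τ} hr => by
    obtain ⟨C, hC⟩ := decay_raySum hr
    have hd : FA.PackingLP.HasDecay (fun x : Fin 24 → ℝ => raySum y₀ K τ (∑ i, x i ^ 2)) :=
      ⟨C, fun x => by
        have hs : 0 ≤ ∑ i, x i ^ 2 := Finset.sum_nonneg fun i _ => sq_nonneg _
        rw [FA.PackingLP.radialWeight, ← div_eq_mul_inv, le_div_iff₀ (by positivity)]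
        exact hC _ hs⟩
    obtain ⟨D, -, hD⟩ := hd.bound
    have hc : Continuous fun x : Fin 24 → ℝ => raySum y₀ K τ (∑ i, x i ^ 2) :=
      hr.continuousOn.comp_continuous (by fun_prop) fun x =>
        mem_Ici.2 (Finset.sum_nonneg fun i _ => sq_nonneg (x i))
    refine (FA.PackingLP.integrable_prodWeight.const_mul D).mono'
      ((Continuous.mul (by fun_prop) hc).aestronglyMeasurable) (Eventually.of_forall fun x => ?_)
    refine le_of_eq_of_le ?_ (hD x)
    simp [Complex.norm_exp]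
  have hsplit : ∀ x : Fin 24 → ℝ, cexp (-(2 * π * I * ∑ i, (ξ i : ℂ) * (x i : ℂ))) *
      magicPiece ε Ψ (∑ i, x i ^ 2) =
      -(cexp (-(2 * π * I * ∑ i, (ξ i : ℂ) * (x i : ℂ))) *
        raySum (1 / 2) (rayWt Ψ (-1 / 2)) (fun y => -1 + -1 / rayPt (-1 / 2) y)
          (∑ i, x i ^ 2)) -
      cexp (-(2 * π * I * ∑ i, (ξ i : ℂ) * (x i : ℂ))) *
        raySum (1 / 2) (rayWt Ψ (1 / 2)) (fun y => 1 + -1 / rayPt (1 / 2) y) (∑ i, x i ^ 2) +
      2 * (cexp (-(2 * π * I * ∑ i, (ξ i : ℂ) * (x i : ℂ))) *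
        raySum 1 (rayWt Ψ 0) (fun y => -1 / rayPt 0 y) (∑ i, x i ^ 2)) +
      2 * ε * (cexp (-(2 * π * I * ∑ i, (ξ i : ℂ) * (x i : ℂ))) *
        raySum 1 (fun y => Ψ (rayPt 0 y) * I) (rayPt 0) (∑ i, x i ^ 2)) := fun x => by
    rw [magicPiece]; ring
  simp only [hsplit]
  rw [integral_add (((hint r1).fun_neg.sub' (hint r2)).fun_add ((hint r3).const_mul 2))
      ((hint r4).const_mul _),
    integral_add ((hint r1).fun_neg.sub' (hint r2)) ((hint r3).const_mul 2),
    integral_sub (hint r1).fun_neg (hint r2), integral_neg, integral_const_mul, integral_const_mul,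
    fourier_raySum r1, fourier_raySum r2, fourier_raySum r3, fourier_raySum r4, magicPiece]
  have hne : ∀ {x y : ℝ}, 1 / 2 < y → rayPt x y ≠ 0 := fun {x y} hy =>
    rayPt_ne_zero (by linarith)
  have e1 : rayPt (-1 / 2) = fun y => rayPt (1 / 2) y - 1 := by
    funext y; simp only [rayPt]; push_cast; ring
  have hε : ∀ a : ℂ, ε * (ε * a) = a := fun a => by rw [← mul_assoc, ← sq, h.sign, one_mul]
  have s1 : ∀ u, raySum (1 / 2) (fun y => rayWt Ψ (-1 / 2) y /
        (-1 + -1 / rayPt (-1 / 2) y) ^ 12) (fun y => -1 / (-1 + -1 / rayPt (-1 / 2) y)) u =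
      ε * raySum (1 / 2) (rayWt Ψ (1 / 2)) (fun y => 1 + -1 / rayPt (1 / 2) y) u := by
    refine raySum_congr ε (fun y hy => ?_) fun y hy => ?_
    · have h0 := hne (x := -1 / 2) hy
      have h1 : rayPt (1 / 2) y ≠ 0 := hne hy
      have hp : Ψ (rayPt (1 / 2) y) = ε * Ψ (rayPt (-1 / 2) y) := by
        rw [← h.shift _ (by rw [im_rayPt]; linarith)]
        congr 1
        simp only [e1]; ring
      rw [rayWt, rayWt, hp, e1]
      simp only [e1] at h0
      rw [show (-1 : ℂ) + -1 / (rayPt (1 / 2) y - 1) =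
        -(rayPt (1 / 2) y / (rayPt (1 / 2) y - 1)) by field_simp; ring,
        show ∀ w : ℂ, (-w) ^ 12 = w ^ 12 from fun w => by ring, div_pow]
      field_simp
      linear_combination (-Ψ (rayPt (1 / 2) y - 1)) * h.sign
    · have h0 := hne (x := -1 / 2) hy
      have h1 : rayPt (1 / 2) y ≠ 0 := hne hy
      simp only [e1] at h0 ⊢
      rw [show (-1 : ℂ) + -1 / (rayPt (1 / 2) y - 1) =
        -(rayPt (1 / 2) y / (rayPt (1 / 2) y - 1)) by field_simp; ring]
      field_simp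
      ring
  have s2 : ∀ u, raySum (1 / 2) (fun y => rayWt Ψ (1 / 2) y /
        (1 + -1 / rayPt (1 / 2) y) ^ 12) (fun y => -1 / (1 + -1 / rayPt (1 / 2) y)) u =
      ε * raySum (1 / 2) (rayWt Ψ (-1 / 2)) (fun y => -1 + -1 / rayPt (-1 / 2) y) u := by
    refine raySum_congr ε (fun y hy => ?_) fun y hy => ?_
    · have h0 := hne (x := -1 / 2) hy
      have h1 : rayPt (1 / 2) y ≠ 0 := hne hy
      have hp : Ψ (rayPt (1 / 2) y) = ε * Ψ (rayPt (-1 / 2) y) := by
        rw [← h.shift _ (by rw [im_rayPt]; linarith)]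
        congr 1
        simp only [e1]; ring
      rw [rayWt, rayWt, hp, e1]
      simp only [e1] at h0
      rw [show (1 : ℂ) + -1 / rayPt (1 / 2) y =
        (rayPt (1 / 2) y - 1) / rayPt (1 / 2) y by field_simp; ring, div_pow]
      field_simp
    · have h0 := hne (x := -1 / 2) hy
      have h1 : rayPt (1 / 2) y ≠ 0 := hne hy
      simp only [e1] at h0 ⊢
      rw [show (1 : ℂ) + -1 / rayPt (1 / 2) y =
        (rayPt (1 / 2) y - 1) / rayPt (1 / 2) y by field_simp; ring]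
      field_simp
      ring
  have s3 : ∀ u, raySum 1 (fun y => rayWt Ψ 0 y / (-1 / rayPt 0 y) ^ 12)
        (fun y => -1 / (-1 / rayPt 0 y)) u =
      1 * raySum 1 (fun y => Ψ (rayPt 0 y) * I) (rayPt 0) u := by
    refine raySum_congr 1 (fun y hy => ?_) fun y hy => ?_
    · have h0 := hne (x := 0) (show 1 / 2 < y by linarith)
      rw [rayWt]; field_simp
    · field_simp
  have s4 : ∀ u, raySum 1 (fun y => Ψ (rayPt 0 y) * I / rayPt 0 y ^ 12)
        (fun y => -1 / rayPt 0 y) u =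
      1 * raySum 1 (rayWt Ψ 0) (fun y => -1 / rayPt 0 y) u := by
    refine raySum_congr 1 (fun y hy => ?_) fun y hy => rfl
    rw [rayWt]; ring
  rw [s1, s2, s3, s4, one_mul, one_mul]
  linear_combination (-2 * raySum 1 (fun y => Ψ (rayPt 0 y) * I) (rayPt 0) (∑ i, ξ i ^ 2)) * h.sign

end FA.Ckmrv

end
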