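import Fermat.Agent.Viazovska.MagicTransform

/-!
# Superpositions of complex Gaussians in twenty-four variables

The Fourier transforms in twenty-four variables and the decay of the superpositions along rays.
-/

set_option autoImplicit false

noncomputable section

open Complex MeasureTheory Set Filter GaussianFourier FA.Viazovska
open scoped Real Topology

namespace FA.Ckmrv

theorem integral_gauss_leech {τ : ℂ} (hτ : 0 < τ.im) (ξ : Fin 24 → ℝ) :
    ∫ x : Fin 24 → ℝ, cexp (-(2 * π * I * ∑ i, (ξ i : ℂ) * (x i : ℂ))) *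
        cexp (π * I * τ * (∑ i, x i ^ 2 : ℝ)) =
      cexp (π * I * (-1 / τ) * (∑ i, ξ i ^ 2 : ℝ)) / τ ^ 12 := by
  have hb : 0 < (-(π * I * τ)).re := by simp; positivity
  have h := integral_cexp_neg_mul_sum_add hb fun i => -(2 * π * I * (ξ i : ℂ))
  have hτ0 : τ ≠ 0 := fun e => by simp [e] at hτ
  have hπ : (π : ℂ) ≠ 0 := ofReal_ne_zero.2 Real.pi_ne_zero
  refine Eq.trans (integral_congr_ae (Eventually.of_forall fun x => ?_)) (h.trans ?_)
  · simp only [← Complex.exp_add]
    congr 1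
    push_cast
    simp only [Finset.mul_sum, neg_mul, Finset.sum_neg_distrib, mul_assoc]
    ring
  · rw [Fintype.card_fin, show ((24 : ℕ) : ℂ) / 2 = ((12 : ℕ) : ℂ) by norm_num, cpow_natCast,
      show (π : ℂ) / -(π * I * τ) = I / τ by field_simp; linear_combination -I_mul_I,
      div_pow, show I ^ 12 = 1 by rw [show 12 = 4 * 3 by norm_num, pow_mul, I_pow_four, one_pow],
      one_div_mul_eq_div]
    congr 2
    push_cast
    simp only [neg_sq, mul_pow, I_sq, ← Finset.mul_sum]
    field_simp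
    linear_combination (4 * ∑ i, (ξ i : ℂ) ^ 2) * I_sq

theorem integrable_gauss_leech {t : ℝ} (ht : 0 < t) :
    Integrable (fun x : Fin 24 → ℝ => Real.exp (-(π * t * ∑ i, x i ^ 2))) ∧
      ∫ x : Fin 24 → ℝ, Real.exp (-(π * t * ∑ i, x i ^ 2)) = (t⁻¹) ^ 12 := by
  have hb : 0 < ((π * t : ℝ) : ℂ).re := by rw [ofReal_re]; positivity
  have he : ∀ x : Fin 24 → ℝ, cexp (-((π * t : ℝ) : ℂ) * ∑ i, (x i : ℂ) ^ 2 +
      ∑ i, (0 : ℂ) * x i) = ((Real.exp (-(π * t * ∑ i, x i ^ 2)) : ℝ) : ℂ) := fun x => by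
    rw [ofReal_exp]; congr 1; push_cast; simp
  have h1 := (integrable_cexp_neg_mul_sum_add hb fun _ : Fin 24 => (0 : ℂ)).congr
    (Eventually.of_forall he)
  have h2 := integral_cexp_neg_mul_sum_add hb fun _ : Fin 24 => (0 : ℂ)
  rw [integral_congr_ae (Eventually.of_forall he), integral_complex_ofReal, Fintype.card_fin,
    show ((24 : ℕ) : ℂ) / 2 = ((12 : ℕ) : ℂ) by norm_num, cpow_natCast] at h2
  refine ⟨h1.re.congr (Eventually.of_forall fun x => ofReal_re _),
    Complex.ofReal_injective (h2.trans ?_)⟩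
  have : (π : ℂ) ≠ 0 := ofReal_ne_zero.2 Real.pi_ne_zero
  push_cast
  simp
  field_simp

variable {y₀ : ℝ} {K τ : ℝ → ℂ}

theorem decay_raySum (h : IsRay y₀ K τ) :
    ∃ C, ∀ u : ℝ, 0 ≤ u → ‖raySum y₀ K τ u‖ * (1 + u) ^ 24 ≤ C := by
  have h0 : IntegrableOn (fun y => ‖K y‖) (Ioi y₀) := by simpa using h.integrable_bound 0
  refine ⟨∫ y in Ioi y₀, 2 ^ 24 * (‖K y‖ + (Nat.factorial 24) / π ^ 24 * (‖K y‖ * (τ y).im⁻¹ ^ 24)),
    fun u hu => ?_⟩
  rw [← norm_pow_one_add hu, ← norm_mul, raySum, ← integral_mul_const]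
  refine norm_integral_le_of_norm_le ((h0.add ((h.integrable_bound 24).const_mul _)).const_mul _) ?_
  refine (ae_restrict_iff' measurableSet_Ioi).2 (Eventually.of_forall fun y hy => ?_)
  obtain ⟨hy0, ht⟩ := h.pos (Ioi_subset_Ici_self hy)
  rw [norm_mul, norm_mul, norm_gauss_cexp, norm_pow_one_add hu, mul_assoc, Real.exp_neg]
  set e := Real.exp (π * (τ y).im * u) with he
  have he0 : 0 < e := Real.exp_pos _
  have he1 : 1 ≤ e := Real.one_le_exp (by positivity)
  have huP : u ^ 24 * (π * (τ y).im) ^ 24 ≤ Nat.factorial 24 * e := by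
    have := Real.pow_div_factorial_le_exp (π * (τ y).im * u) (by positivity) 24
    rw [div_le_iff₀ (by positivity), mul_pow] at this
    rw [mul_comm]; linarith
  have h2 : (1 + u) ^ 24 ≤ 2 ^ 24 * (1 + u ^ 24) := by
    rcases le_total u 1 with h' | h'
    · calc (1 + u) ^ 24 ≤ 2 ^ 24 := pow_le_pow_left₀ (by linarith) (by linarith) 24
        _ ≤ _ := le_mul_of_one_le_right (by norm_num) (by linarith [pow_nonneg hu 24])
    · calc (1 + u) ^ 24 ≤ (2 * u) ^ 24 := pow_le_pow_left₀ (by linarith) (by linarith) 24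
        _ ≤ _ := by rw [mul_pow]; linarith
  calc ‖K y‖ * (e⁻¹ * (1 + u) ^ 24)
      ≤ ‖K y‖ * (2 ^ 24 * (1 + (Nat.factorial 24) / π ^ 24 * (τ y).im⁻¹ ^ 24)) := by
        refine mul_le_mul_of_nonneg_left ?_ (norm_nonneg _)
        rw [inv_mul_le_iff₀ he0]
        refine h2.trans ?_
        rw [mul_left_comm]
        refine mul_le_mul_of_nonneg_left ?_ (by norm_num)
        rw [mul_add, mul_one]
        refine add_le_add he1 ?_
        rw [inv_pow, ← div_eq_mul_inv, div_div, mul_div_assoc', le_div_iff₀ (by positivity),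
          ← mul_pow]
        linarith
    _ = _ := by ring
where
  norm_pow_one_add {u : ℝ} (hu : 0 ≤ u) : ‖(((1 + u) ^ 24 : ℝ) : ℂ)‖ = (1 + u) ^ 24 := by
    rw [norm_real, Real.norm_of_nonneg (by positivity)]

/-- **The Fourier transform of a superposition.** -/
theorem fourier_raySum (h : IsRay y₀ K τ) (ξ : Fin 24 → ℝ) :
    ∫ x : Fin 24 → ℝ, cexp (-(2 * π * I * ∑ i, (ξ i : ℂ) * (x i : ℂ))) *
        raySum y₀ K τ (∑ i, x i ^ 2) =
      raySum y₀ (fun y => K y / τ y ^ 12) (fun y => -1 / τ y) (∑ i, ξ i ^ 2) := by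
  set g : (Fin 24 → ℝ) → ℝ → ℂ := fun x y =>
    cexp (-(2 * π * I * ∑ i, (ξ i : ℂ) * (x i : ℂ))) *
      (K y * cexp (π * I * τ y * (∑ i, x i ^ 2 : ℝ))) with hg
  have hn : ∀ x y, ‖g x y‖ = ‖K y‖ * Real.exp (-(π * (τ y).im * ∑ i, x i ^ 2)) := fun x y => by
    rw [hg, norm_mul, norm_mul, norm_gauss_cexp, Complex.norm_exp]
    simp
  have hm : AEStronglyMeasurable (Function.uncurry g) (volume.prod (volume.restrict (Ioi y₀))) := by
    rw [← Measure.restrict_univ (μ := (volume : Measure (Fin 24 → ℝ))), Measure.prod_restrict]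
    refine ContinuousOn.aestronglyMeasurable ?_ (MeasurableSet.univ.prod measurableSet_Ioi)
    have hmap : MapsTo (Prod.snd : (Fin 24 → ℝ) × ℝ → ℝ) (univ ×ˢ Ioi y₀) (Ici y₀) :=
      fun p hp => Ioi_subset_Ici_self hp.2
    refine ContinuousOn.mul (by fun_prop) ((h.contWeight.comp continuousOn_snd hmap).mul
      (Complex.continuous_exp.comp_continuousOn ((continuousOn_const.mul
        (h.contParam.comp continuousOn_snd hmap)).mul (by fun_prop))))
  have hint : Integrable (Function.uncurry g) (volume.prod (volume.restrict (Ioi y₀))) := by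
    rw [integrable_prod_iff' hm]
    refine ⟨(ae_restrict_iff' measurableSet_Ioi).2 (Eventually.of_forall fun y hy => ?_), ?_⟩
    · have hi := (integrable_gauss_leech (h.pos (Ioi_subset_Ici_self hy)).2).1.const_mul ‖K y‖
      refine hi.mono' (Continuous.aestronglyMeasurable (by
        simp only [Function.uncurry_apply_pair, hg]; fun_prop)) ?_
      exact Eventually.of_forall fun x => (hn x y).le
    · refine (h.integrable_bound 12).congr ((ae_restrict_iff' measurableSet_Ioi).2
        (Eventually.of_forall fun y hy => ?_))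
      simp only [Function.uncurry_apply_pair, hn]
      rw [integral_const_mul, (integrable_gauss_leech (h.pos (Ioi_subset_Ici_self hy)).2).2]
  simp only [raySum, ← integral_const_mul]
  rw [integral_integral_swap hint]
  refine setIntegral_congr_fun measurableSet_Ioi fun y hy => ?_
  simp only [hg, mul_left_comm _ (K y)]
  rw [integral_const_mul, integral_gauss_leech (h.pos (Ioi_subset_Ici_self hy)).2 ξ]
  ring

end FA.Ckmrv

end
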