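import Fermat.Agent.Viazovska.Inequality

/-!
# Two series on the imaginary axis

With `p = E₄`, `q = E₆`, `e = E₂` at `τ = i s`, the combination
`X = ((p² - e q) / 1008 - 5/12 (e² p - 2 e q + p²) / 720) / 30` has the coefficients
`(n σ₅(n) - n² σ₃(n)) / 30 ≥ 0`.
-/

set_option autoImplicit false

noncomputable section

open UpperHalfPlane hiding I
open Complex Filter FA.Eis FA.Tau FA.Viazovska Derivative
open scoped Real Topology ArithmeticFunction.sigma

namespace FA.Ckmrv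

/-- `E₄ (i s)`. -/
def axP (s : ℝ) : ℝ := quadR (axTwo s) (axFour s)

/-- `E₆ (i s)`. -/
def axQ (s : ℝ) : ℝ := cubeR (axTwo s) (axFour s)

/-- The positive remainder of weight eight, in the variables `e`, `p`, `q`. -/
def xPoly (e p q : ℝ) : ℝ :=
  ((p ^ 2 - e * q) / 1008 - 5 / 12 * (e ^ 2 * p - 2 * (e * q) + p ^ 2) / 720) / 30

theorem mul_sigma_three_le (n : ℕ) : (n : ℝ) * σ 3 n ≤ σ 5 n := by
  simp only [ArithmeticFunction.sigma_apply, Nat.cast_sum, Nat.cast_pow, Finset.mul_sum]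
  rw [← sub_nonneg, ← Finset.sum_sub_distrib]
  set g : ℕ → ℝ := fun d => (d : ℝ) ^ 5 - n * (d : ℝ) ^ 3 with hg
  have h2 : 0 ≤ ∑ d ∈ n.divisors, (g d + g (n / d)) := Finset.sum_nonneg fun d hd => by
    obtain ⟨⟨k, hk⟩, hn⟩ := Nat.mem_divisors.1 hd
    have hd0 : d ≠ 0 := fun h => hn (by simp [hk, h])
    rw [hk, Nat.mul_div_cancel_left _ (Nat.pos_of_ne_zero hd0)]
    simp only [hg, hk, Nat.cast_mul]
    have : (d : ℝ) ^ 5 - d * k * d ^ 3 + ((k : ℝ) ^ 5 - d * k * k ^ 3) =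
        ((d : ℝ) - k) ^ 2 * (d + k) * ((d : ℝ) ^ 2 + k ^ 2) := by ring
    rw [this]
    positivity
  rw [Finset.sum_add_distrib, Nat.sum_div_divisors] at h2
  simp only [hg] at h2
  linarith

theorem normalizedDeriv_twice (z : ℍ) :
    normalizedDerivOfComplex (normalizedDerivOfComplex ⇑ModularForm.E₄) z =
      5 / 36 * (EisensteinSeries.E2 z ^ 2 * ModularForm.E₄ z -
        2 * (EisensteinSeries.E2 z * ModularForm.E₆ z) + ModularForm.E₄ z ^ 2) := by
  have d2 := hasDerivAt_of_D E2_mdifferentiable z (FA.Summary.ramanujan_derivative_eTwo z)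
  have d4 := hasDerivAt_of_D ModularForm.E₄.holo' z (ramanujan_four_six z).1
  have d6 := hasDerivAt_of_D ModularForm.E₆.holo' z (ramanujan_four_six z).2
  have e : (normalizedDerivOfComplex ⇑ModularForm.E₄) ∘ ofComplex = fun w =>
      ((EisensteinSeries.E2 ∘ ofComplex) w * (⇑ModularForm.E₄ ∘ ofComplex) w -
        (⇑ModularForm.E₆ ∘ ofComplex) w) / 3 :=
    funext fun w => (ramanujan_four_six _).1
  have hd : HasDerivAt (fun w => ((EisensteinSeries.E2 ∘ ofComplex) w *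
      (⇑ModularForm.E₄ ∘ ofComplex) w - (⇑ModularForm.E₆ ∘ ofComplex) w) / 3) _ (z : ℂ) :=
    ((d2.fun_mul d4).fun_sub d6).div_const 3
  rw [normalizedDerivOfComplex, e, hd.deriv]
  simp only [Function.comp_apply, ofComplex_apply]
  rw [show ModularForm.E₄.toSlashInvariantForm z = ModularForm.E₄ z from rfl]
  field_simp
  ring

theorem xPoly_nonneg {s : ℝ} (hs : 0 < s) : 0 ≤ xPoly (axEis s) (axP s) (axQ s) := by
  obtain ⟨e2, e4, e6⟩ := re_eisTwo_axis hs
  obtain ⟨h1, -⟩ := hasSum_axis (hasQ_deriv (hasQ_deriv hasQ_eFour)) hs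
  obtain ⟨h2, -⟩ := hasSum_axis (hasQ_deriv hasQ_eSix) hs
  rw [normalizedDeriv_twice, e2, e4, e6] at h1
  rw [(ramanujan_four_six _).2, e2, e4, e6] at h2
  norm_cast at h1 h2
  rw [show (5 / 36 : ℂ) = ((5 / 36 : ℝ) : ℂ) by norm_num, ← ofReal_mul, ofReal_re] at h1
  have h := ((h2.mul_left (-1 / 504 : ℝ)).sub (h1.mul_left (1 / 240 : ℝ))).mul_left (1 / 30 : ℝ)
  have hv : xPoly (axEis s) (axP s) (axQ s) = 1 / 30 * ((-1 / 504) *
      ((axEis s * axQ s - axP s ^ 2) / 2) - 1 / 240 * (5 / 36 * (axEis s ^ 2 * axP s -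
        2 * (axEis s * axQ s) + axP s ^ 2))) := by
    rw [xPoly]; ring
  rw [hv]
  simp only [axP, axQ]
  refine hasSum_le (fun n => ?_) hasSum_zero h
  simp only [thetaInt, PowerSeries.coeff_mk, eSixInt, eFourInt]
  rcases Nat.eq_zero_or_pos n with rfl | hn
  · simp
  rw [if_neg hn.ne', if_neg hn.ne']
  push_cast
  have := mul_le_mul_of_nonneg_right (mul_le_mul_of_nonneg_left (mul_sigma_three_le n)
      (Nat.cast_nonneg' n (α := ℝ))) (pow_nonneg (Real.exp_pos (-(2 * π * s))).le n)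
  linarith

end FA.Ckmrv

end
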