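import Fermat.Agent.Ckmrv.Function
import Fermat.Agent.Viazovska.Strict

/-!
# The zeros of the magic function in dimension twenty-four

For `u > 4` outside `2 ℤ` the magic function is negative.
-/

set_option autoImplicit false

noncomputable section

open MeasureTheory Set FA.Viazovska
open scoped Real

namespace FA.Ckmrv

theorem leechVal_neg {u : ℝ} (hu : 4 < u) (hk : ∀ k : ℤ, u ≠ 2 * k) : leechVal (-1) u < 0 := by
  have h0 : 0 < u := by linarith
  rw [leechVal_axis _ h0 (by linarith) hu.ne', neg_one_mul]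
  refine mul_neg_of_pos_of_neg (mul_pos (by positivity) (neg_pos.2 (circR_neg hk))) ?_
  rw [bracketSum_of_large (by linarith) _ (Or.inr hu), sub_neg, innerAx]
  have hK : ∀ y, 0 < y → 0 < kPlus y + -(432 / π ^ 2) * kMinus y := fun y hy => by
    have h1 := fR_pos hy
    have h2 := gFR_pos hy
    have h3 := discR_pos hy
    rw [show kPlus y + -(432 / π ^ 2) * kMinus y = (fR y + 432 / π ^ 2 * gFR y) / discR y ^ 2 by
      rw [kPlus, kMinus]; ring]
    positivity
  refine lt_of_le_of_lt (setIntegral_nonpos measurableSet_Ioi fun y hy => ?_)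
    (setIntegral_Ioi_pos ?_ fun y hy => mul_pos
      (div_pos (hK y (lt_trans one_pos hy)) (pow_pos (lt_trans one_pos hy) 12)) (Real.exp_pos _))
  · exact mul_nonpos_of_nonpos_of_nonneg (neg_nonpos.2 (mul_nonneg (Even.pow_nonneg ⟨5, rfl⟩ y)
      (kSum_sign (inv_pos.2 (lt_trans one_pos hy))).2)) (Real.exp_pos _).le
  · exact ((axData_kerP.integrable_inner isMagic_kerP h0.le).add
      ((axData_kerM.integrable_inner isMagic_kerM h0.le).const_mul (-(432 / π ^ 2)))).congr_fun
        (fun y _ => by simp only [Pi.add_apply]; ring) measurableSet_Ioi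

/-- The test function vanishes only where `4 |x|²` is an even integer. -/
theorem leechTest_eq_zero (x : Fin 24 → ℝ) (h1 : 1 ≤ ∑ i, x i ^ 2) (h0 : leechTest x = 0) :
    ∃ k : ℤ, 4 * ∑ i, x i ^ 2 = 2 * k := by
  by_contra hk
  rw [not_exists] at hk
  rcases h1.lt_or_eq with h | h
  · exact (leechVal_neg (by linarith) hk).ne h0
  · exact hk 2 (by rw [← h]; norm_num)

end FA.Ckmrv

end
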